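import Fermat.Agent.DS.PrimeSum

/-!
# The complex representation attached to a weight one form is irreducible

This uses the Rankin bound together with Chebotarev's theorem.
-/

set_option autoImplicit false

open CongruenceSubgroup UpperHalfPlane ModularFormClass Filter Topology
open scoped MatrixGroups

noncomputable section

namespace Fermat.Agent.DS

/-! ### Finite level -/

lemma finiteIndex_ker_of_factors {M : Type} [Group M] {ρ : GQ →* M}
    (h : GaloisFactorsThroughFiniteLevel ρ) : ρ.ker.FiniteIndex := by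
  obtain ⟨L, hL, hρ⟩ := h
  have := hL
  have : Algebra.IsAlgebraic ℚ (AlgebraicClosure ℚ) := AlgebraicClosure.isAlgebraic ℚ
  have : IsAlgClosure ℚ (AlgebraicClosure ℚ) := ⟨AlgebraicClosure.isAlgClosed ℚ, this⟩
  have : Normal ℚ (AlgebraicClosure ℚ) := IsAlgClosure.normal ℚ (AlgebraicClosure ℚ)
  let K := IntermediateField.normalClosure ℚ L (AlgebraicClosure ℚ)
  have : FiniteDimensional ℚ K := normalClosure.is_finiteDimensional ℚ L _
  have : Normal ℚ K := normalClosure.normal ℚ L _
  have hLK : L ≤ K := IntermediateField.le_normalClosure L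
  have hle : (AlgEquiv.restrictNormalHom (F := ℚ) (K₁ := AlgebraicClosure ℚ) K).ker ≤ ρ.ker := by
    intro σ hσ
    rw [MonoidHom.mem_ker] at hσ ⊢
    refine hρ σ fun x hx => ?_
    have h1 := AlgEquiv.restrictNormal_commutes σ K ⟨x, hLK hx⟩
    have h2 : σ.restrictNormal K = 1 := hσ
    rw [h2] at h1
    exact h1.symm
  have : (AlgEquiv.restrictNormalHom (F := ℚ) (K₁ := AlgebraicClosure ℚ) K).ker.FiniteIndex :=
    inferInstance
  exact Subgroup.finiteIndex_of_le hle

theorem finite_range_of_factors {M : Type} [Group M] {ρ : GQ →* M}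
    (h : GaloisFactorsThroughFiniteLevel ρ) : Finite ρ.range := by
  have := finiteIndex_ker_of_factors h
  exact Finite.of_equiv _ (QuotientGroup.quotientKerEquivRange ρ).toEquiv

lemma factors_rangeRestrict {M : Type} [Group M] {ρ : GQ →* M}
    (h : GaloisFactorsThroughFiniteLevel ρ) : GaloisFactorsThroughFiniteLevel ρ.rangeRestrict := by
  obtain ⟨L, hL, hρ⟩ := h
  exact ⟨L, hL, fun σ hσ => Subtype.ext (hρ σ hσ)⟩

/-! ### The average of `|tr|²` -/

/-- The square of the absolute value of the trace. -/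
def trSq (g : GL (Fin 2) ℂ) : ℝ := ‖(g : Matrix (Fin 2) (Fin 2) ℂ).trace‖ ^ 2

lemma trSq_nonneg (g : GL (Fin 2) ℂ) : 0 ≤ trSq g := by
  unfold trSq
  positivity

lemma trSq_conj (g h : GL (Fin 2) ℂ) : trSq (g * h * g⁻¹) = trSq h := by
  unfold trSq
  congr 2
  have h1 : ((g * h * g⁻¹ : GL (Fin 2) ℂ) : Matrix (Fin 2) (Fin 2) ℂ) =
      (g : Matrix (Fin 2) (Fin 2) ℂ) * (h : Matrix (Fin 2) (Fin 2) ℂ) *
        ((g⁻¹ : GL (Fin 2) ℂ) : Matrix (Fin 2) (Fin 2) ℂ) := by
    simp
  rw [h1, Matrix.trace_mul_comm, ← mul_assoc]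
  have h2 : ((g⁻¹ : GL (Fin 2) ℂ) : Matrix (Fin 2) (Fin 2) ℂ) *
      (g : Matrix (Fin 2) (Fin 2) ℂ) = 1 := by
    exact Units.inv_mul g
  rw [h2, one_mul]

theorem sum_trSq_le (N : ℕ) [NeZero N] (hR : RankinPrimes N) (hC : Chebotarev)
    (ε : DirichletCharacter ℂ N) (f : CuspForm (Gamma1 N) 1) (hf : WtOneEigen N ε f)
    (ρ : GQ →* GL (Fin 2) ℂ) (hfin : GaloisFactorsThroughFiniteLevel ρ)
    (hfrob : ∀ p : ℕ, p.Prime → ¬ p ∣ N → ∀ A : ValuationSubring (AlgebraicClosure ℚ),
      A.LiesOverPrime p → ∀ σ : GQ, A.IsFrobeniusAt σ p →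
        ((ρ σ : GL (Fin 2) ℂ) : Matrix (Fin 2) (Fin 2) ℂ).trace = ModularFormClass.qCoeff f p)
    [Fintype ρ.range] :
    ∑ g : ρ.range, trSq (g : GL (Fin 2) ℂ) ≤ Fintype.card ρ.range := by
  classical
  set w : ρ.range → ℝ := fun g => trSq (g : GL (Fin 2) ℂ) with hw
  have hw0 : ∀ g, 0 ≤ w g := fun g => trSq_nonneg _
  set V : Finset ℝ := Finset.univ.image w with hV
  have hV0 : ∀ t ∈ V, 0 ≤ t := by
    intro t ht
    obtain ⟨g, -, rfl⟩ := Finset.mem_image.mp ht
    exact hw0 g
  set ψ : GQ →* ρ.range := ρ.rangeRestrict with hψ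
  set Cl : ℝ → Set ρ.range := fun t => {g | w g = t} with hCl
  have hconj : ∀ t, ∀ g c : ρ.range, c ∈ Cl t → g * c * g⁻¹ ∈ Cl t := by
    intro t g c hc
    have h1 : w c = t := hc
    change w (g * c * g⁻¹) = t
    rw [← h1]
    exact trSq_conj _ _
  have hlim : Tendsto (fun s : ℝ => (∑ t ∈ V, t * primeSum (FrobSet ψ (Cl t)) s) /
      Real.log (1 / (s - 1))) (𝓝[>] 1)
      (𝓝 (∑ t ∈ V, t * ((Nat.card (Cl t) : ℝ) / Nat.card ρ.range))) := by
    have : (fun s : ℝ => (∑ t ∈ V, t * primeSum (FrobSet ψ (Cl t)) s) /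
      Real.log (1 / (s - 1))) = fun s => ∑ t ∈ V, t * (primeSum (FrobSet ψ (Cl t)) s /
      Real.log (1 / (s - 1))) := by
      funext s
      rw [Finset.sum_div]
      refine Finset.sum_congr rfl fun t _ => ?_
      ring
    rw [this]
    refine tendsto_finsetSum _ fun t _ => ?_
    exact (hC ρ.range ψ ρ.rangeRestrict_surjective (factors_rangeRestrict hfin) (Cl t)
      (hconj t)).const_mul t
  have hval : ∑ t ∈ V, t * ((Nat.card (Cl t) : ℝ) / Nat.card ρ.range) =
      (∑ g : ρ.range, w g) / Fintype.card ρ.range := by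
    rw [Nat.card_eq_fintype_card, ← Finset.sum_fiberwise_of_maps_to (s := Finset.univ) (t := V)
      (g := w) (f := w) (fun g _ => Finset.mem_image_of_mem _ (Finset.mem_univ g)),
      Finset.sum_div]
    refine Finset.sum_congr rfl fun t _ => ?_
    have h1 : ∑ g ∈ Finset.univ.filter (fun g => w g = t), w g =
        ∑ g ∈ Finset.univ.filter (fun g => w g = t), t :=
      Finset.sum_congr rfl fun g hg => (Finset.mem_filter.mp hg).2
    rw [h1, Finset.sum_const, nsmul_eq_mul]
    have h2 : Nat.card (Cl t) = (Finset.univ.filter (fun g => w g = t)).card := by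
      rw [Nat.card_eq_fintype_card]
      exact Fintype.card_subtype _
    rw [h2]
    ring
  rw [hval] at hlim
  obtain ⟨C, hCb⟩ := hR ε f hf
  set S : ℝ := ∑ t ∈ V, t with hS
  have hS0 : 0 ≤ S := Finset.sum_nonneg hV0
  have hle : (∑ g : ρ.range, w g) / Fintype.card ρ.range ≤ 1 := by
    refine le_of_density (C := C + N.divisors.card * S) hlim fun s hs hs2 => ?_
    obtain ⟨hsum, hbd⟩ := hCb s hs hs2
    have hN : N ≠ 0 := NeZero.ne N
    have hfs : ∀ p ∉ N.divisors, (if p ∣ N then S else 0) = 0 := by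
      intro p hp
      rw [if_neg]
      intro h
      exact hp (Nat.mem_divisors.mpr ⟨h, hN⟩)
    have hsum2 : Summable (fun p : ℕ => if p ∣ N then S else 0) :=
      summable_of_ne_finset_zero (s := N.divisors) hfs
    have hts2 : ∑' p : ℕ, (if p ∣ N then S else 0) = N.divisors.card * S := by
      rw [tsum_eq_sum (s := N.divisors) hfs]
      rw [Finset.sum_congr rfl (g := fun _ => S)
        (fun p hp => if_pos (Nat.mem_divisors.mp hp).1), Finset.sum_const, nsmul_eq_mul]
    have h1 : ∑ t ∈ V, t * primeSum (FrobSet ψ (Cl t)) s =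
        ∑' p : ℕ, ∑ t ∈ V, t * (if p.Prime ∧ p ∈ FrobSet ψ (Cl t) then (p : ℝ) ^ (-s) else 0) := by
      rw [Summable.tsum_finsetSum fun t _ => (summable_primeSum _ hs).mul_left t]
      refine Finset.sum_congr rfl fun t _ => ?_
      rw [tsum_mul_left, primeSum]
    rw [h1]
    calc ∑' p : ℕ, ∑ t ∈ V, t * (if p.Prime ∧ p ∈ FrobSet ψ (Cl t) then (p : ℝ) ^ (-s) else 0)
        ≤ ∑' p : ℕ, ((if p.Prime ∧ ¬ p ∣ N then
            ‖ModularFormClass.qCoeff f p‖ ^ 2 * (p : ℝ) ^ (-s) else 0) +
            (if p ∣ N then S else 0)) := by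
          refine Summable.tsum_le_tsum (fun p => ?_)
            (summable_sum fun t _ => (summable_primeSum _ hs).mul_left t) (hsum.add hsum2)
          by_cases hp : p.Prime
          · have hp0 : (0 : ℝ) ≤ (p : ℝ) ^ (-s) := by positivity
            by_cases hpN : p ∣ N
            · rw [if_neg (fun h => h.2 hpN), if_pos hpN, zero_add, hS]
              refine Finset.sum_le_sum fun t ht => ?_
              split_ifs
              · have h2 : (p : ℝ) ^ (-s) ≤ 1 := by
                  have h1 : (1 : ℝ) ≤ p := by exact_mod_cast hp.one_lt.le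
                  exact Real.rpow_le_one_of_one_le_of_nonpos h1 (by linarith)
                calc t * (p : ℝ) ^ (-s) ≤ t * 1 := mul_le_mul_of_nonneg_left h2 (hV0 t ht)
                  _ = t := mul_one t
              · rw [mul_zero]
                exact hV0 t ht
            · rw [if_pos ⟨hp, hpN⟩, if_neg hpN, add_zero]
              have h3 : ∀ t ∈ V, t ≠ ‖ModularFormClass.qCoeff f p‖ ^ 2 →
                  t * (if p.Prime ∧ p ∈ FrobSet ψ (Cl t) then (p : ℝ) ^ (-s) else 0) = 0 := by
                intro t ht hne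
                rw [if_neg, mul_zero]
                rintro ⟨-, -, A, hA, -, σ, hσ, hσC⟩
                have h4 : w (ψ σ) = t := hσC
                apply hne
                rw [← h4, hw]
                change trSq (ρ σ) = _
                rw [trSq, hfrob p hp hpN A hA σ hσ]
              by_cases hmem : ‖ModularFormClass.qCoeff f p‖ ^ 2 ∈ V
              · rw [Finset.sum_eq_single_of_mem _ hmem h3]
                split_ifs
                · exact le_rfl
                · rw [mul_zero]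
                  positivity
              · rw [Finset.sum_eq_zero fun t ht => h3 t ht (fun h => hmem (h ▸ ht))]
                positivity
          · have h2 : ∑ t ∈ V, t * (if p.Prime ∧ p ∈ FrobSet ψ (Cl t) then (p : ℝ) ^ (-s) else 0)
                = 0 := by
              refine Finset.sum_eq_zero fun t _ => ?_
              rw [if_neg (fun h => hp h.1), mul_zero]
            rw [h2, if_neg (fun h => hp h.1), zero_add]
            split_ifs
            · exact hS0
            · exact le_rfl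
      _ = (∑' p : ℕ, (if p.Prime ∧ ¬ p ∣ N then
            ‖ModularFormClass.qCoeff f p‖ ^ 2 * (p : ℝ) ^ (-s) else 0)) +
            N.divisors.card * S := by
          rw [hsum.tsum_add hsum2, hts2]
      _ ≤ (Real.log (1 / (s - 1)) + C) + N.divisors.card * S := by linarith
      _ = 1 * Real.log (1 / (s - 1)) + (C + N.divisors.card * S) := by ring
  have hcard : (0 : ℝ) < Fintype.card ρ.range := by
    exact_mod_cast Fintype.card_pos
  rwa [div_le_one hcard] at hle

/-! ### Reducible representations -/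

lemma norm_eq_one_of_hom {G : Type*} [Group G] [Finite G] (χ : G →* ℂ) (g : G) :
    ‖χ g‖ = 1 := by
  have h1 : χ g ^ Nat.card G = 1 := by
    rw [← map_pow, pow_card_eq_one', map_one]
  exact Complex.norm_eq_one_of_pow_eq_one h1 Nat.card_pos.ne'

lemma trace_eq_of_eigen {A : Matrix (Fin 2) (Fin 2) ℂ} {v : Fin 2 → ℂ} (hv : v ≠ 0) {c : ℂ}
    (h : A.mulVec v = c • v) : c ^ 2 - A.trace * c + A.det = 0 := by
  have h0 : A 0 0 * v 0 + A 0 1 * v 1 = c * v 0 := by
    have := congrFun h 0
    simpa [Matrix.mulVec, dotProduct, Fin.sum_univ_two] using this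
  have h1 : A 1 0 * v 0 + A 1 1 * v 1 = c * v 1 := by
    have := congrFun h 1
    simpa [Matrix.mulVec, dotProduct, Fin.sum_univ_two] using this
  rw [Matrix.trace_fin_two, Matrix.det_fin_two]
  have hv' : v 0 ≠ 0 ∨ v 1 ≠ 0 := by
    by_contra hcon
    push Not at hcon
    apply hv
    funext i
    fin_cases i
    · exact hcon.1
    · exact hcon.2
  rcases hv' with hv' | hv'
  · have : (c ^ 2 - (A 0 0 + A 1 1) * c + (A 0 0 * A 1 1 - A 0 1 * A 1 0)) * v 0 = 0 := by
      linear_combination (A 1 1 - c) * h0 - A 0 1 * h1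
    exact (mul_eq_zero.mp this).resolve_right hv'
  · have : (c ^ 2 - (A 0 0 + A 1 1) * c + (A 0 0 * A 1 1 - A 0 1 * A 1 0)) * v 1 = 0 := by
      linear_combination (A 0 0 - c) * h1 - A 1 0 * h0
    exact (mul_eq_zero.mp this).resolve_right hv'

/-- A finite subgroup of `GL₂(ℂ)` with a common eigenvector, containing an involution of
determinant `-1`, has `∑ |tr|² = 2 |G|`. -/
lemma sum_trSq_of_eigen (G : Subgroup (GL (Fin 2) ℂ)) [Fintype G] {v : Fin 2 → ℂ} (hv : v ≠ 0)
    (hG : ∀ g ∈ G, ∃ c : ℂ, (g : Matrix (Fin 2) (Fin 2) ℂ).mulVec v = c • v)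
    (c : GL (Fin 2) ℂ) (hcG : c ∈ G) (hc : c * c = 1)
    (hdet : (c : Matrix (Fin 2) (Fin 2) ℂ).det = -1) :
    ∑ g : G, trSq (g : GL (Fin 2) ℂ) = 2 * Fintype.card G := by
  classical
  have hG' : ∀ g : G, ∃ c : ℂ, ((g : GL (Fin 2) ℂ) : Matrix (Fin 2) (Fin 2) ℂ).mulVec v = c • v :=
    fun g => hG g g.2
  choose χ hχ using hG'
  have hinj : ∀ a b : ℂ, a • v = b • v → a = b := by
    intro a b hab
    by_contra hne
    have : (a - b) • v = 0 := by rw [sub_smul, hab, sub_self]
    rcases smul_eq_zero.mp this with h | h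
    · exact hne (sub_eq_zero.mp h)
    · exact hv h
  let X : G →* ℂ :=
    { toFun := χ
      map_one' := by
        apply hinj
        rw [← hχ 1]
        simp
      map_mul' := by
        intro g h
        apply hinj
        rw [← hχ (g * h), mul_smul]
        rw [Subgroup.coe_mul, Units.val_mul, ← Matrix.mulVec_mulVec, hχ h, Matrix.mulVec_smul,
          hχ g, smul_comm] }
  let D : G →* ℂ :=
    { toFun := fun g => ((g : GL (Fin 2) ℂ) : Matrix (Fin 2) (Fin 2) ℂ).det
      map_one' := by simp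
      map_mul' := by
        intro g h
        simp }
  let Dinv : G →* ℂ :=
    { toFun := fun g => D g⁻¹
      map_one' := by simp
      map_mul' := by
        intro g h
        rw [mul_inv_rev, map_mul, mul_comm] }
  let η : G →* ℂ := X ^ 2 * Dinv
  have hη : ∀ g, η g = X g ^ 2 * D g⁻¹ := fun g => rfl
  have hDD : ∀ g, D g * D g⁻¹ = 1 := by
    intro g
    rw [← map_mul, mul_inv_cancel, map_one]
  have htr : ∀ g : G, trSq (g : GL (Fin 2) ℂ) = 2 + 2 * (η g).re := by
    intro g
    have h1 := trace_eq_of_eigen hv (hχ g)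
    have hX : X g = χ g := rfl
    have hD : D g = ((g : GL (Fin 2) ℂ) : Matrix (Fin 2) (Fin 2) ℂ).det := rfl
    rw [← hX, ← hD] at h1
    set T := ((g : GL (Fin 2) ℂ) : Matrix (Fin 2) (Fin 2) ℂ).trace with hT
    have hXn : ‖X g‖ = 1 := norm_eq_one_of_hom X g
    have hηn : ‖η g‖ = 1 := norm_eq_one_of_hom η g
    have hDn : ‖D g⁻¹‖ = 1 := norm_eq_one_of_hom D g⁻¹
    have h2 : T * X g * D g⁻¹ = η g + 1 := by
      rw [hη]
      linear_combination (-D g⁻¹) * h1 + hDD g
    have h3 : ‖T‖ = ‖η g + 1‖ := by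
      rw [← h2, norm_mul, norm_mul, hXn, hDn, mul_one, mul_one]
    rw [trSq, ← hT, h3, ← Complex.normSq_eq_norm_sq, Complex.normSq_apply]
    have h4 : (η g).re * (η g).re + (η g).im * (η g).im = 1 := by
      rw [← Complex.normSq_apply, Complex.normSq_eq_norm_sq, hηn, one_pow]
    simp only [Complex.add_re, Complex.one_re, Complex.add_im, Complex.one_im, add_zero]
    linear_combination h4
  have hne : η ≠ 1 := by
    intro h
    have h1 : η ⟨c, hcG⟩ = 1 := by rw [h]; rfl
    have h2 : X ⟨c, hcG⟩ ^ 2 = 1 := by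
      rw [← map_pow]
      have : (⟨c, hcG⟩ : G) ^ 2 = 1 := by
        rw [pow_two]
        exact Subtype.ext hc
      rw [this, map_one]
    have h3 : D ⟨c, hcG⟩ = -1 := hdet
    have h4 := hDD ⟨c, hcG⟩
    rw [hη, h2, one_mul] at h1
    rw [h1, h3] at h4
    norm_num at h4
  have hsum : ∑ g : G, η g = 0 := sum_hom_units_eq_zero η hne
  rw [Finset.sum_congr rfl fun g _ => htr g, Finset.sum_add_distrib, ← Finset.mul_sum,
    ← Complex.re_sum, hsum]
  simp [mul_comm]

theorem isIrreducible_of_rankin (N : ℕ) [NeZero N] (hR : RankinPrimes N) (hC : Chebotarev)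
    (ε : DirichletCharacter ℂ N) (f : CuspForm (Gamma1 N) 1) (hf : WtOneEigen N ε f)
    (ρ : GQ →* GL (Fin 2) ℂ) (hfin : GaloisFactorsThroughFiniteLevel ρ)
    (hfrob : ∀ p : ℕ, p.Prime → ¬ p ∣ N → ∀ A : ValuationSubring (AlgebraicClosure ℚ),
      A.LiesOverPrime p →
          (∀ σ ∈ A.inertiaSubgroupIn ℚ, ρ σ = 1) ∧ ∀ σ : GQ, A.IsFrobeniusAt σ p →
            ((ρ σ : GL (Fin 2) ℂ) : Matrix (Fin 2) (Fin 2) ℂ).trace = ModularFormClass.qCoeff f p)
    (c : GQ) (hc : c * c = 1)
    (hdet : ((ρ c : GL (Fin 2) ℂ) : Matrix (Fin 2) (Fin 2) ℂ).det = -1) :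
    (Deformation.matrixRepresentation ρ).IsIrreducible := by
  classical
  have := finite_range_of_factors hfin
  have := Fintype.ofFinite ρ.range
  have hnt : Nontrivial (Subrepresentation (Deformation.matrixRepresentation ρ)) := by
    refine ⟨⊥, ⊤, fun h => ?_⟩
    have h1 := congrArg Subrepresentation.toSubmodule h
    have h2 : (⊥ : Submodule ℂ (Fin 2 → ℂ)) = ⊤ := h1
    exact bot_ne_top h2
  refine { hnt with eq_bot_or_eq_top := fun W => ?_ }
  by_contra hcon
  push Not at hcon
  obtain ⟨hb, ht⟩ := hcon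
  have hb' : W.toSubmodule ≠ ⊥ := fun h => hb (Subrepresentation.toSubmodule_injective h)
  have ht' : W.toSubmodule ≠ ⊤ := fun h => ht (Subrepresentation.toSubmodule_injective h)
  have hrk : Module.finrank ℂ W.toSubmodule = 1 := by
    have h1 : Module.finrank ℂ W.toSubmodule < 2 := by
      have := Submodule.finrank_lt ht'
      simpa using this
    have h2 : Module.finrank ℂ W.toSubmodule ≠ 0 := by
      intro h
      exact hb' (Submodule.finrank_eq_zero.mp h)
    omega
  obtain ⟨v, hvW, hv0⟩ := Submodule.exists_mem_ne_zero_of_ne_bot hb'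
  have hv : ∀ x ∈ W.toSubmodule, ∃ a : ℂ, x = a • v := by
    intro x hx
    obtain ⟨a, ha⟩ := exists_smul_eq_of_finrank_eq_one hrk
      (x := (⟨v, hvW⟩ : W.toSubmodule)) (fun h => hv0 (congrArg Subtype.val h)) ⟨x, hx⟩
    exact ⟨a, (congrArg Subtype.val ha).symm⟩
  have hG : ∀ g ∈ ρ.range, ∃ a : ℂ, (g : Matrix (Fin 2) (Fin 2) ℂ).mulVec v = a • v := by
    rintro g ⟨σ, rfl⟩
    have := W.apply_mem_toSubmodule σ hvW
    rw [Deformation.matrixRepresentation_apply] at this
    exact hv _ this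
  have h1 := sum_trSq_of_eigen ρ.range hv0 hG (ρ c) ⟨c, rfl⟩ (by rw [← map_mul, hc, map_one]) hdet
  have h2 := sum_trSq_le N hR hC ε f hf ρ hfin
    (fun p hp hpN A hA σ hσ => (hfrob p hp hpN A hA).2 σ hσ)
  have hcard : (0 : ℝ) < Fintype.card ρ.range := by
    exact_mod_cast Fintype.card_pos
  rw [h1] at h2
  linarith

end Fermat.Agent.DS

end
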