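import Fermat.Agent.DS.EisQExp

/-!
# An Eisenstein series on `Γ₁(N)` with integral `q`-expansion and stabiliser exactly `Γ₁(N)`
-/

set_option autoImplicit false

open UpperHalfPlane ModularForm EisensteinSeries Matrix.SpecialLinearGroup Filter Topology
  CongruenceSubgroup
open scoped MatrixGroups Manifold ModularForm Nat

noncomputable section

namespace Fermat.Agent.DSEis

variable {N : ℕ} [NeZero N]

/-- the Eisenstein series attached to `ψ : ZMod N → ℂ`, as a modular form on `Γ₁(N)` -/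
def eisMF (ψ : ZMod N → ℂ) (k : ℕ) (hk : 3 ≤ k) :
    ModularForm (Gamma1 N : Subgroup (GL (Fin 2) ℝ)) k where
  toFun := eis (fun a => ψ (a 0)) k
  slash_action_eq' := by
    rintro _ ⟨γ, hγ, rfl⟩
    have hγ' : γ⁻¹ ∈ Gamma1 N := inv_mem hγ
    rw [Gamma1_mem] at hγ'
    show (eis (fun a => ψ (a 0)) k) ∣[(k : ℤ)] γ = _
    rw [eis_slash]
    congr 1
    ext a
    congr 1
    simp only [Matrix.vecMul, dotProduct, Fin.sum_univ_two, Matrix.map_apply]
    have e1 := hγ'.1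
    have e2 := hγ'.2.2
    simp only [Int.coe_castRingHom]
    rw [e1, e2]
    ring
  holo' := eis_mdiff (N := N) (k := (k : ℤ)) (fun a => ψ (a 0)) (by exact_mod_cast hk)
  bdd_at_cusps' {c} hc := by
    rw [Subgroup.IsArithmetic.isCusp_iff_isCusp_SL2Z] at hc
    rw [OnePoint.isBoundedAt_iff_forall_SL2Z hc]
    intro γ _
    show IsBoundedAtImInfty ((eis (fun a => ψ (a 0)) k) ∣[(k : ℤ)] γ)
    rw [eis_slash]
    exact eis_bdd _ (by exact_mod_cast hk)

@[simp] lemma coe_eisMF (ψ : ZMod N → ℂ) (k : ℕ) (hk : 3 ≤ k) :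
    ⇑(eisMF ψ k hk) = eis (fun a => ψ (a 0)) k := rfl

omit [NeZero N] in
lemma one_mem_G1 : (1 : ℝ) ∈ (Gamma1 N : Subgroup (GL (Fin 2) ℝ)).strictPeriods := by
  simp [CongruenceSubgroup.strictPeriods_Gamma1]

theorem qExpansion_eisMF (ψ : ZMod N → ℂ) (k : ℕ) (hk : 3 ≤ k) (n : ℕ) :
    (qExpansion 1 (eisMF ψ k hk)).coeff n = eisCoeff ψ k n :=
  (ModularFormClass.qExpansion_coeff_unique one_pos one_mem_G1
    (fun τ => hasSum_eis ψ hk τ) n).symm

/-! ### the special case `ψ = 1_{1}` and the stabiliser -/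

/-- indicator function of `1` -/
def ind1 (N : ℕ) : ZMod N → ℂ := fun a => if a = 1 then 1 else 0

/-- `∑_{d : ℤ, d x = 1 mod N} d^{-k}` -/
def zsum (k : ℕ) (x : ZMod N) : ℂ :=
  ∑' d : ℤ, (if (d : ZMod N) * x = 1 then 1 else 0) * (d : ℂ) ^ (-(k : ℤ))

omit [NeZero N] in
lemma cuspVal_slash (k : ℕ) (A : SL(2, ℤ)) :
    cuspVal (fun a : Fin 2 → ZMod N => ind1 N ((Matrix.vecMul a
      (((A⁻¹ : SL(2, ℤ)) : Matrix (Fin 2) (Fin 2) ℤ).map (Int.castRingHom (ZMod N)))) 0)) k =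
    zsum k (-(A 1 0 : ℤ) : ZMod N) := by
  rw [cuspVal, zsum]
  refine tsum_congr fun d => ?_
  congr 1
  have : Matrix.vecMul ![(0 : ZMod N), (d : ZMod N)]
      (((A⁻¹ : SL(2, ℤ)) : Matrix (Fin 2) (Fin 2) ℤ).map (Int.castRingHom (ZMod N))) 0 =
      (d : ZMod N) * (-(A 1 0 : ℤ) : ZMod N) := by
    have e : (((A⁻¹ : SL(2, ℤ)) : Matrix (Fin 2) (Fin 2) ℤ)) 1 0 = - A 1 0 := by
      rw [Matrix.SpecialLinearGroup.SL2_inv_expl]; rfl
    simp only [Matrix.vecMul, dotProduct, Fin.sum_univ_two, Matrix.map_apply, e]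
    simp
  rw [this]
  rfl

lemma zsum_eq_of_slash_eq {k : ℕ} (hk : 3 ≤ k) {A B : SL(2, ℤ)}
    (h : (eis (fun a : Fin 2 → ZMod N => ind1 N (a 0)) k) ∣[(k : ℤ)] A =
      (eis (fun a : Fin 2 → ZMod N => ind1 N (a 0)) k) ∣[(k : ℤ)] B) :
    zsum k (-(A 1 0 : ℤ) : ZMod N) = zsum k (-(B 1 0 : ℤ) : ZMod N) := by
  have hk' : (3 : ℤ) ≤ k := by exact_mod_cast hk
  rw [eis_slash, eis_slash] at h
  rw [← cuspVal_slash, ← cuspVal_slash]
  refine tendsto_nhds_unique (tendsto_eis _ hk') ?_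
  have := tendsto_eis (N := N) (fun a : Fin 2 → ZMod N => ind1 N ((Matrix.vecMul a
      (((B⁻¹ : SL(2, ℤ)) : Matrix (Fin 2) (Fin 2) ℤ).map (Int.castRingHom (ZMod N)))) 0)) hk'
  rw [← h] at this
  exact this

/-- real version, for a residue `a` -/
def zr (N k : ℕ) (a : ℤ) : ℝ := ∑' j : ℤ, ((a + j * N : ℤ) : ℝ) ^ (-(k : ℤ))

lemma summable_zr {k : ℕ} (hk : 3 ≤ k) (a : ℤ) :
    Summable fun j : ℤ => ((a + j * N : ℤ) : ℝ) ^ (-(k : ℤ)) := by
  have h1 : Summable fun d : ℤ => ((d : ℝ) ^ (-(k : ℤ))) := by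
    have := (Real.summable_abs_int_rpow (b := (k : ℝ)) (by exact_mod_cast (by omega : 1 < k)))
    refine Summable.of_norm (this.congr fun b => ?_)
    rw [norm_zpow, Real.norm_eq_abs, Real.rpow_neg (abs_nonneg _), Real.rpow_natCast, zpow_neg,
      zpow_natCast]
  have hinj : Function.Injective (fun j : ℤ => a + j * N) := by
    intro x y hxy
    have : x * (N : ℤ) = y * N := by simpa using hxy
    exact mul_right_cancel₀ (by exact_mod_cast NeZero.ne N) this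
  exact h1.comp_injective hinj

lemma zsum_inv {k : ℕ} (x : (ZMod N)ˣ) :
    zsum k (x : ZMod N) = (zr N k ((x⁻¹ : (ZMod N)ˣ) : ZMod N).val : ℂ) := by
  set a : ℕ := ((x⁻¹ : (ZMod N)ˣ) : ZMod N).val with ha
  have hinj : Function.Injective (fun j : ℤ => (a : ℤ) + j * N) := by
    intro x y hxy
    have : x * (N : ℤ) = y * N := by simpa using hxy
    exact mul_right_cancel₀ (by exact_mod_cast NeZero.ne N) this
  have hax : (a : ZMod N) = ((x⁻¹ : (ZMod N)ˣ) : ZMod N) := by rw [ha, ZMod.natCast_zmod_val]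
  rw [zsum, zr, ← hinj.tsum_eq, Complex.ofReal_tsum]
  · refine tsum_congr fun j => ?_
    have : (((a : ℤ) + j * N : ℤ) : ZMod N) * x = 1 := by
      push_cast
      rw [hax]
      simp
    rw [this]
    simp
  · intro d hd
    have h1 : (d : ZMod N) * x = 1 := by
      by_contra h
      simp [h] at hd
    have h2 : (d : ZMod N) = ((a : ℤ) : ZMod N) := by
      rw [Int.cast_natCast, hax]
      rw [mul_comm] at h1
      exact Units.eq_inv_of_mul_eq_one_left h1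
    rw [ZMod.intCast_eq_intCast_iff_dvd_sub] at h2
    obtain ⟨j, hj⟩ := h2
    refine ⟨-j, ?_⟩
    simp only
    linear_combination hj

lemma zsum_of_not_isUnit {k : ℕ} {x : ZMod N} (hx : ¬ IsUnit x) : zsum k x = 0 := by
  rw [zsum]
  have : ∀ d : ℤ, ¬ ((d : ZMod N) * x = 1) := fun d hd =>
    hx (IsUnit.of_mul_eq_one _ (by rw [mul_comm]; exact hd))
  simp [this]

lemma zr_strictAnti {k : ℕ} (hk : 3 ≤ k) (hodd : Odd k) {a b : ℤ} (ha : 0 < a) (hab : a < b)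
    (hb : b < N) : zr N k b < zr N k a := by
  have key : ∀ j : ℤ, ((b + j * N : ℤ) : ℝ) ^ (-(k : ℤ)) < ((a + j * N : ℤ) : ℝ) ^ (-(k : ℤ)) := by
    intro j
    rw [zpow_neg, zpow_neg, zpow_natCast, zpow_natCast]
    rcases le_or_gt 0 j with hj | hj
    · have h1 : (0 : ℤ) < a + j * N := by positivity
      have h2 : a + j * N < b + j * N := by linarith
      have h1' : (0 : ℝ) < ((a + j * N : ℤ) : ℝ) := by exact_mod_cast h1
      have h2' : ((a + j * N : ℤ) : ℝ) < ((b + j * N : ℤ) : ℝ) := by exact_mod_cast h2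
      gcongr
    · have h1 : b + j * N < 0 := by nlinarith
      have h2 : a + j * N < b + j * N := by linarith
      have h1' : ((b + j * N : ℤ) : ℝ) < 0 := by exact_mod_cast h1
      have h2' : ((a + j * N : ℤ) : ℝ) < ((b + j * N : ℤ) : ℝ) := by exact_mod_cast h2
      have h3 : ((a + j * N : ℤ) : ℝ) ^ k < ((b + j * N : ℤ) : ℝ) ^ k := hodd.strictMono_pow h2'
      have h4 : ((b + j * N : ℤ) : ℝ) ^ k < 0 := hodd.pow_neg h1'
      rw [inv_lt_inv_of_neg h4 (h3.trans h4)]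
      exact h3
  exact (summable_zr hk b).tsum_lt_tsum (i := 0) (fun j => (key j).le) (key 0) (summable_zr hk a)

omit [NeZero N] in
lemma zr_neg {k : ℕ} (hodd : Odd k) (a : ℤ) : zr N k (N - a) = - zr N k a := by
  let e : ℤ ≃ ℤ := ⟨fun j => -1 - j, fun j => -1 - j, fun j => by ring, fun j => by ring⟩
  rw [zr, zr, ← tsum_neg, ← e.tsum_eq]
  refine tsum_congr fun j => ?_
  have : ((N - a + e j * N : ℤ) : ℝ) = - ((a + j * N : ℤ) : ℝ) := by
    show ((N - a + (-1 - j) * N : ℤ) : ℝ) = _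
    push_cast
    ring
  rw [this, zpow_neg, zpow_neg, zpow_natCast, zpow_natCast, hodd.neg_pow, inv_neg]

omit [NeZero N] in
lemma val_pos_of_isUnit (hN : 1 < N) {x : ZMod N} (hx : IsUnit x) : 0 < x.val := by
  rw [Nat.pos_iff_ne_zero]
  intro h
  have : x = 0 := (ZMod.val_eq_zero x).mp h
  have : Fact (1 < N) := ⟨hN⟩
  subst x
  exact not_isUnit_zero hx

lemma zr_injOn {k : ℕ} (hk : 3 ≤ k) (hodd : Odd k) {a b : ℤ} (ha : 0 < a) (ha' : a < N)
    (hb : 0 < b) (hb' : b < N) (h : zr N k a = zr N k b) : a = b := by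
  rcases lt_trichotomy a b with hab | hab | hab
  · exact absurd h (zr_strictAnti hk hodd ha hab hb').ne'
  · exact hab
  · exact absurd h (zr_strictAnti hk hodd hb hab ha').ne

lemma zr_ne_zero {k : ℕ} (hk : 3 ≤ k) (hodd : Odd k) (hN : 3 ≤ N) {x : ZMod N} (hx : IsUnit x) :
    zr N k x.val ≠ 0 := by
  intro h
  have h1 := zr_neg (N := N) hodd (x.val : ℤ)
  rw [h, neg_zero] at h1
  have hlt := ZMod.val_lt x
  have hpos := val_pos_of_isUnit (by omega) hx
  have h2 := zr_injOn (N := N) hk hodd (a := x.val) (b := N - x.val) (by exact_mod_cast hpos)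
    (by exact_mod_cast hlt) (by omega) (by omega) (by rw [h, h1])
  have h3 : 2 * x.val = N := by omega
  have h4 : (2 : ZMod N) * x = 0 := by
    have : ((2 * x.val : ℕ) : ZMod N) = 0 := by rw [h3]; simp
    rw [Nat.cast_mul, ZMod.natCast_zmod_val] at this
    exact_mod_cast this
  have h5 : (2 : ZMod N) = 0 := by
    rwa [hx.mul_left_eq_zero] at h4
  have h6 : ((2 : ℕ) : ZMod N) = 0 := by exact_mod_cast h5
  rw [ZMod.natCast_eq_zero_iff] at h6
  have := Nat.le_of_dvd (by norm_num) h6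
  omega

lemma zsum_injective {k : ℕ} (hk : 3 ≤ k) (hodd : Odd k) (hN : 3 ≤ N) {x y : ZMod N}
    (hx : IsUnit x) (h : zsum k x = zsum k y) : x = y := by
  have hN1 : 1 < N := by omega
  obtain ⟨x, rfl⟩ := hx
  rw [zsum_inv] at h
  by_cases hy : IsUnit y
  · obtain ⟨y, rfl⟩ := hy
    rw [zsum_inv] at h
    have h' : zr N k ((x⁻¹ : (ZMod N)ˣ) : ZMod N).val = zr N k ((y⁻¹ : (ZMod N)ˣ) : ZMod N).val := by
      exact_mod_cast h
    have h2 := zr_injOn hk hodd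
      (by exact_mod_cast val_pos_of_isUnit hN1 (x⁻¹ : (ZMod N)ˣ).isUnit)
      (by exact_mod_cast ZMod.val_lt _)
      (by exact_mod_cast val_pos_of_isUnit hN1 (y⁻¹ : (ZMod N)ˣ).isUnit)
      (by exact_mod_cast ZMod.val_lt _) h'
    have h3 : ((x⁻¹ : (ZMod N)ˣ) : ZMod N) = ((y⁻¹ : (ZMod N)ˣ) : ZMod N) :=
      ZMod.val_injective N (by exact_mod_cast h2)
    have h4 : x⁻¹ = y⁻¹ := Units.ext h3
    rw [inv_injective h4]
  · rw [zsum_of_not_isUnit hy] at h
    have : zr N k ((x⁻¹ : (ZMod N)ˣ) : ZMod N).val = 0 := by exact_mod_cast h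
    exact absurd this (zr_ne_zero hk hodd hN (x⁻¹ : (ZMod N)ˣ).isUnit)

/-- **stabiliser** -/
theorem mem_Gamma1_of_slash_eq {k : ℕ} (hk : 3 ≤ k) (hodd : Odd k) (hN : 3 ≤ N) {γ : SL(2, ℤ)}
    (h : (eis (fun a : Fin 2 → ZMod N => ind1 N (a 0)) k) ∣[(k : ℤ)] γ =
      eis (fun a : Fin 2 → ZMod N => ind1 N (a 0)) k) : γ ∈ Gamma1 N := by
  have key : ∀ δ : SL(2, ℤ), IsUnit ((δ 1 0 : ℤ) : ZMod N) →
      (((γ * δ) 1 0 : ℤ) : ZMod N) = ((δ 1 0 : ℤ) : ZMod N) := by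
    intro δ hδ
    have h1 := zsum_eq_of_slash_eq (N := N) hk (A := δ) (B := γ * δ) (by
      rw [SlashAction.slash_mul, h])
    have h2 := zsum_injective hk hodd hN (by simpa using hδ) h1
    exact (neg_injective h2).symm
  let δ0 : SL(2, ℤ) := ⟨!![0, -1; 1, 0], by simp [Matrix.det_fin_two_of]⟩
  let δ1 : SL(2, ℤ) := ⟨!![1, 0; 1, 1], by simp [Matrix.det_fin_two_of]⟩
  have h1 := key δ0 (by simp [δ0])
  have h2 := key δ1 (by simp [δ1])
  have e1 : ((γ * δ0 : SL(2, ℤ)) 1 0 : ℤ) = γ 1 1 := by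
    rw [Matrix.SpecialLinearGroup.coe_mul, Matrix.mul_apply, Fin.sum_univ_two]
    simp [δ0]
  have e2 : ((γ * δ1 : SL(2, ℤ)) 1 0 : ℤ) = γ 1 0 + γ 1 1 := by
    rw [Matrix.SpecialLinearGroup.coe_mul, Matrix.mul_apply, Fin.sum_univ_two]
    simp [δ1]
  rw [e1] at h1
  rw [e2] at h2
  have h1' : ((γ 1 1 : ℤ) : ZMod N) = 1 := by rw [h1]; simp [δ0]
  have h2' : ((γ 1 0 : ℤ) : ZMod N) = 0 := by
    have : ((γ 1 0 + γ 1 1 : ℤ) : ZMod N) = 1 := by rw [h2]; simp [δ1]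
    push_cast at this
    rw [h1'] at this
    simpa using this
  have hdet : γ 0 0 * γ 1 1 - γ 0 1 * γ 1 0 = 1 := by
    have h := γ.det_coe
    rwa [Matrix.det_fin_two] at h
  have hdet' : ((γ 0 0 : ℤ) : ZMod N) * ((γ 1 1 : ℤ) : ZMod N) -
      ((γ 0 1 : ℤ) : ZMod N) * ((γ 1 0 : ℤ) : ZMod N) = 1 := by
    have := congrArg (Int.cast : ℤ → ZMod N) hdet
    push_cast at this
    exact this
  rw [h1', h2'] at hdet'
  rw [Gamma1_mem]
  exact ⟨by simpa using hdet', h1', h2'⟩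

/-! ### the normalised form -/

/-- The normalised Eisenstein series on `Γ₁(N)` with integral `q`-expansion and stabiliser
`Γ₁(N)` (odd weight `k ≥ 3`). -/
def gform (N : ℕ) [NeZero N] (k : ℕ) (hk : 3 ≤ k) :
    ModularForm (Gamma1 N : Subgroup (GL (Fin 2) ℝ)) k :=
  (cst k)⁻¹ • eisMF (ind1 N) k hk

/-- the integral coefficients of `gform` -/
def gcoeff (N k n : ℕ) : ℤ :=
  ∑ x ∈ n.divisorsAntidiagonal, ((if (x.1 : ZMod N) = 1 then 1 else 0) +
    (-1) ^ k * (if (-(x.1 : ZMod N)) = 1 then 1 else 0)) * (x.2 : ℤ) ^ (k - 1)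

theorem qExpansion_gform (hN : 2 ≤ N) (k : ℕ) (hk : 3 ≤ k) (n : ℕ) :
    (qExpansion 1 (gform N k hk)).coeff n = (gcoeff N k n : ℂ) := by
  rw [gform, FunLike.coe_smul, ModularForm.qExpansion_smul one_pos one_mem_G1]
  rw [map_smul, qExpansion_eisMF, smul_eq_mul, eisCoeff]
  split_ifs with h0
  · subst h0
    have : (0 : ZMod N) ≠ 1 := by
      have : Fact (1 < N) := ⟨by omega⟩
      exact zero_ne_one
    simp [cst0, ind1, gcoeff, this]
  · rw [← mul_assoc, inv_mul_cancel₀ (cst_ne_zero k), one_mul, divSum, gcoeff]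
    push_cast
    rfl

theorem gform_mem_Gamma1 (hN : 3 ≤ N) {k : ℕ} (hk : 3 ≤ k) (hodd : Odd k) (γ : SL(2, ℤ))
    (h : (gform N k hk : ℍ → ℂ) ∣[(k : ℤ)] γ = gform N k hk) : γ ∈ Gamma1 N := by
  refine mem_Gamma1_of_slash_eq hk hodd hN ?_
  have e : (eis (fun a : Fin 2 → ZMod N => ind1 N (a 0)) k) = cst k • (gform N k hk : ℍ → ℂ) := by
    ext z
    have : (gform N k hk : ℍ → ℂ) z =
      (cst k)⁻¹ * eis (fun a : Fin 2 → ZMod N => ind1 N (a 0)) k z := rfl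
    rw [Pi.smul_apply, this, smul_eq_mul, ← mul_assoc, mul_inv_cancel₀ (cst_ne_zero k), one_mul]
  rw [e, SL_smul_slash, h]

end Fermat.Agent.DSEis
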