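import Mathlib
import Fermat.Prelude.Def_GaloisRep_Residual
import Fermat.Prelude.Def_Deformations_MatrixRepresentation

/-!
# Deligne--Serre: interface

Statements (as `Prop`s) which together imply S48.
-/

set_option autoImplicit false

open CongruenceSubgroup Filter Topology
open scoped MatrixGroups

noncomputable section

namespace Fermat.Agent.DS

/-- The algebraic closure of `ℚ`. -/
abbrev Qbar : Type := AlgebraicClosure ℚ

/-- The absolute Galois group of `ℚ`. -/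
abbrev GQ : Type := AlgebraicClosure ℚ ≃ₐ[ℚ] AlgebraicClosure ℚ

/-- The Hecke relation at `p` of a weight `k = 1` form with character value `e` and eigenvalue
`t` -/
def HeckeRel {N : ℕ} (e t : ℂ) (f : CuspForm (Gamma1 N) 1) (p : ℕ) : Prop :=
  ∀ n : ℕ,
    ModularFormClass.qCoeff f (p * n) +
      e * (if p ∣ n then ModularFormClass.qCoeff f (n / p) else 0) =
    t * ModularFormClass.qCoeff f n

/-- The hypotheses of S48. -/
structure WtOneEigen (N : ℕ) [NeZero N] (ε : DirichletCharacter ℂ N)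
    (f : CuspForm (Gamma1 N) 1) : Prop where
  one : ModularFormClass.qCoeff f 1 = 1
  hecke : ∀ p : ℕ, p.Prime → ¬ p ∣ N → ∀ n : ℕ,
        ModularFormClass.qCoeff f (p * n) +
            ε (p : ZMod N) * (if p ∣ n then ModularFormClass.qCoeff f (n / p) else 0) =
          ModularFormClass.qCoeff f p * ModularFormClass.qCoeff f n

/-! ### [CONJ] -/

/-- Field automorphisms of `ℂ` act on the `q`-expansions of weight one cusp forms on `Γ₁(N)`. -/
def SigmaStable (N : ℕ) : Prop :=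
  ∀ (σ : ℂ →+* ℂ) (f : CuspForm (Gamma1 N) 1), ∃ f' : CuspForm (Gamma1 N) 1,
    ∀ n, ModularFormClass.qCoeff f' n = σ (ModularFormClass.qCoeff f n)

/-- `S₁(Γ₁(N))` is spanned by forms with integral `q`-expansion. -/
def IntSpan (N : ℕ) : Prop :=
  Submodule.span ℂ {f : CuspForm (Gamma1 N) 1 |
    ∀ n, ∃ m : ℤ, ModularFormClass.qCoeff f n = (m : ℂ)} = ⊤

/-! ### [NEB] -/

/-- The nebentype of a weight one form is odd. -/
def OddChar (N : ℕ) [NeZero N] : Prop :=
  ∀ (ε : DirichletCharacter ℂ N) (f : CuspForm (Gamma1 N) 1) (t : ℕ → ℂ), f ≠ 0 →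
    (∀ p : ℕ, p.Prime → ¬ p ∣ N → HeckeRel (ε (p : ZMod N)) (t p) f p) → ε (-1) = -1

/-! ### [MODL] -/

/-- Mod `ℓ` representations attached to weight one forms with integral coefficients which do not
vanish mod `φ`. -/
def ModL (N : ℕ) [NeZero N] (ℓ : ℕ) : Prop :=
  ∀ (ε : DirichletCharacter ℂ N) (f : CuspForm (Gamma1 N) 1) (t : ℕ → integralClosure ℤ ℂ)
    (e : ℕ → integralClosure ℤ ℂ), (∀ p : ℕ, (e p : ℂ) = ε (p : ZMod N)) →
    (∀ n, IsIntegral ℤ (ModularFormClass.qCoeff f n)) →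
    (∀ p : ℕ, p.Prime → ¬ p ∣ N → HeckeRel (e p : ℂ) (t p : ℂ) f p) →
    ∀ (k : Type) [Field k] [CharP k ℓ] [IsAlgClosed k] (φ : integralClosure ℤ ℂ →+* k),
      (∃ (n : ℕ) (a : integralClosure ℤ ℂ), (a : ℂ) = ModularFormClass.qCoeff f n ∧ φ a ≠ 0) →
      ∃ ρ : GQ →* GL (Fin 2) k, GaloisFactorsThroughFiniteLevel ρ ∧
        ∀ p : ℕ, p.Prime → ¬ p ∣ N → p ≠ ℓ →
          ∀ A : ValuationSubring (AlgebraicClosure ℚ), A.LiesOverPrime p →
            (∀ σ ∈ A.inertiaSubgroupIn ℚ, ρ σ = 1) ∧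
            ∀ σ : GQ, A.IsFrobeniusAt σ p →
              ((ρ σ : GL (Fin 2) k) : Matrix (Fin 2) (Fin 2) k).trace = φ (t p) ∧
              ((ρ σ : GL (Fin 2) k) : Matrix (Fin 2) (Fin 2) k).det = φ (e p)

/-! ### [CHEB] -/

/-- Primes at which the finite-level homomorphism `ψ` is unramified with Frobenius in `C`. -/
def FrobSet {G : Type} [Group G] (ψ : GQ →* G) (C : Set G) : Set ℕ :=
  {p | p.Prime ∧ ∃ A : ValuationSubring (AlgebraicClosure ℚ), A.LiesOverPrime p ∧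
    (∀ σ ∈ A.inertiaSubgroupIn ℚ, ψ σ = 1) ∧ ∃ σ : GQ, A.IsFrobeniusAt σ p ∧ ψ σ ∈ C}

open Classical in
/-- The Dirichlet series `∑_{p ∈ S} p^{-s}`. -/
def primeSum (S : Set ℕ) (s : ℝ) : ℝ := ∑' p : ℕ, if p.Prime ∧ p ∈ S then (p : ℝ) ^ (-s) else 0

/-- Chebotarev's theorem (Dirichlet density). -/
def Chebotarev : Prop :=
  ∀ (G : Type) [Group G] [Finite G] (ψ : GQ →* G), Function.Surjective ψ →
    GaloisFactorsThroughFiniteLevel ψ → ∀ C : Set G, (∀ g c : G, c ∈ C → g * c * g⁻¹ ∈ C) →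
    Tendsto (fun s : ℝ => primeSum (FrobSet ψ C) s / Real.log (1 / (s - 1))) (𝓝[>] 1)
      (𝓝 ((Nat.card C : ℝ) / Nat.card G))

/-- Everything needed for S48 at level `N`. -/
structure DSInput (N : ℕ) [NeZero N] : Prop where
  sigma : SigmaStable N
  intSpan : IntSpan N
  odd : OddChar N
  modL : ∃ B : ℕ, ∀ ℓ : ℕ, ℓ.Prime → B ≤ ℓ → ModL N ℓ
  cheb : Chebotarev

end Fermat.Agent.DS

end
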