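import Fermat.Agent.IntStruct.Assembly
import Fermat.Agent.IntStruct.EN
import Fermat.Agent.DS.EisGamma1
import Fermat.Agent.DS.Interface
import Fermat.Prelude.Thm_ModularForm_sturm_bound_of_isArithmetic

/-!
# Rational and integral structures on spaces of modular forms for `Γ ≤ SL(2, ℤ)`

Generalisation of `IntStruct.Assembly` to any finite index subgroup `Γ ∋ T` carrying a modular form
with integral `q`-expansion and stabiliser `Γ`; such a form exists for `Γ₁(N)`.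
-/

set_option autoImplicit false

open UpperHalfPlane ModularForm Matrix.SpecialLinearGroup CongruenceSubgroup
open scoped MatrixGroups Manifold ModularForm

noncomputable section

namespace Fermat.Agent.IntGamma

open Fermat.Agent.IntStruct

/-- `Γ` contains the translation by one and is the stabiliser of a modular form with integral
`q`-expansion. -/
structure Good (Γ : Subgroup SL(2, ℤ)) : Prop where
  one_mem : (1 : ℝ) ∈ (Γ : Subgroup (GL (Fin 2) ℝ)).strictPeriods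
  exists_form : ∃ (w : ℤ) (g : ModularForm (Γ : Subgroup (GL (Fin 2) ℝ)) w),
    qExpansion 1 g ∈ (intMap ℂ).range ∧
      ∀ γ : SL(2, ℤ), (g : ℍ → ℂ) ∣[w] γ = g → γ ∈ Γ

/-- `Γ₀(N)` is good. -/
theorem good_Gamma0 (N : ℕ) [NeZero N] : Good (Gamma0 N) :=
  ⟨one_mem_G0 N, 4, EN N, EN_mem_intForms N, fun γ h => mem_Gamma0_of_slash_EN_eq γ h⟩

lemma Gamma1_eq_Gamma0 {N : ℕ} [NeZero N] (hN : N ≤ 2) : Gamma1 N = Gamma0 N := by
  refine le_antisymm (Gamma1_in_Gamma0 N) fun γ hγ => ?_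
  rw [Gamma1_mem]
  rw [Gamma0_mem] at hγ
  have hdet := γ.det_coe
  rw [Matrix.det_fin_two] at hdet
  have h1 : ((γ 0 0 : ℤ) : ZMod N) * ((γ 1 1 : ℤ) : ZMod N) = 1 := by
    have := congrArg (fun x : ℤ => (x : ZMod N)) hdet
    push_cast at this
    rw [hγ, mul_zero, sub_zero] at this
    exact this
  have hN0 := NeZero.ne N
  have hN' : N = 1 ∨ N = 2 := by omega
  rcases hN' with rfl | rfl
  · exact ⟨Subsingleton.elim _ _, Subsingleton.elim _ _, hγ⟩
  · generalize ((γ 0 0 : ℤ) : ZMod 2) = a at h1 ⊢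
    generalize ((γ 1 1 : ℤ) : ZMod 2) = b at h1 ⊢
    refine ⟨?_, ?_, hγ⟩
    · revert a b
      decide
    · revert a b
      decide

/-- `Γ₁(N)` is good. -/
theorem good_Gamma1 (N : ℕ) [NeZero N] : Good (Gamma1 N) := by
  by_cases hN : 3 ≤ N
  · refine ⟨DSEis.one_mem_G1, 3, DSEis.gform N 3 le_rfl, ?_, fun γ h => ?_⟩
    · rw [mem_range_intMap_iff]
      intro n
      exact ⟨DSEis.gcoeff N 3 n, (DSEis.qExpansion_gform (by omega) 3 le_rfl n).symm⟩
    · exact DSEis.gform_mem_Gamma1 hN le_rfl (by decide) γ h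
  · rw [Gamma1_eq_Gamma0 (by omega)]
    exact good_Gamma0 N

variable {Γ : Subgroup SL(2, ℤ)} {k : ℤ}

/-- `q`-expansion coefficients as a linear map. -/
def coeffM (h1 : (1 : ℝ) ∈ (Γ : Subgroup (GL (Fin 2) ℝ)).strictPeriods) (k : ℤ) :
    ModularForm (Γ : Subgroup (GL (Fin 2) ℝ)) k →ₗ[ℂ] (ℕ → ℂ) where
  toFun f n := (qExpansion 1 f).coeff n
  map_add' f g := by
    ext n
    rw [FunLike.coe_add, ModularForm.qExpansion_add one_pos h1 f g]
    simp
  map_smul' c f := by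
    ext n
    rw [FunLike.coe_smul, ModularForm.qExpansion_smul one_pos h1 c f]
    simp

/-- `q`-expansion coefficients as a linear map. -/
def coeffS (h1 : (1 : ℝ) ∈ (Γ : Subgroup (GL (Fin 2) ℝ)).strictPeriods) (k : ℤ) :
    CuspForm (Γ : Subgroup (GL (Fin 2) ℝ)) k →ₗ[ℂ] (ℕ → ℂ) where
  toFun f n := (qExpansion 1 f).coeff n
  map_add' f g := by
    ext n
    rw [FunLike.coe_add, ModularForm.qExpansion_add one_pos h1 f g]
    simp
  map_smul' c f := by
    ext n
    rw [FunLike.coe_smul, ModularForm.qExpansion_smul one_pos h1 c f]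
    simp

section

variable (h1 : (1 : ℝ) ∈ (Γ : Subgroup (GL (Fin 2) ℝ)).strictPeriods)

lemma coeffM_apply (f : ModularForm (Γ : Subgroup (GL (Fin 2) ℝ)) k) (n : ℕ) :
    coeffM h1 k f n = (qExpansion 1 f).coeff n := rfl

lemma coeffS_apply (f : CuspForm (Γ : Subgroup (GL (Fin 2) ℝ)) k) (n : ℕ) :
    coeffS h1 k f n = (qExpansion 1 f).coeff n := rfl

lemma coeffM_injective (k : ℤ) : Function.Injective (coeffM h1 k) := by
  rw [injective_iff_map_eq_zero]
  intro f hf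
  have h2 : toQ h1 f = 0 := by
    apply qE_injective
    rw [map_zero]
    ext n
    exact congrFun hf n
  ext τ
  exact congrFun (congrArg Subtype.val h2) τ

lemma coeffS_eq (f : CuspForm (Γ : Subgroup (GL (Fin 2) ℝ)) k) :
    coeffS h1 k f = coeffM h1 k (f : ModularForm (Γ : Subgroup (GL (Fin 2) ℝ)) k) := rfl

lemma coeffS_injective (k : ℤ) : Function.Injective (coeffS h1 k) := by
  intro f g hfg
  rw [coeffS_eq, coeffS_eq] at hfg
  have := coeffM_injective h1 k hfg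
  ext τ
  exact congrFun (congrArg (fun g : ModularForm (Γ : Subgroup (GL (Fin 2) ℝ)) k => (g : ℍ → ℂ))
    this) τ

end

variable [Γ.FiniteIndex]

/-- **Finite-dimensionality** of `M_k(Γ)`. -/
lemma finiteDimensional_modularForm
    (h1 : (1 : ℝ) ∈ (Γ : Subgroup (GL (Fin 2) ℝ)).strictPeriods) (k : ℤ) :
    FiniteDimensional ℂ (ModularForm (Γ : Subgroup (GL (Fin 2) ℝ)) k) := by
  set B := (k * (Γ : Subgroup (GL (Fin 2) ℝ)).relIndex 𝒮ℒ).toNat / 12 with hB
  let L : ModularForm (Γ : Subgroup (GL (Fin 2) ℝ)) k →ₗ[ℂ] (Fin (B + 1) → ℂ) :=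
    (LinearMap.funLeft ℂ ℂ (fun i : Fin (B + 1) => (i : ℕ))).comp (coeffM h1 k)
  refine FiniteDimensional.of_injective L ?_
  rw [injective_iff_map_eq_zero]
  intro f hf
  refine ModularForm.sturm_bound_of_isArithmetic h1 (lt_of_lt_of_le (b := ((B + 1 : ℕ) : ℕ∞))
    (by exact_mod_cast Nat.lt_succ_self B) ?_)
  refine PowerSeries.nat_le_order _ _ fun n hn => ?_
  exact congrFun hf ⟨n, hn⟩

/-- **Finite-dimensionality** of `S_k(Γ)`. -/
lemma finiteDimensional_cuspForm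
    (h1 : (1 : ℝ) ∈ (Γ : Subgroup (GL (Fin 2) ℝ)).strictPeriods) (k : ℤ) :
    FiniteDimensional ℂ (CuspForm (Γ : Subgroup (GL (Fin 2) ℝ)) k) := by
  set B := (k * (Γ : Subgroup (GL (Fin 2) ℝ)).relIndex 𝒮ℒ).toNat / 12 with hB
  let L : CuspForm (Γ : Subgroup (GL (Fin 2) ℝ)) k →ₗ[ℂ] (Fin (B + 1) → ℂ) :=
    (LinearMap.funLeft ℂ ℂ (fun i : Fin (B + 1) => (i : ℕ))).comp (coeffS h1 k)
  refine FiniteDimensional.of_injective L ?_
  rw [injective_iff_map_eq_zero]
  intro f hf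
  have h0 : (f : ModularForm (Γ : Subgroup (GL (Fin 2) ℝ)) k) = 0 := by
    refine ModularForm.sturm_bound_of_isArithmetic h1 (lt_of_lt_of_le (b := ((B + 1 : ℕ) : ℕ∞))
      (by exact_mod_cast Nat.lt_succ_self B) ?_)
    refine PowerSeries.nat_le_order _ _ fun n hn => ?_
    exact congrFun hf ⟨n, hn⟩
  ext τ
  exact congrFun (congrArg (fun g : ModularForm (Γ : Subgroup (GL (Fin 2) ℝ)) k => (g : ℍ → ℂ))
    h0) τ

/-- **Conjugation of modular forms by field endomorphisms of `ℂ`.** -/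
theorem exists_sigma_mod (hΓ : Good Γ) (σ : ℂ →+* ℂ)
    (f : ModularForm (Γ : Subgroup (GL (Fin 2) ℝ)) k) :
    ∃ f' : ModularForm (Γ : Subgroup (GL (Fin 2) ℝ)) k,
      qExpansion 1 f' = (qExpansion 1 f).map σ := by
  obtain ⟨w, g, hgint, hg⟩ := hΓ.exists_form
  obtain ⟨f', hf', -⟩ := exists_sigma hΓ.one_mem σ (fun k f => exists_conj_levelOne σ f) g
    (by
      obtain ⟨G, hG⟩ := hgint
      rw [← hG]
      ext n
      simp) hg f
  exact ⟨f', hf'⟩

/-- **Conjugation of cusp forms by field endomorphisms of `ℂ`.** -/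
theorem exists_sigma_cusp (hΓ : Good Γ) (σ : ℂ →+* ℂ)
    (f : CuspForm (Γ : Subgroup (GL (Fin 2) ℝ)) k) :
    ∃ f' : CuspForm (Γ : Subgroup (GL (Fin 2) ℝ)) k,
      qExpansion 1 f' = (qExpansion 1 f).map σ := by
  obtain ⟨w, g, hgint, hg⟩ := hΓ.exists_form
  obtain ⟨f', hf', hz⟩ := exists_sigma hΓ.one_mem σ (fun k f => exists_conj_levelOne σ f) g
    (by
      obtain ⟨G, hG⟩ := hgint
      rw [← hG]
      ext n
      simp) hg (f : ModularForm (Γ : Subgroup (GL (Fin 2) ℝ)) k)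
  refine ⟨{ toFun := f'
            slash_action_eq' := f'.slash_action_eq'
            holo' := f'.holo'
            zero_at_cusps' := ?_ }, hf'⟩
  intro c hc
  rw [Subgroup.IsArithmetic.isCusp_iff_isCusp_SL2Z] at hc
  rw [OnePoint.isZeroAt_iff_forall_SL2Z hc]
  intro γ _
  exact hz (fun γ => CuspFormClass.zero_at_infty_slash f γ) γ

/-- **Bounded denominators.** -/
theorem exists_int_mul_mod (hΓ : Good Γ) (F : ModularForm (Γ : Subgroup (GL (Fin 2) ℝ)) k)
    (hf : ∀ n, ∃ r : ℚ, (r : ℂ) = (qExpansion 1 F).coeff n) :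
    ∃ D : ℤ, D ≠ 0 ∧ ∀ n, ∃ m : ℤ, (D : ℂ) * (qExpansion 1 F).coeff n = m := by
  obtain ⟨w, g, hgint, hg⟩ := hΓ.exists_form
  choose r hr using hf
  set B : PowerSeries ℚ := PowerSeries.mk r with hB
  have hBf : B.map (algebraMap ℚ ℂ) = qExpansion 1 F := by
    ext n
    simp [hB, ← hr]
  set h1 := hΓ.one_mem
  obtain ⟨d, p, hp, -⟩ := exists_integral_eq F
  obtain ⟨n, h, hh⟩ := exists_interp g F
  obtain ⟨n0, h0, hh0⟩ := exists_interp g (1 : ModularForm (Γ : Subgroup (GL (Fin 2) ℝ)) 0)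
  have hDlag : ∀ τ, (combo h1 g n0 h0 : ℍ → ℂ) τ = (lagD g : ℍ → ℂ) τ := by
    intro τ
    rw [combo_apply, ← hh0]
    simp
  have hDF : combo h1 g n h = combo h1 g n0 h0 * toQ h1 F := by
    refine Subtype.ext (funext fun τ => ?_)
    rw [combo_apply, ← hh, ← hDlag]
    rfl
  have hcombo : ∀ {m : ℤ} (n : ℕ) (h : ∀ i : ℕ, ModularForm 𝒮ℒ (m - w * i)),
      qE (combo h1 g n h) ∈ intSpan := by
    intro m n h
    simp only [combo, map_sum, map_mul, map_pow]
    refine sum_mem fun i _ => mul_mem ?_ (pow_mem ?_ _)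
    · exact qExpansion_levelOne_mem_intSpan (h i)
    · obtain ⟨G, hG⟩ := hgint
      rw [qE_apply, coe_toQ, ← hG]
      exact intMap_mem_intSpan G
  have hD0 : combo h1 g n0 h0 ≠ 0 := by
    intro h0
    apply lagD_ne_zero g hg
    ext τ
    rw [← hDlag, h0]
    rfl
  have hFq : qE (toQ h1 F) = B.map (algebraMap ℚ ℂ) := hBf.symm
  obtain ⟨D, hD, hDr⟩ := exists_int_mul_mem_range B d (fun i => qE (toQ one_mem_SL (p i)))
    (fun i _ => qExpansion_levelOne_mem_intSpan (p i))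
    (by
      rw [← hFq, ← map_pow]
      simp only [← map_pow, ← map_mul]
      rw [← map_sum, ← map_add, ← map_zero qE]
      congr 1
      refine Subtype.ext (funext fun τ => ?_)
      simpa using hp τ)
    (qE (combo h1 g n0 h0)) (hcombo n0 h0)
    (by rwa [Ne, map_eq_zero_iff _ qE_injective])
    (by rw [← hFq, ← map_mul, ← hDF]; exact hcombo n h)
  refine ⟨D, hD, fun n => ?_⟩
  rw [mem_range_intMap_iff] at hDr
  obtain ⟨m, hm⟩ := hDr n
  refine ⟨m, ?_⟩
  rw [PowerSeries.coeff_C_mul] at hm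
  rw [← hr n]
  have : (r n : ℚ) = PowerSeries.coeff n B := by simp [hB]
  rw [this]
  exact_mod_cast hm.symm

/-- **`M_k(Γ)` is spanned by forms with integral `q`-expansion.** -/
theorem span_int_mod (hΓ : Good Γ) (k : ℤ) :
    Submodule.span ℂ {f : ModularForm (Γ : Subgroup (GL (Fin 2) ℝ)) k |
      ∀ n, ∃ m : ℤ, (qExpansion 1 f).coeff n = (m : ℂ)} = ⊤ := by
  have := finiteDimensional_modularForm hΓ.one_mem k
  have h2 := span_rational_eq_top (coeffM hΓ.one_mem k) (coeffM_injective hΓ.one_mem k)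
    (fun σ v => by
      obtain ⟨f', hf'⟩ := exists_sigma_mod hΓ (σ : ℂ →+* ℂ) v
      refine ⟨f', fun n => ?_⟩
      rw [coeffM_apply, coeffM_apply, hf']
      simp)
  rw [eq_top_iff, ← h2, Submodule.span_le]
  intro f hf
  obtain ⟨D, hD, hDf⟩ := exists_int_mul_mod hΓ f hf
  have hDC : (D : ℂ) ≠ 0 := by exact_mod_cast hD
  have h3 : f = (D : ℂ)⁻¹ • ((D : ℂ) • f) := by
    rw [smul_smul, inv_mul_cancel₀ hDC, one_smul]
  rw [h3]
  refine Submodule.smul_mem _ _ (Submodule.subset_span fun n => ?_)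
  obtain ⟨m, hm⟩ := hDf n
  refine ⟨m, ?_⟩
  rw [← coeffM_apply hΓ.one_mem, map_smul, Pi.smul_apply, coeffM_apply, smul_eq_mul, hm]

/-- **`S_k(Γ)` is spanned by forms with integral `q`-expansion.** -/
theorem span_int_cusp (hΓ : Good Γ) (k : ℤ) :
    Submodule.span ℂ {f : CuspForm (Γ : Subgroup (GL (Fin 2) ℝ)) k |
      ∀ n, ∃ m : ℤ, (qExpansion 1 f).coeff n = (m : ℂ)} = ⊤ := by
  have := finiteDimensional_cuspForm hΓ.one_mem k
  have h2 := span_rational_eq_top (coeffS hΓ.one_mem k) (coeffS_injective hΓ.one_mem k)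
    (fun σ v => by
      obtain ⟨f', hf'⟩ := exists_sigma_cusp hΓ (σ : ℂ →+* ℂ) v
      refine ⟨f', fun n => ?_⟩
      rw [coeffS_apply, coeffS_apply, hf']
      simp)
  rw [eq_top_iff, ← h2, Submodule.span_le]
  intro f hf
  obtain ⟨D, hD, hDf⟩ := exists_int_mul_mod hΓ
    (f : ModularForm (Γ : Subgroup (GL (Fin 2) ℝ)) k) hf
  have hDC : (D : ℂ) ≠ 0 := by exact_mod_cast hD
  have h3 : f = (D : ℂ)⁻¹ • ((D : ℂ) • f) := by
    rw [smul_smul, inv_mul_cancel₀ hDC, one_smul]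
  rw [h3]
  refine Submodule.smul_mem _ _ (Submodule.subset_span fun n => ?_)
  obtain ⟨m, hm⟩ := hDf n
  refine ⟨m, ?_⟩
  rw [← coeffS_apply hΓ.one_mem, map_smul, Pi.smul_apply, coeffS_apply, smul_eq_mul]
  exact hm

end Fermat.Agent.IntGamma

namespace Fermat.Agent.DS

open Fermat.Agent.IntGamma

theorem sigmaStable (N : ℕ) [NeZero N] : SigmaStable N := by
  intro σ f
  obtain ⟨f', hf'⟩ := exists_sigma_cusp (good_Gamma1 N) σ f
  refine ⟨f', fun n => ?_⟩
  rw [ModularFormClass.qCoeff, hf', PowerSeries.coeff_map]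
  rfl

theorem intSpan (N : ℕ) [NeZero N] : IntSpan N :=
  span_int_cusp (good_Gamma1 N) 1

end Fermat.Agent.DS
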