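import Fermat.Agent.DS.Interface
import Fermat.Agent.Frob.Chebotarev

/-!
# Chebotarev's density theorem in the form of the Deligne--Serre interface
-/

set_option autoImplicit false

open Filter Topology

namespace Fermat.Agent.DS

open Classical in
lemma primeSum_eq_PS (S : Set ℕ) (s : ℝ) :
    primeSum S s = Fermat.Agent.FrobDensity.PS (fun p => if p ∈ S then 1 else 0) s := by
  unfold primeSum Fermat.Agent.FrobDensity.PS
  have h1 := tsum_subtype {p : ℕ | p.Prime} (fun p : ℕ => (if p ∈ S then (1 : ℝ) else 0) * (p : ℝ) ^ (-s))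
  refine Eq.trans ?_ h1.symm
  refine tsum_congr fun p => ?_
  by_cases hp : p.Prime
  · by_cases hS : p ∈ S
    · simp [Set.indicator, hp, hS]
    · simp [Set.indicator, hS]
  · simp [Set.indicator, hp]

/-- **Chebotarev's density theorem.** -/
theorem chebotarev : Chebotarev := by
  intro G _ _ ψ hsurj hlevel C hC
  have h := Fermat.Agent.FrobDensity.chebotarev_PS ψ hsurj hlevel C hC
  refine h.congr fun s => ?_
  rw [primeSum_eq_PS]
  rfl

end Fermat.Agent.DS
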