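import Fermat.Agent.DS.Interface
import Fermat.Agent.GalRep.Cyclo
import Fermat.Prelude.Def_GaloisRep_ComplexConjugation

/-!
# The mod `N` cyclotomic character of the absolute Galois group of `ℚ`
-/

set_option autoImplicit false

noncomputable section

namespace Fermat.Agent.DS

variable (N : ℕ) [NeZero N]

lemma exists_zeta : ∃ ζ : AlgebraicClosure ℚ, IsPrimitiveRoot ζ N :=
  HasEnoughRootsOfUnity.exists_primitiveRoot (AlgebraicClosure ℚ) N

/-- a primitive `N`-th root of unity in `ℚ̄` -/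
def zetaN : AlgebraicClosure ℚ := (exists_zeta N).choose

lemma zetaN_spec : IsPrimitiveRoot (zetaN N) N := (exists_zeta N).choose_spec

/-- the mod `N` cyclotomic character -/
def cycN : GQ →* (ZMod N)ˣ := (zetaN_spec N).autToPow ℚ

lemma cycN_spec (σ : GQ) : zetaN N ^ ((cycN N σ : (ZMod N)ˣ) : ZMod N).val = σ (zetaN N) :=
  (zetaN_spec N).autToPow_spec ℚ σ

lemma cycN_eq_of_pow {σ : GQ} {a : ℕ} (h : σ (zetaN N) = zetaN N ^ a) :
    ((cycN N σ : (ZMod N)ˣ) : ZMod N) = a := by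
  rw [← cycN_spec] at h
  have h0 : zetaN N ^ a = zetaN N ^ (a % N) := by
    conv_lhs => rw [← Nat.mod_add_div a N, pow_add, pow_mul, (zetaN_spec N).pow_eq_one, one_pow,
      mul_one]
  have h1 := (zetaN_spec N).pow_inj (ZMod.val_lt _) (Nat.mod_lt _ (NeZero.pos N)) (h.trans h0)
  rw [← ZMod.natCast_zmod_val ((cycN N σ : (ZMod N)ˣ) : ZMod N), h1, ZMod.natCast_mod]

lemma cycN_frobenius {p : ℕ} (hp : p.Prime) (hpN : ¬ p ∣ N) {A : ValuationSubring (AlgebraicClosure ℚ)}
    (hA : A.LiesOverPrime p) {σ : GQ} (hσ : A.IsFrobeniusAt σ p) :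
    ((cycN N σ : (ZMod N)ˣ) : ZMod N) = p :=
  cycN_eq_of_pow N (GalRep.frobenius_rootOfUnity hA ((Nat.Prime.coprime_iff_not_dvd hp).mpr hpN)
    (NeZero.ne N) hσ (zetaN_spec N).pow_eq_one)

lemma cycN_inertia {p : ℕ} (hp : p.Prime) (hpN : ¬ p ∣ N) {A : ValuationSubring (AlgebraicClosure ℚ)}
    (hA : A.LiesOverPrime p) {σ : GQ} (hσ : σ ∈ A.inertiaSubgroupIn ℚ) : cycN N σ = 1 := by
  apply Units.ext
  have h := GalRep.inertia_fix_rootOfUnity hA ((Nat.Prime.coprime_iff_not_dvd hp).mpr hpN)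
    (NeZero.ne N) hσ (zetaN_spec N).pow_eq_one
  rw [cycN_eq_of_pow N (a := 1) (by rw [h, pow_one])]
  simp

lemma cycN_complexConjugation :
    ((cycN N complexConjugation : (ZMod N)ˣ) : ZMod N) = -1 := by
  have hζ := zetaN_spec N
  have h1 : complexConjugation (zetaN N) = (zetaN N)⁻¹ := by
    apply complexEmbedding.toRingHom.injective
    change complexEmbedding (complexConjugation (zetaN N)) = complexEmbedding (zetaN N)⁻¹
    rw [complexEmbedding_complexConjugation, map_inv₀]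
    have h2 : (complexEmbedding (zetaN N)) ^ N = 1 := by rw [← map_pow, hζ.pow_eq_one, map_one]
    have h3 : ‖complexEmbedding (zetaN N)‖ = 1 := Complex.norm_eq_one_of_pow_eq_one h2 (NeZero.ne _)
    rw [Complex.inv_def, Complex.normSq_eq_norm_sq, h3]
    simp
  have h4 : complexConjugation (zetaN N) = (zetaN N) ^ (N - 1) := by
    rw [h1]
    apply inv_eq_of_mul_eq_one_right
    rw [← pow_succ', Nat.sub_add_cancel (Nat.one_le_iff_ne_zero.mpr (NeZero.ne _)),
      hζ.pow_eq_one]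
  rw [cycN_eq_of_pow N h4, Nat.cast_sub (Nat.one_le_iff_ne_zero.mpr (NeZero.ne _))]
  simp

lemma cycN_eq_of_eqOn {σ τ : GQ} (h : σ (zetaN N) = τ (zetaN N)) : cycN N σ = cycN N τ := by
  apply Units.ext
  rw [cycN_eq_of_pow N (σ := σ) (a := ((cycN N τ : (ZMod N)ˣ) : ZMod N).val)
    (by rw [cycN_spec]; exact h)]
  simp

end Fermat.Agent.DS

end
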