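import Mathlib
import Fermat.Agent.DS.Interface

/-! Rankin-type bound for weight one cusp forms. -/

set_option autoImplicit false

open CongruenceSubgroup Filter Topology MeasureTheory UpperHalfPlane
open scoped MatrixGroups Real

noncomputable section

namespace Fermat.Agent.DS

local notation "𝕢" => Function.Periodic.qParam

theorem one_mem_strictPeriods_Gamma1 (N : ℕ) :
    (1 : ℝ) ∈ (Subgroup.map (Matrix.SpecialLinearGroup.mapGL ℝ) (Gamma1 N)).strictPeriods := by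
  simp

/-- restriction of `f` to a horizontal line -/
def line {N : ℕ} (f : CuspForm (Gamma1 N) 1) (t : ℝ) (ht : 0 < t) (x : ℝ) : ℂ :=
  f ⟨(x : ℂ) + t * Complex.I, by simpa using ht⟩

theorem continuous_line {N : ℕ} (f : CuspForm (Gamma1 N) 1) (t : ℝ) (ht : 0 < t) :
    Continuous (line f t ht) := by
  have hf : Continuous f := ModularFormClass.continuous f
  unfold line
  fun_prop

theorem fourierCoeffOn_line {N : ℕ} (f : CuspForm (Gamma1 N) 1) (t : ℝ) (ht : 0 < t) (n : ℕ) :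
    fourierCoeffOn (zero_lt_one' ℝ) (line f t ht) n =
      ModularFormClass.qCoeff f n * Real.exp (-2 * π * n * t) := by
  have h := ModularFormClass.qExpansion_coeff_eq_intervalIntegral f one_pos
    (one_mem_strictPeriods_Gamma1 N) n ht
  rw [fourierCoeffOn_eq_integral, ModularFormClass.qCoeff, h, mul_assoc,
    ← intervalIntegral.integral_mul_const]
  have h1 : (1 : ℝ) - 0 = 1 := sub_zero 1
  simp only [h1, div_one, one_smul, Complex.ofReal_one, one_mul]
  refine intervalIntegral.integral_congr fun u _ => ?_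
  simp only [line, smul_eq_mul]
  have h2 : fourier (-(n : ℤ)) (u : AddCircle ((1 : ℝ) - 0)) =
      1 / 𝕢 1 (u + t * Complex.I) ^ n * Real.exp (-2 * π * n * t) := by
    rw [fourier_coe_apply, Function.Periodic.qParam, ← Complex.exp_nat_mul, one_div,
      ← Complex.exp_neg, Complex.ofReal_exp, ← Complex.exp_add]
    congr 1
    push_cast
    ring_nf
    rw [Complex.I_sq]
    ring
  rw [h2]
  ring

theorem bessel {N : ℕ} (f : CuspForm (Gamma1 N) 1) {C : ℝ}
    (hC : ∀ τ : ℍ, ‖f τ‖ ≤ C / τ.im ^ ((1 : ℤ) / 2 : ℝ)) {t : ℝ} (ht : 0 < t) (S : Finset ℕ) :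
    ∑ n ∈ S, ‖ModularFormClass.qCoeff f n‖ ^ 2 * Real.exp (-4 * π * n * t) ≤ C ^ 2 / t := by
  have hb : ∀ x, ‖line f t ht x‖ ≤ C / t ^ ((1 : ℤ) / 2 : ℝ) := by
    intro x
    have := hC ⟨(x : ℂ) + t * Complex.I, by simpa using ht⟩
    simpa [line, UpperHalfPlane.im] using this
  have hmem : MemLp (line f t ht) 2 (volume.restrict (Set.Ioc (0 : ℝ) 1)) :=
    MemLp.of_bound (continuous_line f t ht).aestronglyMeasurable _
      (Filter.Eventually.of_forall hb)
  have hsum := hasSum_sq_fourierCoeffOn (zero_lt_one' ℝ) hmem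
  have h1 : ∑ n ∈ S, ‖ModularFormClass.qCoeff f n‖ ^ 2 * Real.exp (-4 * π * n * t) =
      ∑ i ∈ S.map ⟨(Nat.cast : ℕ → ℤ), Nat.cast_injective⟩,
        ‖fourierCoeffOn (zero_lt_one' ℝ) (line f t ht) i‖ ^ 2 := by
    rw [Finset.sum_map]
    refine Finset.sum_congr rfl fun n _ => ?_
    simp only [Function.Embedding.coeFn_mk, fourierCoeffOn_line, norm_mul, mul_pow,
      Complex.norm_real, Real.norm_eq_abs, Real.abs_exp]
    congr 1
    rw [← Real.exp_nat_mul]
    congr 1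
    push_cast; ring
  rw [h1]
  refine (sum_le_hasSum _ (fun i _ => by positivity) hsum).trans ?_
  have h2 : (∫ x in (0 : ℝ)..1, ‖line f t ht x‖ ^ 2) ≤
      ∫ x in (0 : ℝ)..1, (C / t ^ ((1 : ℤ) / 2 : ℝ)) ^ 2 := by
    refine intervalIntegral.integral_mono zero_le_one ?_ ?_ fun x => ?_
    · exact ((continuous_line f t ht).norm.pow 2).intervalIntegrable _ _
    · exact continuous_const.intervalIntegrable _ _
    · have := hb x
      gcongr
  have h3 : (C / t ^ ((1 : ℤ) / 2 : ℝ)) ^ 2 = C ^ 2 / t := by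
    rw [div_pow, ← Real.rpow_natCast (t ^ ((1 : ℤ) / 2 : ℝ)) 2, ← Real.rpow_mul ht.le]
    norm_num
  rw [h3] at h2
  simpa using h2

theorem sum_le {N : ℕ} (f : CuspForm (Gamma1 N) 1) {C : ℝ}
    (hC : ∀ τ : ℍ, ‖f τ‖ ≤ C / τ.im ^ ((1 : ℤ) / 2 : ℝ)) (X : ℕ) :
    ∑ n ∈ Finset.Icc 1 X, ‖ModularFormClass.qCoeff f n‖ ^ 2 ≤
      C ^ 2 * Real.exp (4 * π) * X := by
  rcases Nat.eq_zero_or_pos X with rfl | hX
  · simp
  have hX' : (0 : ℝ) < X := by exact_mod_cast hX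
  have h := bessel f hC (t := 1 / X) (by positivity) (Finset.Icc 1 X)
  have h2 : ∑ n ∈ Finset.Icc 1 X, ‖ModularFormClass.qCoeff f n‖ ^ 2 * Real.exp (-4 * π) ≤
      ∑ n ∈ Finset.Icc 1 X,
        ‖ModularFormClass.qCoeff f n‖ ^ 2 * Real.exp (-4 * π * n * (1 / X)) := by
    refine Finset.sum_le_sum fun n hn => ?_
    have hn' : (n : ℝ) ≤ X := by exact_mod_cast (Finset.mem_Icc.1 hn).2
    refine mul_le_mul_of_nonneg_left (Real.exp_le_exp.2 ?_) (by positivity)
    have : (n : ℝ) * (1 / X) ≤ 1 := by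
      rw [mul_one_div, div_le_one hX']; exact hn'
    have hpi : 0 < π := Real.pi_pos
    nlinarith
  have h3 := h2.trans h
  rw [← Finset.sum_mul] at h3
  have h4 : Real.exp (-4 * π) * Real.exp (4 * π) = 1 := by
    rw [← Real.exp_add]; ring_nf; exact Real.exp_zero
  calc ∑ n ∈ Finset.Icc 1 X, ‖ModularFormClass.qCoeff f n‖ ^ 2
      = ((∑ n ∈ Finset.Icc 1 X, ‖ModularFormClass.qCoeff f n‖ ^ 2) * Real.exp (-4 * π)) *
          Real.exp (4 * π) := by rw [mul_assoc, h4, mul_one]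
    _ ≤ (C ^ 2 / (1 / X)) * Real.exp (4 * π) := by gcongr
    _ = C ^ 2 * Real.exp (4 * π) * X := by field_simp

/-- Elementary Abel summation bound. -/
theorem dirichlet_bound {a : ℕ → ℝ} (ha : ∀ n, 0 ≤ a n) {A : ℝ}
    (hA : ∀ X : ℕ, ∑ n ∈ Finset.Icc 1 X, a n ≤ A * X) {s : ℝ} (hs : 1 < s) (hs2 : s ≤ 2) :
    Summable (fun n : ℕ => a n * (n : ℝ) ^ (-s)) ∧
      ∑' n : ℕ, a n * (n : ℝ) ^ (-s) ≤ 2 * A / (s - 1) := by
  have hA0 : 0 ≤ A := by
    have := hA 1
    simp only [Finset.Icc_self, Finset.sum_singleton, Nat.cast_one, mul_one] at this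
    exact (ha 1).trans this
  have hO : (fun n : ℕ ↦ ∑ k ∈ Finset.Icc 1 n, a k) =O[atTop] fun n ↦ (n : ℝ) ^ (1 : ℝ) := by
    refine Asymptotics.IsBigO.of_bound A (Filter.Eventually.of_forall fun n => ?_)
    rw [Real.norm_of_nonneg (Finset.sum_nonneg fun k _ => ha k), Real.rpow_one,
      Real.norm_of_nonneg (Nat.cast_nonneg n)]
    exact hA n
  have hs' : (1 : ℝ) < (s : ℂ).re := by simpa using hs
  have hsum := LSeriesSummable_of_sum_norm_bigO_and_nonneg hO ha zero_le_one hs'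
  have hint := LSeries_eq_mul_integral_of_nonneg a zero_le_one hs' hO ha
  have hterm : ∀ n : ℕ, LSeries.term (fun n ↦ (a n : ℂ)) s n =
      ((a n * (n : ℝ) ^ (-s) : ℝ) : ℂ) := by
    intro n
    rcases Nat.eq_zero_or_pos n with rfl | hn
    · simp [Real.zero_rpow (by linarith : -s ≠ 0)]
    · rw [LSeries.term_of_ne_zero hn.ne', Complex.ofReal_mul, Complex.ofReal_cpow (Nat.cast_nonneg n)]
      push_cast
      rw [Complex.cpow_neg, div_eq_mul_inv]
  have hsummable : Summable (fun n : ℕ => a n * (n : ℝ) ^ (-s)) := by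
    have h1 : Summable (fun n : ℕ => ((a n * (n : ℝ) ^ (-s) : ℝ) : ℂ)) := by
      have := hsum
      rw [LSeriesSummable] at this
      exact this.congr hterm
    exact_mod_cast h1
  refine ⟨hsummable, ?_⟩
  have hL : LSeries (fun n ↦ (a n : ℂ)) s = ((∑' n : ℕ, a n * (n : ℝ) ^ (-s) : ℝ) : ℂ) := by
    rw [LSeries, Complex.ofReal_tsum]
    exact tsum_congr hterm
  have hnn : 0 ≤ ∑' n : ℕ, a n * (n : ℝ) ^ (-s) :=
    tsum_nonneg fun n => mul_nonneg (ha n) (Real.rpow_nonneg (Nat.cast_nonneg n) _)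
  have hnorm : ∑' n : ℕ, a n * (n : ℝ) ^ (-s) = ‖LSeries (fun n ↦ (a n : ℂ)) s‖ := by
    rw [hL, Complex.norm_real, Real.norm_of_nonneg hnn]
  rw [hnorm, hint, norm_mul, Complex.norm_real, Real.norm_of_nonneg (by linarith)]
  have hbound : ‖∫ t in Set.Ioi (1 : ℝ), (∑ k ∈ Finset.Icc 1 ⌊t⌋₊, (a k : ℂ)) *
      (t : ℂ) ^ (-((s : ℂ) + 1))‖ ≤ ∫ t in Set.Ioi (1 : ℝ), A * t ^ (-s) := by
    refine norm_integral_le_of_norm_le
      ((integrableOn_Ioi_rpow_of_lt (by linarith) zero_lt_one).const_mul A) ?_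
    refine (ae_restrict_iff' measurableSet_Ioi).2 (Filter.Eventually.of_forall fun t ht => ?_)
    have ht0 : (0 : ℝ) < t := zero_lt_one.trans ht
    rw [norm_mul, ← Complex.ofReal_sum, Complex.norm_real,
      Real.norm_of_nonneg (Finset.sum_nonneg fun k _ => ha k),
      Complex.norm_cpow_eq_rpow_re_of_pos ht0]
    have hre : (-((s : ℂ) + 1)).re = -s - 1 := by simp; ring
    rw [hre]
    have h1 : ∑ k ∈ Finset.Icc 1 ⌊t⌋₊, a k ≤ A * t :=
      (hA _).trans (mul_le_mul_of_nonneg_left (Nat.floor_le ht0.le) hA0)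
    calc (∑ k ∈ Finset.Icc 1 ⌊t⌋₊, a k) * t ^ (-s - 1) ≤ (A * t) * t ^ (-s - 1) := by
          gcongr
      _ = A * t ^ (-s) := by
          rw [mul_assoc, ← Real.rpow_one_add' ht0.le (by linarith)]
          ring_nf
  rw [integral_const_mul, integral_Ioi_rpow_of_lt (by linarith) zero_lt_one, Real.one_rpow] at hbound
  have hs1 : 0 < s - 1 := by linarith
  calc s * ‖∫ t in Set.Ioi (1 : ℝ), (∑ k ∈ Finset.Icc 1 ⌊t⌋₊, (a k : ℂ)) *
      (t : ℂ) ^ (-((s : ℂ) + 1))‖ ≤ s * (A * (-1 / (-s + 1))) := by gcongr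
    _ = s * A / (s - 1) := by
        have : -s + 1 = -(s - 1) := by ring
        rw [this]; field_simp
    _ ≤ 2 * A / (s - 1) := by gcongr

theorem rankin_bound (N : ℕ) [NeZero N] (f : CuspForm (Gamma1 N) 1) :
    ∃ C : ℝ, ∀ s : ℝ, 1 < s → s ≤ 2 →
      Summable (fun n : ℕ => ‖ModularFormClass.qCoeff f n‖ ^ 2 * (n : ℝ) ^ (-s)) ∧
      ∑' n : ℕ, ‖ModularFormClass.qCoeff f n‖ ^ 2 * (n : ℝ) ^ (-s) ≤ C / (s - 1) := by
  obtain ⟨C, hC⟩ := CuspFormClass.exists_bound f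
  refine ⟨2 * (C ^ 2 * Real.exp (4 * π)), fun s hs hs2 => ?_⟩
  exact dirichlet_bound (fun n => by positivity) (sum_le f hC) hs hs2

end Fermat.Agent.DS

end
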