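import Mathlib
import Fermat.Agent.DS.Rankin

/-! Rankin-type bound for the prime coefficients of weight one eigenforms. -/

set_option autoImplicit false

open CongruenceSubgroup Filter Topology
open scoped MatrixGroups

noncomputable section

namespace Fermat.Agent.DS

/-! ### The local inequality -/

/-- `c n + c (n - 2) + ⋯`. -/
def altSum (c : ℕ → ℝ) : ℕ → ℝ
  | 0 => c 0
  | 1 => c 1
  | (n + 2) => c (n + 2) + altSum c n

theorem altSum_nonneg {c : ℕ → ℝ} (hc : ∀ n, 0 ≤ c n) : ∀ n, 0 ≤ altSum c n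
  | 0 => hc 0
  | 1 => hc 1
  | (n + 2) => add_nonneg (hc _) (altSum_nonneg hc n)

theorem le_altSum {c : ℕ → ℝ} (hc : ∀ n, 0 ≤ c n) (n : ℕ) : c n ≤ altSum c n := by
  match n with
  | 0 => exact le_rfl
  | 1 => exact le_rfl
  | (n + 2) => exact le_add_of_nonneg_right (altSum_nonneg hc n)

/-- `|z + e w|² ≤ (1 + k)|z|² + (1 + 1/k)|w|²`. -/
theorem norm_add_sq_le (z w : ℂ) {k : ℝ} (hk : 0 < k) :
    ‖z + w‖ ^ 2 ≤ (k + 1) * ‖z‖ ^ 2 + (k + 1) / k * ‖w‖ ^ 2 := by
  have h1 : ‖z + w‖ ^ 2 ≤ (‖z‖ + ‖w‖) ^ 2 := by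
    gcongr; exact norm_add_le z w
  refine h1.trans ?_
  have h2 : (k + 1) * ‖z‖ ^ 2 + (k + 1) / k * ‖w‖ ^ 2 - (‖z‖ + ‖w‖) ^ 2 =
      (k * ‖z‖ - ‖w‖) ^ 2 / k := by
    field_simp; ring
  have h3 : 0 ≤ (k * ‖z‖ - ‖w‖) ^ 2 / k := by positivity
  linarith

theorem mul_altSum_le {u : ℕ → ℂ} {e : ℂ} (he : ‖e‖ = 1) (h0 : u 0 = 1)
    (hrec : ∀ k, u (k + 2) + e * u k = u 1 * u (k + 1)) (n : ℕ) :
    ‖u 1‖ ^ 2 * altSum (fun k => ‖u k‖ ^ 2) n ≤
      (n + 1) * altSum (fun k => ‖u k‖ ^ 2) (n + 1) := by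
  have hc : ∀ n, 0 ≤ (fun k => ‖u k‖ ^ 2) n := fun n => by positivity
  have key : ∀ k : ℕ, ‖u 1‖ ^ 2 * ‖u (k + 1)‖ ^ 2 ≤
      ((k : ℝ) + 2) * ‖u (k + 2)‖ ^ 2 + (((k : ℝ) + 2) / (k + 1)) * ‖u k‖ ^ 2 := by
    intro k
    have := norm_add_sq_le (u (k + 2)) (e * u k) (k := (k : ℝ) + 1) (by positivity)
    rw [hrec, norm_mul, norm_mul, he, one_mul, mul_pow] at this
    have h2 : (k : ℝ) + 1 + 1 = k + 2 := by ring
    rwa [h2] at this
  have key2 : ∀ k : ℕ, ‖u 1‖ ^ 2 * ‖u (k + 1)‖ ^ 2 ≤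
      ((k : ℝ) + 2) * ‖u (k + 2)‖ ^ 2 + 2 * ‖u k‖ ^ 2 := by
    intro k
    refine (key k).trans ?_
    have : ((k : ℝ) + 2) / (k + 1) ≤ 2 := by
      rw [div_le_iff₀ (by positivity)]
      have : (0 : ℝ) ≤ k := Nat.cast_nonneg k
      linarith
    gcongr
  induction n using Nat.twoStepInduction with
  | zero => simp [altSum, h0]
  | one =>
    have := key2 0
    simp only [altSum, zero_add, Nat.cast_zero, Nat.cast_one] at this ⊢
    linarith
  | more n ih1 _ =>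
    have h1 := key2 (n + 1)
    have h2 := le_altSum hc (n + 1)
    simp only [altSum] at ih1 h1 h2 ⊢
    push_cast at h1 ⊢
    have e1 : n + 1 + 1 = n + 2 := rfl
    have e2 : n + 1 + 2 = n + 3 := rfl
    rw [e1, e2] at h1
    rw [mul_add]
    have e3 : n + 2 + 1 = n + 3 := rfl
    rw [e3]
    nlinarith

theorem pow_div_factorial_le_altSum {u : ℕ → ℂ} {e : ℂ} (he : ‖e‖ = 1) (h0 : u 0 = 1)
    (hrec : ∀ k, u (k + 2) + e * u k = u 1 * u (k + 1)) (n : ℕ) :
    (‖u 1‖ ^ 2) ^ n / n.factorial ≤ altSum (fun k => ‖u k‖ ^ 2) n := by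
  induction n with
  | zero => simp [altSum, h0]
  | succ n ih =>
    have h := mul_altSum_le he h0 hrec n
    have hn : (0 : ℝ) < n + 1 := by positivity
    rw [← mul_le_mul_iff_right₀ hn]
    refine le_trans ?_ h
    rw [Nat.factorial_succ]
    push_cast
    calc ((n : ℝ) + 1) * ((‖u 1‖ ^ 2) ^ (n + 1) / (((n : ℝ) + 1) * n.factorial))
        = ‖u 1‖ ^ 2 * ((‖u 1‖ ^ 2) ^ n / n.factorial) := by
          field_simp
          ring
      _ ≤ _ := by gcongr

theorem sum_altSum_le {c : ℕ → ℝ} (hc : ∀ n, 0 ≤ c n) {x : ℝ} (hx : 0 ≤ x) (M : ℕ) :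
    (1 - x ^ 2) * ∑ n ∈ Finset.range (M + 2), altSum c n * x ^ n ≤
      ∑ n ∈ Finset.range (M + 2), c n * x ^ n := by
  have h1 : ∑ n ∈ Finset.range (M + 2), altSum c n * x ^ n =
      ∑ n ∈ Finset.range (M + 2), c n * x ^ n +
        x ^ 2 * ∑ n ∈ Finset.range M, altSum c n * x ^ n := by
    rw [Finset.sum_range_succ', Finset.sum_range_succ', Finset.sum_range_succ',
      Finset.sum_range_succ', Finset.mul_sum]
    simp only [altSum, zero_add, pow_zero, mul_one, pow_one]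
    have : ∀ n, (c (n + 2) + altSum c n) * x ^ (n + 1 + 1) =
        c (n + 1 + 1) * x ^ (n + 1 + 1) + x ^ 2 * (altSum c n * x ^ n) := by
      intro n; ring
    simp only [this, Finset.sum_add_distrib]
    ring
  have h2 : ∑ n ∈ Finset.range M, altSum c n * x ^ n ≤
      ∑ n ∈ Finset.range (M + 2), altSum c n * x ^ n := by
    refine Finset.sum_le_sum_of_subset_of_nonneg
      (Finset.range_mono (by omega)) fun n _ _ => ?_
    exact mul_nonneg (altSum_nonneg hc n) (pow_nonneg hx n)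
  have h3 : x ^ 2 * ∑ n ∈ Finset.range M, altSum c n * x ^ n ≤
      x ^ 2 * ∑ n ∈ Finset.range (M + 2), altSum c n * x ^ n := by gcongr
  linarith

/-- The local inequality. -/
theorem local_ineq {u : ℕ → ℂ} {e : ℂ} (he : ‖e‖ = 1) (h0 : u 0 = 1)
    (hrec : ∀ k, u (k + 2) + e * u k = u 1 * u (k + 1)) {x : ℝ} (hx : 0 ≤ x) (hx1 : x ≤ 1)
    (hs : Summable fun n => ‖u n‖ ^ 2 * x ^ n) :
    (1 - x ^ 2) * Real.exp (‖u 1‖ ^ 2 * x) ≤ ∑' n, ‖u n‖ ^ 2 * x ^ n := by
  have hx2 : 0 ≤ 1 - x ^ 2 := by nlinarith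
  have hexp : HasSum (fun n : ℕ => (‖u 1‖ ^ 2 * x) ^ n / n.factorial)
      (Real.exp (‖u 1‖ ^ 2 * x)) := by
    rw [Real.exp_eq_exp_ℝ]
    exact NormedSpace.expSeries_div_hasSum_exp (‖u 1‖ ^ 2 * x)
  have ht : Tendsto (fun M : ℕ => (1 - x ^ 2) *
      ∑ n ∈ Finset.range (M + 2), (‖u 1‖ ^ 2 * x) ^ n / n.factorial) atTop
      (𝓝 ((1 - x ^ 2) * Real.exp (‖u 1‖ ^ 2 * x))) := by
    refine Tendsto.const_mul _ ?_
    exact hexp.tendsto_sum_nat.comp (tendsto_add_atTop_nat 2)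
  refine le_of_tendsto ht (Filter.Eventually.of_forall fun M => ?_)
  calc (1 - x ^ 2) * ∑ n ∈ Finset.range (M + 2), (‖u 1‖ ^ 2 * x) ^ n / n.factorial
      ≤ (1 - x ^ 2) * ∑ n ∈ Finset.range (M + 2),
          altSum (fun k => ‖u k‖ ^ 2) n * x ^ n := by
        refine mul_le_mul_of_nonneg_left (Finset.sum_le_sum fun n _ => ?_) hx2
        rw [mul_pow, mul_div_right_comm]
        exact mul_le_mul_of_nonneg_right (pow_div_factorial_le_altSum he h0 hrec n)
          (pow_nonneg hx n)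
    _ ≤ ∑ n ∈ Finset.range (M + 2), ‖u n‖ ^ 2 * x ^ n :=
        sum_altSum_le (fun n => by positivity) hx M
    _ ≤ ∑' n, ‖u n‖ ^ 2 * x ^ n :=
        hs.sum_le_tsum _ fun n _ => by positivity

/-! ### Multiplicativity -/

variable {N : ℕ} [NeZero N] {ε : DirichletCharacter ℂ N} {f : CuspForm (Gamma1 N) 1}

theorem WtOneEigen.prime_pow_mul (hf : WtOneEigen N ε f) {p : ℕ} (hp : p.Prime) (hpN : ¬ p ∣ N)
    (k : ℕ) : ∀ n : ℕ, ¬ p ∣ n → ModularFormClass.qCoeff f (p ^ k * n) =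
      ModularFormClass.qCoeff f (p ^ k) * ModularFormClass.qCoeff f n := by
  induction k using Nat.twoStepInduction with
  | zero => intro n _; simp [hf.one]
  | one =>
    intro n hn
    have := hf.hecke p hp hpN n
    simpa [hn] using this
  | more k ih1 ih2 =>
    intro n hn
    have h1 := hf.hecke p hp hpN (p ^ (k + 1) * n)
    have h2 := hf.hecke p hp hpN (p ^ (k + 1))
    have d1 : p ∣ p ^ (k + 1) * n := Dvd.dvd.mul_right (dvd_pow_self p (by omega)) n
    have d2 : p ∣ p ^ (k + 1) := dvd_pow_self p (by omega)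
    have e1 : p ^ (k + 1) * n / p = p ^ k * n := by
      rw [pow_succ, mul_comm (p ^ k) p, mul_assoc, Nat.mul_div_cancel_left _ hp.pos]
    have e2 : p ^ (k + 1) / p = p ^ k := by
      rw [pow_succ, Nat.mul_div_cancel _ hp.pos]
    rw [if_pos d1, e1, ih1 n hn, ih2 n hn] at h1
    rw [if_pos d2, e2] at h2
    have e3 : p * (p ^ (k + 1) * n) = p ^ (k + 2) * n := by ring
    have e4 : p * p ^ (k + 1) = p ^ (k + 2) := by ring
    rw [e3] at h1
    rw [e4] at h2
    linear_combination h1 - ModularFormClass.qCoeff f n * h2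

theorem WtOneEigen.mul_of_coprime (hf : WtOneEigen N ε f) (m : ℕ) :
    m.Coprime N → ∀ n : ℕ, m.Coprime n → ModularFormClass.qCoeff f (m * n) =
      ModularFormClass.qCoeff f m * ModularFormClass.qCoeff f n := by
  induction m using Nat.recOnPosPrimePosCoprime with
  | prime_pow p k hp hk =>
    intro hN n hn
    have h1 : ¬ p ∣ N := hp.coprime_iff_not_dvd.1 ((Nat.coprime_pow_left_iff hk p N).1 hN)
    exact hf.prime_pow_mul hp h1 k n
      (hp.coprime_iff_not_dvd.1 ((Nat.coprime_pow_left_iff hk p n).1 hn))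
  | zero =>
    intro _ n hn
    rw [Nat.coprime_zero_left] at hn
    simp [hn, hf.one]
  | one => intro _ n _; simp [hf.one]
  | coprime a b ha hb hab iha ihb =>
    intro hN n hn
    have hN1 := Nat.Coprime.coprime_mul_right hN
    have hN2 := Nat.Coprime.coprime_mul_left hN
    have hn1 := Nat.Coprime.coprime_mul_right hn
    have hn2 := Nat.Coprime.coprime_mul_left hn
    rw [mul_assoc, iha hN1 (b * n) (Nat.Coprime.mul_right hab hn1), ihb hN2 n hn2,
      iha hN1 b hab, mul_assoc]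

/-- The multiplicative function `|a_n|² n^{-s}` restricted to `n` prime to the level. -/
def rankinTerm (N : ℕ) (f : CuspForm (Gamma1 N) 1) (s : ℝ) (n : ℕ) : ℝ :=
  if n.Coprime N then ‖ModularFormClass.qCoeff f n‖ ^ 2 * (n : ℝ) ^ (-s) else 0

theorem rankinTerm_nonneg (N : ℕ) (f : CuspForm (Gamma1 N) 1) (s : ℝ) (n : ℕ) :
    0 ≤ rankinTerm N f s n := by
  unfold rankinTerm
  split_ifs
  · positivity
  · exact le_rfl

theorem rankinTerm_le (N : ℕ) (f : CuspForm (Gamma1 N) 1) (s : ℝ) (n : ℕ) :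
    rankinTerm N f s n ≤ ‖ModularFormClass.qCoeff f n‖ ^ 2 * (n : ℝ) ^ (-s) := by
  unfold rankinTerm
  split_ifs
  · exact le_rfl
  · positivity

theorem rankinTerm_one (hf : WtOneEigen N ε f) (s : ℝ) : rankinTerm N f s 1 = 1 := by
  simp [rankinTerm, hf.one]

theorem rankinTerm_mul (hf : WtOneEigen N ε f) (s : ℝ) {m n : ℕ} (h : m.Coprime n) :
    rankinTerm N f s (m * n) = rankinTerm N f s m * rankinTerm N f s n := by
  unfold rankinTerm
  by_cases hm : m.Coprime N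
  · by_cases hn : n.Coprime N
    · rw [if_pos (Nat.Coprime.mul_left hm hn), if_pos hm, if_pos hn,
        hf.mul_of_coprime m hm n h, norm_mul, mul_pow, Nat.cast_mul,
        Real.mul_rpow (Nat.cast_nonneg _) (Nat.cast_nonneg _)]
      ring
    · rw [if_neg (fun h' => hn (Nat.Coprime.coprime_mul_left h')), if_neg hn, mul_zero]
  · rw [if_neg (fun h' => hm (Nat.Coprime.coprime_mul_right h')), if_neg hm, zero_mul]

omit [NeZero N] in
theorem rankinTerm_prime_pow {p : ℕ} (hp : p.Prime) (hpN : ¬ p ∣ N) (f : CuspForm (Gamma1 N) 1)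
    (s : ℝ) (k : ℕ) :
    rankinTerm N f s (p ^ k) =
      ‖ModularFormClass.qCoeff f (p ^ k)‖ ^ 2 * ((p : ℝ) ^ (-s)) ^ k := by
  rw [rankinTerm, if_pos (Nat.Coprime.pow_left k (hp.coprime_iff_not_dvd.2 hpN)), Nat.cast_pow,
    ← Real.rpow_natCast (p : ℝ) k, ← Real.rpow_natCast ((p : ℝ) ^ (-s)) k,
    ← Real.rpow_mul (Nat.cast_nonneg p), ← Real.rpow_mul (Nat.cast_nonneg p), mul_comm (k : ℝ)]

/-- **Rankin's bound for primes.** -/
theorem rankin_primes (N : ℕ) [NeZero N] (ε : DirichletCharacter ℂ N) (f : CuspForm (Gamma1 N) 1)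
    (hf : WtOneEigen N ε f) : ∃ C : ℝ, ∀ s : ℝ, 1 < s → s ≤ 2 →
      Summable (fun p : ℕ => if p.Prime ∧ ¬ p ∣ N then
        ‖ModularFormClass.qCoeff f p‖ ^ 2 * (p : ℝ) ^ (-s) else 0) ∧
      ∑' p : ℕ, (if p.Prime ∧ ¬ p ∣ N then
        ‖ModularFormClass.qCoeff f p‖ ^ 2 * (p : ℝ) ^ (-s) else 0) ≤
          Real.log (1 / (s - 1)) + C := by
  obtain ⟨C₀, hC₀⟩ := rankin_bound N f
  set C := max C₀ 1 with hC
  have hC1 : 1 ≤ C := le_max_right _ _
  have hz : Summable (fun n : ℕ => ((n : ℝ) ^ 2)⁻¹) := Real.summable_nat_pow_inv.2 one_lt_two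
  refine ⟨Real.log C + 2 * ∑' n : ℕ, ((n : ℝ) ^ 2)⁻¹, fun s hs hs2 => ?_⟩
  obtain ⟨hsum, hbound⟩ := hC₀ s hs hs2
  have hs1 : 0 < s - 1 := by linarith
  have hg : Summable (rankinTerm N f s) :=
    Summable.of_nonneg_of_le (rankinTerm_nonneg N f s) (rankinTerm_le N f s) hsum
  have hgn : Summable (fun n => ‖rankinTerm N f s n‖) := by
    simpa only [Real.norm_of_nonneg (rankinTerm_nonneg N f s _)] using hg
  have htot : ∑' n, rankinTerm N f s n ≤ C / (s - 1) := by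
    refine (hg.tsum_le_tsum (rankinTerm_le N f s) hsum).trans (hbound.trans ?_)
    gcongr
    exact le_max_left _ _
  have hpartial : ∀ F : Finset ℕ, ∑ p ∈ F, (if p.Prime ∧ ¬ p ∣ N then
      ‖ModularFormClass.qCoeff f p‖ ^ 2 * (p : ℝ) ^ (-s) else 0) ≤
      Real.log (1 / (s - 1)) + (Real.log C + 2 * ∑' n : ℕ, ((n : ℝ) ^ 2)⁻¹) := by
    intro F
    rw [← Finset.sum_filter]
    set F' := F.filter (fun p => p.Prime ∧ ¬ p ∣ N) with hF'
    have hF'p : F'.filter Nat.Prime = F' := by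
      rw [Finset.filter_eq_self]
      intro p hp
      exact (Finset.mem_filter.1 hp).2.1
    have hprod := EulerProduct.prod_filter_prime_tsum_eq_tsum_factoredNumbers
      (f := rankinTerm N f s) (rankinTerm_one hf s) (fun {m n} h => rankinTerm_mul hf s h) hgn F'
    rw [hF'p] at hprod
    have hle : ∏ p ∈ F', ∑' k, rankinTerm N f s (p ^ k) ≤ C / (s - 1) := by
      rw [hprod]
      exact (Summable.tsum_subtype_le _ _ (rankinTerm_nonneg N f s) hg).trans htot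
    have hloc : ∀ p ∈ F', (1 - ((p : ℝ) ^ (-s)) ^ 2) *
        Real.exp (‖ModularFormClass.qCoeff f p‖ ^ 2 * (p : ℝ) ^ (-s)) ≤
          ∑' k, rankinTerm N f s (p ^ k) := by
      intro p hp
      obtain ⟨hpp, hpN⟩ := (Finset.mem_filter.1 hp).2
      have hx1 : (p : ℝ) ^ (-s) ≤ 1 :=
        Real.rpow_le_one_of_one_le_of_nonpos (by exact_mod_cast hpp.one_le) (by linarith)
      have he : ‖ε (p : ZMod N)‖ = 1 := by
        have hu : IsUnit ((p : ℕ) : ZMod N) :=
          (ZMod.isUnit_iff_coprime p N).2 (hpp.coprime_iff_not_dvd.2 hpN)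
        exact DirichletCharacter.unit_norm_eq_one ε hu.unit
      have hrec : ∀ k, ModularFormClass.qCoeff f (p ^ (k + 2)) +
          ε (p : ZMod N) * ModularFormClass.qCoeff f (p ^ k) =
          ModularFormClass.qCoeff f (p ^ 1) * ModularFormClass.qCoeff f (p ^ (k + 1)) := by
        intro k
        have := hf.hecke p hpp hpN (p ^ (k + 1))
        rw [if_pos (dvd_pow_self p (by omega))] at this
        have e2 : p ^ (k + 1) / p = p ^ k := by
          rw [pow_succ, Nat.mul_div_cancel _ hpp.pos]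
        have e4 : p * p ^ (k + 1) = p ^ (k + 2) := by ring
        rw [e2, e4] at this
        rw [pow_one]
        exact this
      have hsm : Summable fun k => ‖ModularFormClass.qCoeff f (p ^ k)‖ ^ 2 *
          ((p : ℝ) ^ (-s)) ^ k := by
        have := hg.comp_injective (Nat.pow_right_injective hpp.two_le)
        refine this.congr fun k => ?_
        exact rankinTerm_prime_pow hpp hpN f s k
      have := local_ineq (u := fun k => ModularFormClass.qCoeff f (p ^ k)) he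
        (by simp [hf.one]) hrec (Real.rpow_nonneg (Nat.cast_nonneg p) _) hx1 hsm
      simp only [rankinTerm_prime_pow hpp hpN f s]
      simpa using this
    have hx2 : ∀ p ∈ F', ((p : ℝ) ^ (-s)) ^ 2 ≤ ((p : ℝ) ^ 2)⁻¹ ∧
        ((p : ℝ) ^ 2)⁻¹ ≤ 1 / 4 := by
      intro p hp
      obtain ⟨hpp, hpN⟩ := (Finset.mem_filter.1 hp).2
      have h2 : (2 : ℝ) ≤ p := by exact_mod_cast hpp.two_le
      constructor
      · rw [← inv_pow]
        have : (p : ℝ) ^ (-s) ≤ (p : ℝ) ^ (-1 : ℝ) :=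
          Real.rpow_le_rpow_of_exponent_le (by linarith) (by linarith)
        rw [Real.rpow_neg_one] at this
        gcongr
      · rw [one_div]
        gcongr
        nlinarith
    have hlog : ∀ p ∈ F', ‖ModularFormClass.qCoeff f p‖ ^ 2 * (p : ℝ) ^ (-s) ≤
        Real.log (∑' k, rankinTerm N f s (p ^ k)) + 2 * ((p : ℝ) ^ 2)⁻¹ := by
      intro p hp
      obtain ⟨h1, h2⟩ := hx2 p hp
      have h3 : 0 ≤ ((p : ℝ) ^ (-s)) ^ 2 := by positivity
      have hpos : 0 < 1 - ((p : ℝ) ^ (-s)) ^ 2 := by linarith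
      have h4 := Real.log_le_log (by positivity) (hloc p hp)
      rw [Real.log_mul hpos.ne' (Real.exp_pos _).ne', Real.log_exp] at h4
      have h5 : -(2 * ((p : ℝ) ^ (-s)) ^ 2) ≤ Real.log (1 - ((p : ℝ) ^ (-s)) ^ 2) := by
        have := Real.one_sub_inv_le_log_of_pos hpos
        have h6 : (1 - ((p : ℝ) ^ (-s)) ^ 2)⁻¹ ≤ 1 + 2 * ((p : ℝ) ^ (-s)) ^ 2 := by
          rw [inv_le_iff_one_le_mul₀ hpos]
          nlinarith
        linarith
      linarith
    have hposL : ∀ p ∈ F', 0 < ∑' k, rankinTerm N f s (p ^ k) := by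
      intro p hp
      obtain ⟨h1, h2⟩ := hx2 p hp
      have hpos : 0 < 1 - ((p : ℝ) ^ (-s)) ^ 2 := by linarith
      exact lt_of_lt_of_le (by positivity) (hloc p hp)
    have hne : ∀ p ∈ F', ∑' k, rankinTerm N f s (p ^ k) ≠ 0 := fun p hp => (hposL p hp).ne'
    calc ∑ p ∈ F', ‖ModularFormClass.qCoeff f p‖ ^ 2 * (p : ℝ) ^ (-s)
        ≤ ∑ p ∈ F', (Real.log (∑' k, rankinTerm N f s (p ^ k)) + 2 * ((p : ℝ) ^ 2)⁻¹) :=
          Finset.sum_le_sum hlog
      _ = Real.log (∏ p ∈ F', ∑' k, rankinTerm N f s (p ^ k)) +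
            2 * ∑ p ∈ F', ((p : ℝ) ^ 2)⁻¹ := by
          rw [Finset.sum_add_distrib, Real.log_prod hne, Finset.mul_sum]
      _ ≤ Real.log (C / (s - 1)) + 2 * ∑' n : ℕ, ((n : ℝ) ^ 2)⁻¹ := by
          gcongr
          · exact Finset.prod_pos hposL
          · exact hz.sum_le_tsum _ fun n _ => by positivity
      _ = Real.log (1 / (s - 1)) + (Real.log C + 2 * ∑' n : ℕ, ((n : ℝ) ^ 2)⁻¹) := by
          rw [Real.log_div (by positivity) hs1.ne', Real.log_div one_ne_zero hs1.ne',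
            Real.log_one]
          ring
  have hnn : ∀ p : ℕ, 0 ≤ (if p.Prime ∧ ¬ p ∣ N then
      ‖ModularFormClass.qCoeff f p‖ ^ 2 * (p : ℝ) ^ (-s) else 0) := by
    intro p
    split_ifs
    · positivity
    · exact le_rfl
  have hS := summable_of_sum_le hnn hpartial
  exact ⟨hS, hS.tsum_le_of_sum_le hpartial⟩

end Fermat.Agent.DS

end
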