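import Fermat.Agent.DS.Teich
import Fermat.Agent.X1.Interface

/-!
# The weight one form congruent to one
-/

set_option autoImplicit false

open UpperHalfPlane ModularForm CongruenceSubgroup
open scoped MatrixGroups ModularForm

noncomputable section

namespace Fermat.Agent.X1

open Fermat.Agent.DSEis

theorem eOmega_of_prime {l : ℕ} (hl : l.Prime) (hl3 : 3 ≤ l) : EOmega l := by
  intro k _ _ φ
  have : Fact l.Prime := ⟨hl⟩
  refine ⟨MonoidHom.toHomUnits (teich (l := l) φ), Eomega (l := l) φ, ?_, ?_, ?_⟩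
  · intro u
    rw [MonoidHom.coe_toHomUnits, ph_teich, ZMod.castHom_apply, ZMod.cast_eq_val]
  · intro γ u hγ hu
    rw [Eomega_slash φ hγ, hu, omegaInv_unit]
    congr 2
  · intro n
    refine ⟨omCoeff (l := l) φ n, (coeff_Eomega φ hl3 n).symm, ?_⟩
    split_ifs with h
    · rw [h, ph_omCoeff_zero]
    · rw [ph_omCoeff_pos φ h]

end Fermat.Agent.X1

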