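import Fermat.Agent.DS.Systems

/-!
# Integrality of eigenvalues; eigenforms with integral coefficients
-/

set_option autoImplicit false

open CongruenceSubgroup UpperHalfPlane ModularFormClass
open scoped MatrixGroups Polynomial

noncomputable section

namespace Fermat.Agent.DS

variable {N : ℕ}

lemma qCoeff_add (f g : CuspForm (Gamma1 N) 1) (n : ℕ) :
    qCoeff (⇑(f + g) : ℍ → ℂ) n = qCoeff f n + qCoeff g n := congrFun (map_add (coeffLin N) f g) n

lemma qCoeff_smul (c : ℂ) (f : CuspForm (Gamma1 N) 1) (n : ℕ) :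
    qCoeff (⇑(c • f) : ℍ → ℂ) n = c * qCoeff f n := congrFun (map_smul (coeffLin N) c f) n

lemma qCoeff_zero (n : ℕ) : qCoeff (0 : CuspForm (Gamma1 N) 1) n = 0 :=
  congrFun (map_zero (coeffLin N)) n

/-- the coefficients of a form lie in a finitely generated `ℤ`-module -/
theorem exists_fg_coeff (hI : IntSpan N) (f : CuspForm (Gamma1 N) 1) :
    ∃ W : Submodule ℤ ℂ, W.FG ∧ ∀ n, qCoeff f n ∈ W := by
  have hf : f ∈ Submodule.span ℂ {f : CuspForm (Gamma1 N) 1 |
    ∀ n, ∃ m : ℤ, ModularFormClass.qCoeff f n = (m : ℂ)} := by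
    rw [hI]; exact Submodule.mem_top
  induction hf using Submodule.span_induction with
  | mem g hg =>
    refine ⟨Submodule.span ℤ {1}, ⟨{1}, by simp⟩, fun n => ?_⟩
    obtain ⟨m, hm⟩ := hg n
    rw [hm, Submodule.mem_span_singleton]
    exact ⟨m, by simp⟩
  | zero => exact ⟨⊥, Submodule.fg_bot, fun n => by rw [qCoeff_zero]; exact zero_mem _⟩
  | add f g _ _ hf hg =>
    obtain ⟨W₁, h1, h1'⟩ := hf
    obtain ⟨W₂, h2, h2'⟩ := hg
    refine ⟨W₁ ⊔ W₂, h1.sup h2, fun n => ?_⟩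
    rw [qCoeff_add]
    exact add_mem (Submodule.mem_sup_left (h1' n)) (Submodule.mem_sup_right (h2' n))
  | smul c f _ hf =>
    obtain ⟨W, h1, h1'⟩ := hf
    refine ⟨W.map (LinearMap.mulLeft ℤ c), h1.map _, fun n => ?_⟩
    rw [qCoeff_smul]
    exact ⟨_, h1' n, rfl⟩

/-- Abstract integrality criterion. -/
theorem isIntegral_of_recursion {a e : ℂ} (he : IsIntegral ℤ e) (u : ℕ → ℂ) (hu0 : u 0 = 1)
    (hu1 : u 1 = a) (hu : ∀ k, u (k + 2) = a * u (k + 1) - e * u k)
    {W : Submodule ℤ ℂ} (hW : W.FG) (huW : ∀ k, u k ∈ W) : IsIntegral ℤ a := by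
  set V : Submodule ℤ ℂ := Submodule.span ℤ (Set.range fun x : ℕ × ℕ => e ^ x.1 * u x.2) with hV
  have hVfg : V.FG := by
    have h1 : (Subalgebra.toSubmodule (Algebra.adjoin ℤ {e})).FG := he.fg_adjoin_singleton
    refine Submodule.FG.of_le (h1.mul hW) ?_
    rw [hV, Submodule.span_le]
    rintro _ ⟨⟨i, k⟩, rfl⟩
    exact Submodule.mul_mem_mul (Subalgebra.pow_mem _ (Algebra.self_mem_adjoin_singleton ℤ e) i)
      (huW k)
  have hVne : V ≠ ⊥ := by
    intro h
    have : (1 : ℂ) ∈ V := Submodule.subset_span ⟨(0, 0), by simp [hu0]⟩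
    rw [h, Submodule.mem_bot] at this
    exact one_ne_zero this
  refine isIntegral_of_smul_mem_submodule V hVne hVfg a fun x hx => ?_
  induction hx using Submodule.span_induction with
  | mem x hx =>
    obtain ⟨⟨i, k⟩, rfl⟩ := hx
    rw [smul_eq_mul]
    rcases k with _ | k
    · have : a * (e ^ i * u 0) = e ^ i * u 1 := by rw [hu0, hu1]; ring
      exact this ▸ Submodule.subset_span ⟨(i, 1), rfl⟩
    · have : a * (e ^ i * u (k + 1)) = e ^ i * u (k + 2) + e ^ (i + 1) * u k := by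
        rw [hu]; ring
      simp only
      rw [this]
      exact add_mem (Submodule.subset_span ⟨(i, k + 2), rfl⟩)
        (Submodule.subset_span ⟨(i + 1, k), rfl⟩)
  | zero => rw [smul_zero]; exact zero_mem _
  | add x y _ _ hx hy => rw [smul_add]; exact add_mem hx hy
  | smul m x _ hx => rw [smul_comm]; exact Submodule.smul_mem _ _ hx

lemma isIntegral_dirichlet [NeZero N] (ε : DirichletCharacter ℂ N) (a : ZMod N) :
    IsIntegral ℤ (ε a) := by
  by_cases ha : IsUnit a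
  · obtain ⟨u, rfl⟩ := ha
    have h1 : (ε (u : ZMod N)) ^ Fintype.card (ZMod N)ˣ = 1 := by
      rw [← map_pow, ← Units.val_pow_eq_pow_val, pow_card_eq_one, Units.val_one, map_one]
    exact IsIntegral.of_pow Fintype.card_pos (by rw [h1]; exact isIntegral_one)
  · rw [MulChar.map_nonunit _ ha]
    exact isIntegral_zero

theorem isIntegral_eigenvalue [NeZero N] (hI : IntSpan N) {ε : DirichletCharacter ℂ N}
    {f : CuspForm (Gamma1 N) 1} (hf : WtOneEigen N ε f) {p : ℕ} (hp : p.Prime) (hpN : ¬ p ∣ N) :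
    IsIntegral ℤ (qCoeff f p) := by
  obtain ⟨W, hW, hWm⟩ := exists_fg_coeff hI f
  refine isIntegral_of_recursion (isIntegral_dirichlet ε (p : ZMod N)) (fun k => qCoeff f (p ^ k))
    (by simpa using hf.one) (by simp) (fun k => ?_) hW (fun k => hWm _)
  have h1 := hf.hecke p hp hpN (p ^ (k + 1))
  rw [if_pos (dvd_pow_self p (Nat.succ_ne_zero k)), pow_succ p k, Nat.mul_div_cancel _ hp.pos] at h1
  have h2 : p * (p ^ k * p) = p ^ (k + 2) := by ring
  have h3 : p ^ k * p = p ^ (k + 1) := by ring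
  rw [h2, h3] at h1
  linear_combination h1

/-- The field of algebraic numbers inside `ℂ`. -/
abbrev KC : IntermediateField ℚ ℂ := algebraicClosure ℚ ℂ

theorem exists_proj : ∃ π : ℂ →ₗ[KC] KC, π 1 = 1 := by
  obtain ⟨g, hg⟩ := (Algebra.linearMap KC ℂ).exists_leftInverse_of_injective
    (LinearMap.ker_eq_bot.mpr (algebraMap KC ℂ).injective)
  refine ⟨g, ?_⟩
  have := LinearMap.congr_fun hg 1
  rw [LinearMap.comp_apply, Algebra.linearMap_apply, map_one] at this
  exact this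

theorem exists_proj_form (hI : IntSpan N) (π : ℂ →ₗ[KC] KC) (f : CuspForm (Gamma1 N) 1) (c : ℂ) :
    ∃ (f' : CuspForm (Gamma1 N) 1) (D : ℕ), D ≠ 0 ∧ (∀ n, qCoeff f' n = (π (c * qCoeff f n) : ℂ)) ∧
      ∀ n, IsIntegral ℤ ((D : ℂ) * qCoeff f' n) := by
  have hf : f ∈ Submodule.span ℂ {f : CuspForm (Gamma1 N) 1 |
    ∀ n, ∃ m : ℤ, ModularFormClass.qCoeff f n = (m : ℂ)} := by
    rw [hI]; exact Submodule.mem_top
  induction hf using Submodule.span_induction generalizing c with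
  | mem g hg =>
    have halg : IsAlgebraic ℤ ((π c : KC) : ℂ) :=
      (IsFractionRing.isAlgebraic_iff ℤ ℚ ℂ).mpr (mem_algebraicClosure_iff.mp (π c).2)
    obtain ⟨D, hD0, hD⟩ := halg.exists_integral_multiple
    refine ⟨((π c : KC) : ℂ) • g, D.natAbs, Int.natAbs_ne_zero.mpr hD0, fun n => ?_, fun n => ?_⟩
    · obtain ⟨m, hm⟩ := hg n
      rw [qCoeff_smul, hm]
      have : c * (m : ℂ) = m • c := by rw [zsmul_eq_mul, mul_comm]
      rw [this, map_zsmul, zsmul_eq_mul, mul_comm]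
      push_cast
      rfl
    · obtain ⟨m, hm⟩ := hg n
      rw [qCoeff_smul, hm, ← mul_assoc]
      refine IsIntegral.mul ?_ (isIntegral_algebraMap (R := ℤ) (x := m))
      have hD' : IsIntegral ℤ ((D : ℂ) * ((π c : KC) : ℂ)) := by
        simpa [zsmul_eq_mul] using hD
      rcases Int.natAbs_eq D with h | h
      · have h2 : ((D.natAbs : ℕ) : ℂ) = (D : ℂ) := by
          conv_rhs => rw [h]
          simp
        rw [h2]
        exact hD'
      · have h2 : ((D.natAbs : ℕ) : ℂ) = -(D : ℂ) := by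
          conv_rhs => rw [h]
          simp
        rw [h2, neg_mul]
        exact hD'.neg
  | zero =>
    exact ⟨0, 1, one_ne_zero, fun n => by rw [qCoeff_zero, mul_zero, map_zero]; rfl, fun n => by
      rw [qCoeff_zero, mul_zero]; exact isIntegral_zero⟩
  | add f g _ _ hf hg =>
    obtain ⟨f₁, D₁, h1, h2, h3⟩ := hf c
    obtain ⟨f₂, D₂, h1', h2', h3'⟩ := hg c
    refine ⟨f₁ + f₂, D₁ * D₂, mul_ne_zero h1 h1', fun n => ?_, fun n => ?_⟩
    · rw [qCoeff_add, qCoeff_add, h2, h2', mul_add, map_add]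
      push_cast
      rfl
    · rw [qCoeff_add]
      have e : (((D₁ * D₂ : ℕ) : ℂ)) * (qCoeff f₁ n + qCoeff f₂ n) =
          (D₂ : ℂ) * ((D₁ : ℂ) * qCoeff f₁ n) + (D₁ : ℂ) * ((D₂ : ℂ) * qCoeff f₂ n) := by
        push_cast; ring
      rw [e]
      exact ((isIntegral_natCast (a := D₂)).mul (h3 n)).add
        ((isIntegral_natCast (a := D₁)).mul (h3' n))
  | smul c' f _ hf =>
    obtain ⟨f₁, D₁, h1, h2, h3⟩ := hf (c * c')
    refine ⟨f₁, D₁, h1, fun n => ?_, h3⟩
    rw [h2, qCoeff_smul, mul_assoc]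

/-- An eigenform with integral coefficients and the same eigenvalues. -/
theorem exists_integral_form [NeZero N] (hI : IntSpan N) {ε : DirichletCharacter ℂ N}
    {f : CuspForm (Gamma1 N) 1} (hf : WtOneEigen N ε f) :
    ∃ (g : CuspForm (Gamma1 N) 1) (D : ℕ), D ≠ 0 ∧ (∀ n, IsIntegral ℤ (qCoeff g n)) ∧
      qCoeff g 1 = D ∧ ∀ p : ℕ, p.Prime → ¬ p ∣ N →
        HeckeRel (ε (p : ZMod N)) (qCoeff f p) g p := by
  obtain ⟨π, hπ⟩ := exists_proj
  obtain ⟨f', D, hD, h1, h2⟩ := exists_proj_form hI π f 1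
  refine ⟨(D : ℂ) • f', D, hD, fun n => by rw [qCoeff_smul]; exact h2 n, ?_, ?_⟩
  · rw [qCoeff_smul, h1, one_mul, hf.one, hπ]
    simp
  · intro p hp hpN n
    have hK : ∀ x : ℂ, IsIntegral ℤ x → x ∈ KC := fun x hx =>
      mem_algebraicClosure_iff.mpr
        ((IsFractionRing.isAlgebraic_iff ℤ ℚ ℂ).mp hx.isAlgebraic)
    have ht : qCoeff f p ∈ KC := hK _ (isIntegral_eigenvalue hI hf hp hpN)
    have he : ε (p : ZMod N) ∈ KC := hK _ (isIntegral_dirichlet ε _)
    have h3 : ∀ m, qCoeff f' m = (π (qCoeff f m) : ℂ) := fun m => by rw [h1, one_mul]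
    have h4 := hf.hecke p hp hpN n
    have h5 := congrArg (fun x => ((π x : KC) : ℂ)) h4
    have h6 : ∀ (x : ℂ) (hx : x ∈ KC) (y : ℂ), ((π (x * y) : KC) : ℂ) = x * ((π y : KC) : ℂ) := by
      intro x hx y
      have : x * y = (⟨x, hx⟩ : KC) • y := rfl
      rw [this, map_smul]
      rfl
    simp only [map_add] at h5
    rw [h6 _ ht] at h5
    have h7 : ((π (qCoeff f (p * n)) + π (ε (p : ZMod N) *
        if p ∣ n then qCoeff f (n / p) else 0) : KC) : ℂ) =
        qCoeff f' (p * n) + ε (p : ZMod N) * (if p ∣ n then qCoeff f' (n / p) else 0) := by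
      rw [IntermediateField.coe_add, h6 _ he, h3]
      congr 2
      split_ifs
      · rw [h3]
      · simp
    rw [h7, ← h3] at h5
    have h8 : (if p ∣ n then qCoeff (⇑((D : ℂ) • f') : ℍ → ℂ) (n / p) else 0) =
        (D : ℂ) * (if p ∣ n then qCoeff f' (n / p) else 0) := by
      split_ifs
      · rw [qCoeff_smul]
      · simp
    rw [h8, qCoeff_smul, qCoeff_smul]
    linear_combination (D : ℂ) * h5

end Fermat.Agent.DS

end
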