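import Fermat.Agent.DS.Interface
import Fermat.Agent.EisChar.Descent
import Fermat.Agent.IntStruct.AutC

/-!
# The finite set of weight one eigensystems of level `N`, and the action of `Aut ℂ`
-/

set_option autoImplicit false

open CongruenceSubgroup UpperHalfPlane ModularFormClass
open scoped MatrixGroups Polynomial

noncomputable section

namespace Fermat.Agent.DS

/-- Simultaneous eigenvectors with distinct systems of eigenvalues are linearly independent. -/
theorem linearIndependent_of_eigensystems {K V ι J : Type*} [Field K] [AddCommGroup V] [Module K V]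
    (v : ι → V) (T : J → V →ₗ[K] V) (t : ι → J → K) (h : ∀ i j, T j (v i) = t i j • v i)
    (hv : ∀ i, v i ≠ 0) (hinj : Function.Injective t) : LinearIndependent K v := by
  classical
  rw [linearIndependent_iff']
  intro s
  induction s using Finset.induction_on with
  | empty => simp
  | insert a s ha ih =>
    intro g hg
    rw [Finset.sum_insert ha] at hg
    have key : ∀ i ∈ s, g i = 0 := by
      intro i hi
      have hne : t a ≠ t i := fun h => ha (hinj h ▸ hi)
      obtain ⟨j, hj⟩ := Function.ne_iff.mp hne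
      have h1 := congrArg (T j) hg
      rw [map_add, map_smul, h, map_sum, map_zero] at h1
      simp only [map_smul, h] at h1
      have h2 : ∑ i ∈ s, (g i * (t i j - t a j)) • v i = 0 := by
        have h3 : ∑ i ∈ s, (g i * (t i j - t a j)) • v i =
            (g a • t a j • v a + ∑ i ∈ s, g i • t i j • v i) -
              t a j • (g a • v a + ∑ i ∈ s, g i • v i) := by
          rw [smul_add, Finset.smul_sum, smul_comm (t a j) (g a), add_sub_add_left_eq_sub,
            ← Finset.sum_sub_distrib]
          refine Finset.sum_congr rfl fun i _ => ?_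
          rw [smul_comm (t a j) (g i), ← smul_sub, ← sub_smul, smul_smul]
        rw [h3, h1, hg, smul_zero, sub_zero]
      have h4 := ih _ h2 i hi
      exact (mul_eq_zero.mp h4).resolve_right (sub_ne_zero.mpr (Ne.symm hj))
    intro i hi
    rcases Finset.mem_insert.mp hi with rfl | hi
    · rw [Finset.sum_eq_zero (fun i hi => by rw [key i hi, zero_smul]), add_zero] at hg
      exact (smul_eq_zero.mp hg).resolve_right (hv i)
    · exact key i hi

variable (N : ℕ)

lemma one_mem_G1 : (1 : ℝ) ∈ (Gamma1 N : Subgroup (GL (Fin 2) ℝ)).strictPeriods := by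
  simp [CongruenceSubgroup.strictPeriods_Gamma1]

/-- `q`-expansion coefficients as a linear map. -/
def coeffLin : CuspForm (Gamma1 N) 1 →ₗ[ℂ] (ℕ → ℂ) where
  toFun f n := qCoeff f n
  map_add' f g := by
    ext n
    rw [Pi.add_apply, qCoeff, qCoeff, qCoeff, FunLike.coe_add,
      ModularForm.qExpansion_add one_pos (one_mem_G1 N) f g]
    simp
  map_smul' c f := by
    ext n
    rw [Pi.smul_apply, qCoeff, qCoeff, FunLike.coe_smul,
      ModularForm.qExpansion_smul one_pos (one_mem_G1 N) c f]
    simp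

@[simp] lemma coeffLin_apply (f : CuspForm (Gamma1 N) 1) (n : ℕ) :
    coeffLin N f n = qCoeff f n := rfl

lemma T_mem_Gamma1 : ModularGroup.T ∈ Gamma1 N := by
  rw [Gamma1_mem]
  simp [ModularGroup.T]

lemma exists_bound_coeff [NeZero N] : ∃ B : ℕ, ∀ f : CuspForm (Gamma1 N) 1,
    (∀ j ≤ B, qCoeff f j = 0) → f = 0 := by
  obtain ⟨B, hB⟩ := EisChar.exists_order_bound (Γ := Gamma1 N) (T_mem_Gamma1 N) 1
  refine ⟨B, fun f hf => ?_⟩
  have := hB (f : ModularForm (Gamma1 N) 1) (fun j hj => hf j hj)
  ext τ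
  exact congrFun this τ

lemma coeffLin_injective [NeZero N] : Function.Injective (coeffLin N) := by
  obtain ⟨B, hB⟩ := exists_bound_coeff N
  rw [injective_iff_map_eq_zero]
  intro f hf
  exact hB f fun j _ => congrFun hf j

instance finiteDimensional_cuspForm [NeZero N] : FiniteDimensional ℂ (CuspForm (Gamma1 N) 1) := by
  obtain ⟨B, hB⟩ := exists_bound_coeff N
  let L : CuspForm (Gamma1 N) 1 →ₗ[ℂ] (Fin (B + 1) → ℂ) :=
    (LinearMap.funLeft ℂ ℂ (fun i : Fin (B + 1) => (i : ℕ))).comp (coeffLin N)
  refine FiniteDimensional.of_injective L ?_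
  rw [injective_iff_map_eq_zero]
  intro f hf
  exact hB f fun j hj => congrFun hf ⟨j, by omega⟩

/-- The Hecke operator with parameter `e` on sequences. -/
def heckeSeq (e : ℂ) (p : ℕ) : (ℕ → ℂ) →ₗ[ℂ] (ℕ → ℂ) where
  toFun a n := a (p * n) + e * (if p ∣ n then a (n / p) else 0)
  map_add' a b := by
    ext n
    simp only [Pi.add_apply]
    split_ifs <;> ring
  map_smul' c a := by
    ext n
    simp only [Pi.smul_apply, smul_eq_mul, RingHom.id_apply]
    split_ifs <;> ring

lemma heckeSeq_apply (e : ℂ) (p : ℕ) (a : ℕ → ℂ) (n : ℕ) :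
    heckeSeq e p a n = a (p * n) + e * (if p ∣ n then a (n / p) else 0) := rfl

variable [NeZero N]

open Classical in
/-- `(ε, t)` is an eigensystem of level `N` in weight one; `t p` is the Hecke eigenvalue for
`p ∤ N` prime and `0` otherwise. -/
def IsSys (x : DirichletCharacter ℂ N × (ℕ → ℂ)) : Prop :=
  ∃ f : CuspForm (Gamma1 N) 1, WtOneEigen N x.1 f ∧
    ∀ p, x.2 p = if p.Prime ∧ ¬ p ∣ N then qCoeff f p else 0

theorem finite_systems : {x | IsSys N x}.Finite := by
  classical
  have h1 : ∀ ε : DirichletCharacter ℂ N, {t : ℕ → ℂ | IsSys N (ε, t)}.Finite := by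
    intro ε
    rw [← Set.finite_coe_iff]
    choose F hF1 hF2' using fun t : {t : ℕ → ℂ | IsSys N (ε, t)} => t.2
    have hF2 : ∀ (t : {t : ℕ → ℂ | IsSys N (ε, t)}) (p : ℕ), (t : ℕ → ℂ) p =
      if Nat.Prime p ∧ ¬p ∣ N then qCoeff (⇑(F t)) p else 0 := hF2'
    refine LinearIndependent.finite (R := ℂ) (M := CuspForm (Gamma1 N) 1) (f := F) ?_
    have h2 : LinearIndependent ℂ (fun t => coeffLin N (F t)) := by
      refine linearIndependent_of_eigensystems (J := {p : ℕ // p.Prime ∧ ¬ p ∣ N}) _
        (fun p => heckeSeq (ε ((p : ℕ) : ZMod N)) p) (fun t p => t.1 p) (fun t p => ?_)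
        (fun t h => ?_) (fun t t' htt => ?_)
      · ext n
        rw [heckeSeq_apply]
        simp only [coeffLin_apply]
        rw [(hF1 t).hecke p p.2.1 p.2.2 n, Pi.smul_apply, smul_eq_mul, coeffLin_apply]
        congr 1
        rw [hF2 t p, if_pos p.2]
      · have := congrFun h 1
        rw [coeffLin_apply, (hF1 t).one] at this
        exact one_ne_zero this
      · apply Subtype.ext
        funext p
        by_cases hp : p.Prime ∧ ¬ p ∣ N
        · exact congrFun htt ⟨p, hp⟩
        · rw [hF2 t p, hF2 t' p, if_neg hp, if_neg hp]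
    exact (LinearMap.linearIndependent_iff _
      (LinearMap.ker_eq_bot.mpr (coeffLin_injective N))).mp h2
  have h3 : {x | IsSys N x} ⊆ ⋃ ε : DirichletCharacter ℂ N,
      (fun t => (ε, t)) '' {t : ℕ → ℂ | IsSys N (ε, t)} := by
    rintro ⟨ε, t⟩ h
    exact Set.mem_iUnion.mpr ⟨ε, ⟨t, h, rfl⟩⟩
  exact (Set.finite_iUnion fun ε => (h1 ε).image _).subset h3

/-- The finite set of eigensystems. -/
def systems : Finset (DirichletCharacter ℂ N × (ℕ → ℂ)) := (finite_systems N).toFinset

lemma mem_systems {x : DirichletCharacter ℂ N × (ℕ → ℂ)} : x ∈ systems N ↔ IsSys N x := by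
  rw [systems, Set.Finite.mem_toFinset, Set.mem_ofPred_eq]

variable {N}

theorem IsSys.conj (hσN : SigmaStable N) (σ : ℂ →+* ℂ) {x : DirichletCharacter ℂ N × (ℕ → ℂ)}
    (hx : IsSys N x) : IsSys N (x.1.ringHomComp σ, fun p => σ (x.2 p)) := by
  obtain ⟨f, hf, ht⟩ := hx
  obtain ⟨f', hf'⟩ := hσN σ f
  refine ⟨f', ⟨?_, ?_⟩, ?_⟩
  · rw [hf', hf.one, map_one]
  · intro p hp hpN n
    have := congrArg σ (hf.hecke p hp hpN n)
    rw [map_add, map_mul, map_mul] at this
    rw [hf' (p * n), hf' p, hf' n, ← this]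
    simp only [MulChar.ringHomComp_apply]
    congr 2
    split_ifs
    · rw [hf']
    · rw [map_zero]
  · intro p
    simp only [ht p]
    split_ifs
    · rw [hf']
    · rw [map_zero]

end Fermat.Agent.DS

end
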