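import Fermat.Agent.DS.Lift
import Fermat.Agent.X1.ModL

/-!
# The Deligne--Serre theorem from its inputs
-/

set_option autoImplicit false

open CongruenceSubgroup UpperHalfPlane ModularFormClass Filter Topology
open scoped MatrixGroups

noncomputable section

namespace Fermat.Agent.DS

lemma eq_of_eqOn {M : Type*} [Group M] {ρ : GQ →* M} {L : IntermediateField ℚ (AlgebraicClosure ℚ)}
    (h : ∀ σ : GQ, (∀ x ∈ L, σ x = x) → ρ σ = 1) {σ τ : GQ} (hστ : ∀ x ∈ L, σ x = τ x) :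
    ρ σ = ρ τ := by
  have h1 : ρ (τ⁻¹ * σ) = 1 := by
    apply h
    intro x hx
    rw [AlgEquiv.mul_apply, hστ x hx, ← AlgEquiv.mul_apply, inv_mul_cancel, AlgEquiv.one_apply]
  rw [map_mul, map_inv, inv_mul_eq_one] at h1
  exact h1.symm

variable {N : ℕ} [NeZero N]

/-- the determinant of an attached representation -/
theorem Attached.det_eq {ℓ : ℕ} {k : Type} [Field k] (φ : ZB →+* k)
    (ε : DirichletCharacter ℂ N) {t : ℕ → k} {e : ℕ → ZB} (he : ∀ p : ℕ, (e p : ℂ) = ε (p : ZMod N))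
    {ρ : GQ →* GL (Fin 2) k} (hρ : Attached N ℓ t (fun p => φ (e p)) ρ) (σ : GQ) :
    ((ρ σ : GL (Fin 2) k) : Matrix (Fin 2) (Fin 2) k).det = ((X1.galChar N ε φ σ : kˣ) : k) := by
  let δ : GQ →* kˣ := (Matrix.GeneralLinearGroup.det).comp ρ
  have hδ : ∀ σ, ((δ σ : kˣ) : k) = ((ρ σ : GL (Fin 2) k) : Matrix (Fin 2) (Fin 2) k).det :=
    fun σ => rfl
  obtain ⟨L, hL, hLρ⟩ := hρ.finiteLevel
  let L' := IntermediateField.adjoin ℚ {DS.zetaN N}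
  have hL' : FiniteDimensional ℚ L' := IntermediateField.adjoin.finiteDimensional
      (Algebra.IsIntegral.isIntegral _)
  have hδ1 : ∀ σ : GQ, (∀ x ∈ L ⊔ L', σ x = x) → δ σ = 1 := by
    intro σ hσ
    rw [MonoidHom.comp_apply, hLρ σ fun x hx => hσ x (le_sup_left (a := L) hx), map_one]
  have hg1 : ∀ σ : GQ, (∀ x ∈ L ⊔ L', σ x = x) → X1.galChar N ε φ σ = 1 := by
    intro σ hσ
    have h5 : cycN N σ = 1 := by
      rw [← map_one (cycN N)]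
      exact cycN_eq_of_eqOn N
        (hσ _ (le_sup_right (a := L) (IntermediateField.mem_adjoin_simple_self ℚ _)))
    rw [X1.galChar, MonoidHom.comp_apply, h5, map_one]
  have key : δ σ = X1.galChar N ε φ σ := by
    refine FrobDensity.eq_of_frobenius (fun σ => δ σ) (fun σ => X1.galChar N ε φ σ) (L ⊔ L')
      (fun σ τ h => eq_of_eqOn hδ1 h) (fun σ τ h => eq_of_eqOn hg1 h)
      (fun φ k h => by rw [map_pow, map_pow, h])
      {p | p ∣ N ∨ p = ℓ} ?_ ?_ σ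
    · refine ((Nat.divisors N).finite_toSet.union (Set.finite_singleton ℓ)).subset ?_
      rintro p (hp | hp)
      · left; exact Nat.mem_divisors.mpr ⟨hp, NeZero.ne N⟩
      · right; exact hp
    · intro p hp hpS A hA σ hσ
      rw [Set.mem_ofPred_eq, not_or] at hpS
      apply Units.ext
      rw [hδ, hρ.det p hp hpS.1 hpS.2 A hA σ hσ,
        X1.galChar_frobenius N ε φ hp hpS.1 hA hσ (e p) (he p)]
  rw [← hδ, key]

theorem Attached.det_complexConjugation {ℓ : ℕ} {k : Type} [Field k] (φ : ZB →+* k)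
    (ε : DirichletCharacter ℂ N) (hε : ε (-1) = -1) {t : ℕ → k} {e : ℕ → ZB}
    (he : ∀ p : ℕ, (e p : ℂ) = ε (p : ZMod N))
    {ρ : GQ →* GL (Fin 2) k} (hρ : Attached N ℓ t (fun p => φ (e p)) ρ) :
    ((ρ complexConjugation : GL (Fin 2) k) : Matrix (Fin 2) (Fin 2) k).det = -1 := by
  rw [hρ.det_eq φ ε he, X1.coe_galChar]
  have h5 : X1.epsI N ε (cycN N complexConjugation) = -1 := by
    apply Subtype.ext
    change ε ((cycN N complexConjugation : (ZMod N)ˣ) : ZMod N) = _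
    rw [cycN_complexConjugation, hε]
    rfl
  rw [h5, map_neg, map_one]

/-- Mod `ℓ` representations for all large `ℓ`. -/
theorem exists_attached_all (hI : IntSpan N)
    (hM : ∃ B : ℕ, ∀ ℓ : ℕ, ℓ.Prime → B ≤ ℓ → ModL N ℓ)
    {ε : DirichletCharacter ℂ N} {f : CuspForm (Gamma1 N) 1} (hf : WtOneEigen N ε f) :
    ∃ (B : ℕ) (t e : ℕ → ZB), (∀ p : ℕ, p.Prime → ¬ p ∣ N → (t p : ℂ) = qCoeff f p) ∧
      (∀ p : ℕ, (e p : ℂ) = ε (p : ZMod N)) ∧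
      ∀ ℓ : ℕ, ℓ.Prime → B ≤ ℓ → ∀ (k : Type) [Field k] [CharP k ℓ] [IsAlgClosed k]
        (φ : ZB →+* k), ∃ ρ : GQ →* GL (Fin 2) k,
          Attached N ℓ (fun p => φ (t p)) (fun p => φ (e p)) ρ := by
  classical
  obtain ⟨B, hB⟩ := hM
  obtain ⟨g, D, hD, hg, hg1, hgT⟩ := exists_integral_form hI hf
  let t : ℕ → ZB := fun p => if h : p.Prime ∧ ¬ p ∣ N then
    ⟨qCoeff f p, isIntegral_eigenvalue hI hf h.1 h.2⟩ else 0
  let e : ℕ → ZB := fun p => ⟨ε (p : ZMod N), isIntegral_dirichlet ε _⟩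
  have ht : ∀ p : ℕ, p.Prime → ¬ p ∣ N → (t p : ℂ) = qCoeff f p := by
    intro p hp hpN
    simp only [t, dif_pos (And.intro hp hpN)]
  refine ⟨max B (D + 1), t, e, ht, fun p => rfl, fun ℓ hℓ hBℓ k _ _ _ φ => ?_⟩
  obtain ⟨ρ, h1, h2⟩ := hB ℓ hℓ ((le_max_left _ _).trans hBℓ) ε g t e (fun p => rfl) hg
    (fun p hp hpN => by rw [ht p hp hpN]; exact hgT p hp hpN) k φ
    ⟨1, ⟨qCoeff g 1, hg 1⟩, rfl, by
      have h3 : (⟨qCoeff g 1, hg 1⟩ : ZB) = ((D : ℕ) : ZB) := Subtype.ext (hg1.trans (by simp))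
      rw [h3, map_natCast, Ne, CharP.cast_eq_zero_iff k ℓ]
      intro h4
      have h5 := Nat.le_of_dvd (Nat.pos_of_ne_zero hD) h4
      have h6 := (le_max_right B (D + 1)).trans hBℓ
      omega⟩
  exact ⟨ρ, h1, fun p hp hpN hpℓ A hA => (h2 p hp hpN hpℓ A hA).1,
    fun p hp hpN hpℓ A hA σ hσ => ((h2 p hp hpN hpℓ A hA).2 σ hσ).1,
    fun p hp hpN hpℓ A hA σ hσ => ((h2 p hp hpN hpℓ A hA).2 σ hσ).2⟩

/-- uniform exponent -/
theorem exists_attached_uniform (hσN : SigmaStable N) (hI : IntSpan N) (hC : Chebotarev)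
    (hR : RankinPrimes N) (hM : ∃ B : ℕ, ∀ ℓ : ℕ, ℓ.Prime → B ≤ ℓ → ModL N ℓ)
    {ε : DirichletCharacter ℂ N} {f : CuspForm (Gamma1 N) 1} (hf : WtOneEigen N ε f) :
    ∃ (B E : ℕ) (t e : ℕ → ZB), 0 < E ∧
      (∀ p : ℕ, p.Prime → ¬ p ∣ N → (t p : ℂ) = qCoeff f p) ∧
      (∀ p : ℕ, (e p : ℂ) = ε (p : ZMod N)) ∧
      ∀ ℓ : ℕ, ℓ.Prime → B ≤ ℓ → ∀ (k : Type) [Field k] [CharP k ℓ] [IsAlgClosed k]
        (φ : ZB →+* k), ∃ ρ : GQ →* GL (Fin 2) k,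
          Attached N ℓ (fun p => φ (t p)) (fun p => φ (e p)) ρ ∧ ∀ σ, ρ σ ^ E = 1 := by
  classical
  obtain ⟨B, t, e, ht, he, hrep⟩ := exists_attached_all hI hM hf
  set n : ℝ := ((systems N).card : ℝ) with hn
  have hn0 : 0 ≤ n := by positivity
  set c : ℝ := 24 * n + 1 with hc
  have hc0 : 0 < c := by positivity
  have hc2 : 24 * n ≤ c ^ 2 := by nlinarith
  obtain ⟨Y, hYfin, hY⟩ := exists_finite_values hσN hI c
  have hY' : {a : ZB | (a : ℂ) ∈ Y}.Finite := hYfin.preimage Subtype.val_injective.injOn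
  have hZ' : {a : ZB | (a : ℂ) ∈ Set.range ε}.Finite :=
    (Set.finite_range ε).preimage Subtype.val_injective.injOn
  set S₁ : Finset (ZB × ZB) := hY'.toFinset ×ˢ hZ'.toFinset with hS₁
  set S₀ := S₁.card with hS₀
  refine ⟨max B (2 * (S₀ + 1) + 1), (48 * S₀).factorial, t, e, Nat.factorial_pos _, ht, he,
    fun ℓ hℓ hBℓ k _ _ _ φ => ?_⟩
  obtain ⟨ρ, hρ⟩ := hrep ℓ hℓ ((le_max_left _ _).trans hBℓ) k φ
  have h1 := (le_max_right B (2 * (S₀ + 1) + 1)).trans hBℓ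
  refine exists_attached_exponent hC hR S₀ hc0 hc2 hℓ (by omega) hρ
    (S₁.image fun x => (φ x.1, φ x.2)) Finset.card_image_le ?_
  intro p hp hpN hbad
  refine Finset.mem_image.mpr ⟨(t p, e p), ?_, rfl⟩
  rw [hS₁, Finset.mem_product, Set.Finite.mem_toFinset, Set.Finite.mem_toFinset]
  constructor
  · change (t p : ℂ) ∈ Y
    rw [ht p hp hpN]
    have hsys : (ε, fun q : ℕ => if q.Prime ∧ ¬ q ∣ N then qCoeff f q else 0) ∈ systems N :=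
      (mem_systems N).mpr ⟨f, hf, fun q => by simp only⟩
    have h2 := hY p (fun x hx => by
      by_contra h
      exact hbad ⟨hp, hpN, x, hx, not_le.mp h⟩) _ hsys
    simpa [if_pos (And.intro hp hpN)] using h2
  · exact ⟨_, (he p).symm⟩

/-- Two representations attached to the same system have the same traces. -/
theorem Attached.charpoly_eq {ℓ ℓ' : ℕ} {k : Type} [Field k] {t e : ℕ → k}
    {ρ ρ' : GQ →* GL (Fin 2) k} (hρ : Attached N ℓ t e ρ) (hρ' : Attached N ℓ' t e ρ') (σ : GQ) :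
    ((ρ σ : GL (Fin 2) k) : Matrix (Fin 2) (Fin 2) k).charpoly =
      ((ρ' σ : GL (Fin 2) k) : Matrix (Fin 2) (Fin 2) k).charpoly := by
  obtain ⟨L, hL, h1⟩ := hρ.finiteLevel
  obtain ⟨L', hL', h1'⟩ := hρ'.finiteLevel
  refine FrobDensity.eq_of_frobenius
    (fun σ => ((ρ σ : GL (Fin 2) k) : Matrix (Fin 2) (Fin 2) k).charpoly)
    (fun σ => ((ρ' σ : GL (Fin 2) k) : Matrix (Fin 2) (Fin 2) k).charpoly) (L ⊔ L')
    (fun σ τ h => ?_) (fun σ τ h => ?_) (fun φ m h => ?_) {p | p ∣ N ∨ p = ℓ ∨ p = ℓ'} ?_ ?_ σ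
  · rw [eq_of_eqOn (ρ := ρ) (L := L) h1 fun x hx => h x (le_sup_left (a := L) hx)]
  · rw [eq_of_eqOn (ρ := ρ') (L := L') h1' fun x hx => h x (le_sup_right (a := L) hx)]
  · rw [map_pow, map_pow, Units.val_pow_eq_pow_val, Units.val_pow_eq_pow_val]
    exact FrobDensity.matrix_charpoly_pow_eq h m
  · refine ((Nat.divisors N).finite_toSet.union ((Set.finite_singleton ℓ).union
      (Set.finite_singleton ℓ'))).subset ?_
    rintro p (hp | hp | hp)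
    · left; exact Nat.mem_divisors.mpr ⟨hp, NeZero.ne N⟩
    · right; left; exact hp
    · right; right; exact hp
  · intro p hp hpS A hA σ hσ
    rw [Set.mem_ofPred_eq, not_or, not_or] at hpS
    rw [FrobDensity.matrix_charpoly_eq_iff, hρ.trace p hp hpS.1 hpS.2.1 A hA σ hσ,
      hρ'.trace p hp hpS.1 hpS.2.2 A hA σ hσ, hρ.det p hp hpS.1 hpS.2.1 A hA σ hσ,
      hρ'.det p hp hpS.1 hpS.2.2 A hA σ hσ]
    exact ⟨rfl, rfl⟩

/-- A complex representation attached outside `N ℓ`, for large `ℓ`. -/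
theorem exists_complex (hσN : SigmaStable N) (hI : IntSpan N) (hC : Chebotarev)
    (hR : RankinPrimes N) (hM : ∃ B : ℕ, ∀ ℓ : ℕ, ℓ.Prime → B ≤ ℓ → ModL N ℓ)
    {ε : DirichletCharacter ℂ N} (hε : ε (-1) = -1) {f : CuspForm (Gamma1 N) 1}
    (hf : WtOneEigen N ε f) :
    ∃ (B : ℕ) (t : ℕ → ℂ), (∀ p : ℕ, p.Prime → ¬ p ∣ N → t p = qCoeff f p) ∧
      ∀ ℓ : ℕ, ℓ.Prime → B ≤ ℓ → ∃ R : GQ →* GL (Fin 2) ℂ,
        Attached N ℓ t (fun p => ε (p : ZMod N)) R ∧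
      (∀ σ, (∀ g, ((R (g * σ) : GL (Fin 2) ℂ) : Matrix (Fin 2) (Fin 2) ℂ).trace =
        ((R g : GL (Fin 2) ℂ) : Matrix (Fin 2) (Fin 2) ℂ).trace) → R σ = 1) ∧
      ((R complexConjugation : GL (Fin 2) ℂ) : Matrix (Fin 2) (Fin 2) ℂ).det = -1 := by
  classical
  obtain ⟨B, E, t, e, hE, ht, he, hrep⟩ := exists_attached_uniform hσN hI hC hR hM hf
  have hfinE := finite_sums4 (E := E) hE
  -- eigenvalues are sums of roots of unity
  have haux : ∀ (x : ZB) (p : ℕ), p.Prime → ¬ p ∣ N →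
      (∀ ℓ : ℕ, ℓ.Prime → B ≤ ℓ → p ≠ ℓ → ∀ (k : Type) [Field k] [CharP k ℓ] [IsAlgClosed k]
        (φ : ZB →+* k), ∃ a ∈ sums4 E, φ a = φ x) → x ∈ sums4 E := by
    intro x p hp hpN h
    by_contra hx
    set P : ZB := ∏ a ∈ hfinE.toFinset, (x - a) with hP
    have hP0 : P ≠ 0 := by
      rw [hP, Finset.prod_ne_zero_iff]
      intro a ha h0
      apply hx
      rw [sub_eq_zero.mp h0]
      exact hfinE.mem_toFinset.mp ha
    obtain ⟨m, hm⟩ := exists_bound_ne_zero P hP0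
    obtain ⟨ℓ, hℓm, hℓ⟩ := Nat.exists_infinite_primes (max (m + 1) (max B (p + 1)))
    obtain ⟨k, _, _, _, ⟨φ⟩⟩ := exists_reduction ℓ hℓ
    have h1 : m < ℓ := lt_of_lt_of_le (Nat.lt_succ_self m) ((le_max_left _ _).trans hℓm)
    have h2 : B ≤ ℓ := (le_max_left _ _).trans ((le_max_right _ _).trans hℓm)
    have h3 : p ≠ ℓ := by
      have := (le_max_right B (p + 1)).trans ((le_max_right (m + 1) _).trans hℓm)
      omega
    obtain ⟨a, ha, haφ⟩ := h ℓ hℓ h2 h3 k φ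
    apply hm ℓ h1 k φ
    rw [hP, map_prod, Finset.prod_eq_zero (hfinE.mem_toFinset.mpr ha)]
    rw [map_sub, haφ, sub_self]
  have hfrobp : ∀ (p : ℕ), p.Prime → ¬ p ∣ N → ∀ ℓ : ℕ, ℓ.Prime → B ≤ ℓ → p ≠ ℓ →
      ∀ (k : Type) [Field k] [CharP k ℓ] [IsAlgClosed k] (φ : ZB →+* k),
      ∃ ζ ζ' : ZB, ζ ^ E = 1 ∧ ζ' ^ E = 1 ∧ φ (ζ + ζ') = φ (t p) ∧ φ (ζ * ζ') = φ (e p) := by
    intro p hp hpN ℓ hℓ hBℓ hpℓ k _ _ _ φ
    obtain ⟨ρ, hρ, hρE⟩ := hrep ℓ hℓ hBℓ k φ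
    obtain ⟨A, hA, σ, hσ⟩ := Frob.exists_frobenius p hp
    obtain ⟨ζ, ζ', h1, h2, h3, h4⟩ := exists_lift_pair φ hE (hρE σ)
    exact ⟨ζ, ζ', h1, h2, h3.trans (hρ.trace p hp hpN hpℓ A hA σ hσ),
      h4.trans (hρ.det p hp hpN hpℓ A hA σ hσ)⟩
  have htmem : ∀ p : ℕ, p.Prime → ¬ p ∣ N → t p ∈ sums4 E := by
    intro p hp hpN
    refine haux (t p) p hp hpN fun ℓ hℓ hBℓ hpℓ k _ _ _ φ => ?_
    obtain ⟨ζ, ζ', h1, h2, h3, -⟩ := hfrobp p hp hpN ℓ hℓ hBℓ hpℓ k φ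
    exact ⟨_, mem_sums4_two h1 h2, h3⟩
  have hemem : ∀ p : ℕ, p.Prime → ¬ p ∣ N → e p ∈ sums4 E := by
    intro p hp hpN
    refine haux (e p) p hp hpN fun ℓ hℓ hBℓ hpℓ k _ _ _ φ => ?_
    obtain ⟨ζ, ζ', h1, h2, -, h4⟩ := hfrobp p hp hpN ℓ hℓ hBℓ hpℓ k φ
    exact ⟨_, mem_sums4_one (by rw [mul_pow, h1, h2, one_mul]), h4⟩
  obtain ⟨m, hm⟩ := exists_bound_injOn (E := E) hE
  refine ⟨max B (m + 1), fun p => (t p : ℂ), ht, fun ℓ hℓ hBℓ => ?_⟩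
  obtain ⟨k, _, _, _, ⟨φ⟩⟩ := exists_reduction ℓ hℓ
  obtain ⟨ρ, hρ, hρE⟩ := hrep ℓ hℓ ((le_max_left _ _).trans hBℓ) k φ
  have h1 := (le_max_right B (m + 1)).trans hBℓ
  obtain ⟨R, hR1, hR2, hR3⟩ := exists_lift φ (N := N) (ℓ := ℓ) hE (hm ℓ (by omega) k φ)
    (t := t) (e := e)
    (fun p hp hpN _ => htmem p hp hpN) (fun p hp hpN _ => hemem p hp hpN) hρ hρE
    (hρ.det_complexConjugation φ ε hε he)
  refine ⟨R, ?_, hR2, hR3⟩
  have : (fun p : ℕ => ε (p : ZMod N)) = fun p => (e p : ℂ) := funext fun p => (he p).symm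
  rw [this]
  exact hR1

/-- **Deligne--Serre**. -/
theorem deligneSerre (hσN : SigmaStable N) (hI : IntSpan N) (hodd : OddChar N) (hC : Chebotarev)
    (hR : RankinPrimes N) (hM : ∃ B : ℕ, ∀ ℓ : ℕ, ℓ.Prime → B ≤ ℓ → ModL N ℓ)
    {ε : DirichletCharacter ℂ N} {f : CuspForm (Gamma1 N) 1} (hf : WtOneEigen N ε f) :
    ∃ ρ : GQ →* GL (Fin 2) ℂ, GaloisFactorsThroughFiniteLevel ρ ∧
      (Deformation.matrixRepresentation ρ).IsIrreducible ∧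
      ∀ p : ℕ, p.Prime → ¬ p ∣ N →
        ∀ A : ValuationSubring (AlgebraicClosure ℚ), A.LiesOverPrime p →
          (∀ σ ∈ A.inertiaSubgroupIn ℚ, ρ σ = 1) ∧
          ∀ σ : GQ, A.IsFrobeniusAt σ p →
            ((ρ σ : GL (Fin 2) ℂ) : Matrix (Fin 2) (Fin 2) ℂ).trace = qCoeff f p ∧
            ((ρ σ : GL (Fin 2) ℂ) : Matrix (Fin 2) (Fin 2) ℂ).det = ε (p : ZMod N) := by
  have hf0 : f ≠ 0 := by
    rintro rfl
    have := hf.one
    rw [qCoeff_zero] at this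
    exact zero_ne_one this
  have hε : ε (-1) = -1 := hodd ε f (fun p => qCoeff f p) hf0 (fun p hp hpN => hf.hecke p hp hpN)
  obtain ⟨B, t, ht, hrep⟩ := exists_complex hσN hI hC hR hM hε hf
  obtain ⟨ℓ, hBℓ, hℓ⟩ := Nat.exists_infinite_primes B
  obtain ⟨ℓ', hBℓ', hℓ'⟩ := Nat.exists_infinite_primes (max B (ℓ + 1))
  have hne : ℓ ≠ ℓ' := by
    have := (le_max_right B (ℓ + 1)).trans hBℓ'
    omega
  obtain ⟨R, hR1, hR2, hR3⟩ := hrep ℓ hℓ hBℓ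
  obtain ⟨R', hR1', -, -⟩ := hrep ℓ' hℓ' ((le_max_left _ _).trans hBℓ')
  have hchar : ∀ σ, ((R σ : GL (Fin 2) ℂ) : Matrix (Fin 2) (Fin 2) ℂ).trace =
      ((R' σ : GL (Fin 2) ℂ) : Matrix (Fin 2) (Fin 2) ℂ).trace ∧
      ((R σ : GL (Fin 2) ℂ) : Matrix (Fin 2) (Fin 2) ℂ).det =
      ((R' σ : GL (Fin 2) ℂ) : Matrix (Fin 2) (Fin 2) ℂ).det := fun σ =>
    FrobDensity.matrix_charpoly_eq_iff.mp (hR1.charpoly_eq hR1' σ)
  have hfrob : ∀ p : ℕ, p.Prime → ¬ p ∣ N →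
        ∀ A : ValuationSubring (AlgebraicClosure ℚ), A.LiesOverPrime p →
          (∀ σ ∈ A.inertiaSubgroupIn ℚ, R σ = 1) ∧
          ∀ σ : GQ, A.IsFrobeniusAt σ p →
            ((R σ : GL (Fin 2) ℂ) : Matrix (Fin 2) (Fin 2) ℂ).trace = qCoeff f p ∧
            ((R σ : GL (Fin 2) ℂ) : Matrix (Fin 2) (Fin 2) ℂ).det = ε (p : ZMod N) := by
    intro p hp hpN A hA
    by_cases hpℓ : p = ℓ
    · have hpℓ' : p ≠ ℓ' := hpℓ ▸ hne
      refine ⟨fun σ hσ => hR2 σ fun g => ?_, fun σ hσ => ⟨?_, ?_⟩⟩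
      · rw [(hchar _).1, (hchar _).1, map_mul, hR1'.inertia p hp hpN hpℓ' A hA σ hσ, mul_one]
      · rw [(hchar σ).1, hR1'.trace p hp hpN hpℓ' A hA σ hσ, ht p hp hpN]
      · rw [(hchar σ).2, hR1'.det p hp hpN hpℓ' A hA σ hσ]
    · exact ⟨hR1.inertia p hp hpN hpℓ A hA, fun σ hσ =>
        ⟨by rw [hR1.trace p hp hpN hpℓ A hA σ hσ, ht p hp hpN],
        hR1.det p hp hpN hpℓ A hA σ hσ⟩⟩
  refine ⟨R, hR1.finiteLevel, ?_, hfrob⟩
  exact isIrreducible_of_rankin N hR hC ε f hf R hR1.finiteLevel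
    (fun p hp hpN A hA => ⟨(hfrob p hp hpN A hA).1, fun σ hσ => ((hfrob p hp hpN A hA).2 σ hσ).1⟩)
    complexConjugation complexConjugation_mul_self hR3

end Fermat.Agent.DS

end
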