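import Mathlib

/-!
# Eisenstein series with periodic coefficients

For a function `c` on `(ℤ/N)²` and a weight `k ≥ 3` we consider
`eis c k z = ∑' v : ℤ², c (v mod N) * (v₀ z + v₁)^(-k)`.
-/

set_option autoImplicit false

open UpperHalfPlane ModularForm EisensteinSeries Matrix.SpecialLinearGroup Filter Topology
  CongruenceSubgroup
open scoped MatrixGroups Manifold ModularForm

noncomputable section

namespace Fermat.Agent.DSEis

variable {N : ℕ}

/-- reduction mod `N` of an integer vector -/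
def red (N : ℕ) (v : Fin 2 → ℤ) : Fin 2 → ZMod N := fun i => (v i : ZMod N)

lemma red_vecMul (v : Fin 2 → ℤ) (A : SL(2, ℤ)) :
    red N (Matrix.vecMul v (A : Matrix (Fin 2) (Fin 2) ℤ)) =
      Matrix.vecMul (red N v) ((A : Matrix (Fin 2) (Fin 2) ℤ).map (Int.castRingHom (ZMod N))) := by
  have := RingHom.map_vecMul (m := Fin 2) (n := Fin 2) (Int.castRingHom (ZMod N)) A v
  ext i
  exact this i

/-- The Eisenstein series with periodic coefficients. -/
def eis (c : (Fin 2 → ZMod N) → ℂ) (k : ℤ) (z : ℍ) : ℂ :=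
  ∑' v : Fin 2 → ℤ, c (red N v) * eisSummand k v z

variable [NeZero N]

lemma exists_bound (c : (Fin 2 → ZMod N) → ℂ) : ∃ C : ℝ, 0 < C ∧ ∀ a, ‖c a‖ ≤ C := by
  refine ⟨∑ a, ‖c a‖ + 1, by positivity, fun a => ?_⟩
  have := Finset.single_le_sum (f := fun a => ‖c a‖) (fun a _ => norm_nonneg (c a))
    (Finset.mem_univ a)
  linarith

lemma summable_norm_eis (c : (Fin 2 → ZMod N) → ℂ) {k : ℤ} (hk : 3 ≤ k) (z : ℍ) :
    Summable fun v : Fin 2 → ℤ => ‖c (red N v) * eisSummand k v z‖ := by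
  obtain ⟨C, hC, hc⟩ := exists_bound c
  refine Summable.of_nonneg_of_le (fun _ => norm_nonneg _) (fun v => ?_)
    ((summable_norm_eisSummand hk z).mul_left C)
  rw [norm_mul]
  gcongr
  exact hc _

lemma summable_eis (c : (Fin 2 → ZMod N) → ℂ) {k : ℤ} (hk : 3 ≤ k) (z : ℍ) :
    Summable fun v : Fin 2 → ℤ => c (red N v) * eisSummand k v z :=
  (summable_norm_eis c hk z).of_norm

omit [NeZero N] in
/-- transformation law -/
lemma eis_smul (c : (Fin 2 → ZMod N) → ℂ) (k : ℤ) (A : SL(2, ℤ)) (z : ℍ) :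
    eis c k (A • z) = denom A z ^ k * eis (fun a => c (Matrix.vecMul a
      (((A⁻¹ : SL(2, ℤ)) : Matrix (Fin 2) (Fin 2) ℤ).map (Int.castRingHom (ZMod N))))) k z := by
  let e : (Fin 2 → ℤ) ≃ (Fin 2 → ℤ) :=
    { toFun := fun v => Matrix.vecMul v (A : Matrix (Fin 2) (Fin 2) ℤ)
      invFun := fun v => Matrix.vecMul v ((A⁻¹ : SL(2, ℤ)) : Matrix (Fin 2) (Fin 2) ℤ)
      left_inv := fun v => by
        show Matrix.vecMul (Matrix.vecMul v _) _ = v
        rw [Matrix.vecMul_vecMul, ← Matrix.SpecialLinearGroup.coe_mul, mul_inv_cancel,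
          Matrix.SpecialLinearGroup.coe_one, Matrix.vecMul_one]
      right_inv := fun v => by
        show Matrix.vecMul (Matrix.vecMul v _) _ = v
        rw [Matrix.vecMul_vecMul, ← Matrix.SpecialLinearGroup.coe_mul, inv_mul_cancel,
          Matrix.SpecialLinearGroup.coe_one, Matrix.vecMul_one] }
  rw [eis, eis, ← tsum_mul_left]
  refine Eq.trans ?_ (e.tsum_eq (fun v => denom A z ^ k * (c (Matrix.vecMul (red N v)
      (((A⁻¹ : SL(2, ℤ)) : Matrix (Fin 2) (Fin 2) ℤ).map (Int.castRingHom (ZMod N)))) *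
        eisSummand k v z)))
  refine tsum_congr fun v => ?_
  have h1 : Matrix.vecMul (red N (e v))
      (((A⁻¹ : SL(2, ℤ)) : Matrix (Fin 2) (Fin 2) ℤ).map (Int.castRingHom (ZMod N))) = red N v := by
    rw [← red_vecMul]
    exact congrArg (red N) (e.left_inv v)
  rw [h1, eisSummand_SL2_apply]
  show _ = _ * (_ * eisSummand k (Matrix.vecMul v (A : Matrix (Fin 2) (Fin 2) ℤ)) z)
  ring

omit [NeZero N] in
lemma eis_slash (c : (Fin 2 → ZMod N) → ℂ) (k : ℤ) (A : SL(2, ℤ)) :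
    (eis c k) ∣[k] A = eis (fun a => c (Matrix.vecMul a
      (((A⁻¹ : SL(2, ℤ)) : Matrix (Fin 2) (Fin 2) ℤ).map (Int.castRingHom (ZMod N))))) k := by
  ext z
  rw [SL_slash_apply, eis_smul, mul_comm, ← mul_assoc, ← zpow_add₀ (denom_ne_zero A z)]
  simp

lemma norm_eis_le (c : (Fin 2 → ZMod N) → ℂ) {k : ℤ} (hk : 3 ≤ k) {C : ℝ}
    (hC : ∀ a, ‖c a‖ ≤ C) (z : ℍ) :
    ‖eis c k z‖ ≤ C * ∑' v : Fin 2 → ℤ, ‖eisSummand k v z‖ := by
  rw [← tsum_mul_left]
  refine (norm_tsum_le_tsum_norm (summable_norm_eis c hk z)).trans ?_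
  refine (summable_norm_eis c hk z).tsum_le_tsum (fun v => ?_)
    ((summable_norm_eisSummand hk z).mul_left C)
  rw [norm_mul]
  gcongr
  exact hC _

/-- holomorphy -/
lemma eis_tendstoLocallyUniformly (c : (Fin 2 → ZMod N) → ℂ) {k : ℤ} (hk : 3 ≤ k) :
    TendstoLocallyUniformly
      (fun (s : Finset (Fin 2 → ℤ)) (z : ℍ) => ∑ v ∈ s, c (red N v) * eisSummand k v z)
      (eis c k) Filter.atTop := by
  obtain ⟨C, hC, hc⟩ := exists_bound c
  have hk' : (2 : ℝ) < k := by norm_cast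
  have p_sum : Summable fun x : Fin 2 → ℤ ↦ ‖x‖ ^ (-k) :=
    mod_cast (summable_one_div_norm_rpow hk')
  simp only [tendstoLocallyUniformly_iff_forall_isCompact]
  intro K hK
  obtain ⟨A, B, hB, HABK⟩ := subset_verticalStrip_of_isCompact hK
  refine (tendstoUniformlyOn_tsum (hu := (p_sum.mul_left <| r ⟨⟨A, B⟩, hB⟩ ^ (-k : ℝ)).mul_left C)
    (fun p z hz ↦ ?_)).mono HABK
  rw [norm_mul]
  refine mul_le_mul (hc _) ?_ (norm_nonneg _) hC.le
  simpa only [eisSummand, one_div, ← zpow_neg, norm_zpow, ← Real.rpow_intCast,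
    Int.cast_neg] using summand_bound_of_mem_verticalStrip (by positivity) p hB hz

lemma eis_tendstoLocallyUniformlyOn (c : (Fin 2 → ZMod N) → ℂ) {k : ℤ} (hk : 3 ≤ k) :
    TendstoLocallyUniformlyOn
      (fun (s : Finset (Fin 2 → ℤ)) =>
        ↑ₕ(fun (z : ℍ) => ∑ v ∈ s, c (red N v) * eisSummand k v z))
      (↑ₕ(eis c k)) Filter.atTop {z : ℂ | 0 < z.im} := by
  rw [← upperHalfPlaneSet, ← range_coe, ← Set.image_univ]
  apply TendstoLocallyUniformlyOn.comp (s := ⊤) _ _ _ (OpenPartialHomeomorph.continuousOn_symm _)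
  · simp only [Set.top_eq_univ, tendstoLocallyUniformlyOn_univ]
    apply eis_tendstoLocallyUniformly c hk
  · simp only [Topology.IsOpenEmbedding.toOpenPartialHomeomorph_target, Set.top_eq_univ,
      Set.mapsTo_range_iff, Set.mem_univ, forall_const]

theorem eis_mdiff (c : (Fin 2 → ZMod N) → ℂ) {k : ℤ} (hk : 3 ≤ k) : MDiff (eis c k) := by
  intro τ
  suffices DifferentiableAt ℂ (↑ₕ(eis c k)) τ.1 by
    convert!
      MDifferentiableAt.comp τ (DifferentiableAt.mdifferentiableAt this) τ.mdifferentiable_coe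
    exact funext fun z ↦ (comp_ofComplex (eis c k) z).symm
  refine DifferentiableOn.differentiableAt ?_ (isOpen_upperHalfPlaneSet.mem_nhds τ.2)
  refine (eis_tendstoLocallyUniformlyOn c hk).differentiableOn
    (Eventually.of_forall fun s ↦ ?_) isOpen_upperHalfPlaneSet
  refine DifferentiableOn.fun_sum fun v _ => ?_
  refine DifferentiableOn.congr (f := fun z : ℂ => c (red N v) *
    (v 0 * z + v 1) ^ (-k)) ((div_linear_zpow_differentiableOn k v).const_mul _) ?_
  intro z hz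
  lift z to ℍ using hz
  exact comp_ofComplex (fun z : ℍ => c (red N v) * eisSummand k v z) z

/-! ### behaviour at `i∞` -/

lemma tsum_norm_T (k : ℤ) (n : ℤ) (z : ℍ) :
    ∑' v : Fin 2 → ℤ, ‖eisSummand k v (ModularGroup.T ^ n • z)‖ =
      ∑' v : Fin 2 → ℤ, ‖eisSummand k v z‖ := by
  let A : SL(2, ℤ) := ModularGroup.T ^ n
  let e : (Fin 2 → ℤ) ≃ (Fin 2 → ℤ) :=
    { toFun := fun v => Matrix.vecMul v (A : Matrix (Fin 2) (Fin 2) ℤ)
      invFun := fun v => Matrix.vecMul v ((A⁻¹ : SL(2, ℤ)) : Matrix (Fin 2) (Fin 2) ℤ)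
      left_inv := fun v => by
        show Matrix.vecMul (Matrix.vecMul v _) _ = v
        rw [Matrix.vecMul_vecMul, ← Matrix.SpecialLinearGroup.coe_mul, mul_inv_cancel,
          Matrix.SpecialLinearGroup.coe_one, Matrix.vecMul_one]
      right_inv := fun v => by
        show Matrix.vecMul (Matrix.vecMul v _) _ = v
        rw [Matrix.vecMul_vecMul, ← Matrix.SpecialLinearGroup.coe_mul, inv_mul_cancel,
          Matrix.SpecialLinearGroup.coe_one, Matrix.vecMul_one] }
  rw [← e.tsum_eq (fun v => ‖eisSummand k v z‖)]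
  refine tsum_congr fun v => ?_
  rw [eisSummand_SL2_apply]
  have : denom (ModularGroup.T ^ n : SL(2, ℤ)) z = 1 := by
    rw [ModularGroup.denom_apply, ModularGroup.coe_T_zpow]
    simp
  rw [this, one_zpow, one_mul]
  rfl

/-- boundedness at `i∞` -/
theorem eis_bdd (c : (Fin 2 → ZMod N) → ℂ) {k : ℤ} (hk : 3 ≤ k) :
    IsBoundedAtImInfty (eis c k) := by
  obtain ⟨C, hC, hc⟩ := exists_bound c
  rw [UpperHalfPlane.isBoundedAtImInfty_iff]
  have hk' : (2 : ℝ) < k := by norm_cast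
  refine ⟨C * ∑'(x : Fin 2 → ℤ), r ⟨⟨(1 : ℕ), 2⟩, Nat.ofNat_pos⟩ ^ (-k) * ‖x‖ ^ (-k), 2, ?_⟩
  intro z hz
  refine (norm_eis_le c hk hc z).trans ?_
  refine mul_le_mul_of_nonneg_left ?_ hC.le
  obtain ⟨n, hn⟩ := (ModularGroup_T_zpow_mem_verticalStrip z one_pos)
  rw [← tsum_norm_T k ((1 : ℕ) * n) z]
  apply (summable_norm_eisSummand hk _).tsum_le_tsum _
  · exact_mod_cast (summable_one_div_norm_rpow hk').mul_left <| r ⟨⟨(1 : ℕ), 2⟩, Nat.ofNat_pos⟩ ^ (-k)
  · intro x
    simp_rw [eisSummand, norm_zpow]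
    exact_mod_cast
      summand_bound_of_mem_verticalStrip (lt_trans two_pos hk').le x two_pos
      (verticalStrip_anti_right (1 : ℕ) hz hn)

/-- the point `(n+1) i` of the upper half plane -/
def zn (n : ℕ) : ℍ := ⟨(n + 1 : ℝ) * Complex.I, by
  rw [Complex.im_ofReal_mul]
  simp
  positivity⟩

lemma zn_coe (n : ℕ) : (zn n : ℂ) = (n + 1 : ℝ) * Complex.I := rfl

lemma zn_mem (n : ℕ) : zn n ∈ verticalStrip 0 1 := by
  rw [mem_verticalStrip_iff]
  constructor
  · rw [← UpperHalfPlane.coe_re, zn_coe]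
    simp
  · rw [← UpperHalfPlane.coe_im, zn_coe]
    simp

/-- the value of `eis c k` at the cusp `i∞` -/
def cuspVal (c : (Fin 2 → ZMod N) → ℂ) (k : ℤ) : ℂ :=
  ∑' d : ℤ, c ![0, (d : ZMod N)] * (d : ℂ) ^ (-k)

theorem tendsto_eis (c : (Fin 2 → ZMod N) → ℂ) {k : ℤ} (hk : 3 ≤ k) :
    Tendsto (fun n : ℕ => eis c k (zn n)) atTop (𝓝 (cuspVal c k)) := by
  obtain ⟨C, hC, hc⟩ := exists_bound c
  have hk' : (2 : ℝ) < k := by norm_cast
  have h1 : cuspVal c k = ∑' v : Fin 2 → ℤ,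
      (if v 0 = 0 then c (red N v) * (v 1 : ℂ) ^ (-k) else 0) := by
    have hinj : Function.Injective (fun d : ℤ => (![0, d] : Fin 2 → ℤ)) := by
      intro a b hab
      simpa using congrFun hab 1
    rw [cuspVal, ← hinj.tsum_eq (f := fun v : Fin 2 → ℤ =>
      (if v 0 = 0 then c (red N v) * (v 1 : ℂ) ^ (-k) else 0))]
    · refine tsum_congr fun d => ?_
      have : red N ![0, d] = ![0, (d : ZMod N)] := by
        ext i; fin_cases i <;> simp [red]
      simp [this]
    · intro v hv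
      by_cases h0 : v 0 = 0
      · refine ⟨v 1, ?_⟩
        ext i; fin_cases i <;> simp [h0]
      · simp [h0] at hv
  rw [h1]
  have p_sum : Summable fun x : Fin 2 → ℤ ↦ ‖x‖ ^ (-k) :=
    mod_cast (summable_one_div_norm_rpow hk')
  refine tendsto_tsum_of_dominated_convergence
    (bound := fun v => C * (r ⟨⟨0, 1⟩, one_pos⟩ ^ (-k : ℝ) * ‖v‖ ^ (-k)))
    ((p_sum.mul_left _).mul_left C) ?_ ?_
  · intro v
    by_cases h0 : v 0 = 0
    · simp only [h0, if_true, eisSummand]
      simp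
    · simp only [h0, if_false, eisSummand]
      rw [show (0 : ℂ) = c (red N v) * 0 by simp]
      refine Tendsto.const_mul _ ?_
      rw [tendsto_zero_iff_norm_tendsto_zero]
      have h2 : Tendsto (fun n : ℕ => ‖(v 0 : ℂ) * (zn n : ℂ) + v 1‖) atTop atTop := by
        have h3 : Tendsto (fun n : ℕ => ((n : ℝ) + 1)) atTop atTop :=
          tendsto_atTop_add_const_right _ _ tendsto_natCast_atTop_atTop
        refine tendsto_atTop_mono (fun n => ?_) h3
        have h4 : |(((v 0 : ℂ) * (zn n : ℂ) + v 1)).im| ≤ ‖(v 0 : ℂ) * (zn n : ℂ) + v 1‖ :=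
          Complex.abs_im_le_norm _
        refine le_trans ?_ h4
        rw [zn_coe]
        have h5 : ((v 0 : ℂ) * ((n + 1 : ℝ) * Complex.I) + v 1).im = v 0 * (n + 1) := by
          simp
        rw [h5, abs_mul]
        have h6 : (1 : ℝ) ≤ |(v 0 : ℝ)| := by
          rw [← Int.cast_abs]
          exact_mod_cast Int.one_le_abs h0
        have h7 : |((n : ℝ) + 1)| = n + 1 := abs_of_pos (by positivity)
        rw [h7]
        nlinarith
      simp_rw [norm_zpow]
      lift k to ℕ using by omega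
      simp_rw [zpow_neg, zpow_natCast]
      refine Tendsto.inv_tendsto_atTop ?_
      refine (tendsto_pow_atTop (by omega)).comp h2
  · refine Eventually.of_forall fun n v => ?_
    rw [norm_mul]
    refine mul_le_mul (hc _) ?_ (norm_nonneg _) hC.le
    simpa only [eisSummand, one_div, ← zpow_neg, norm_zpow, ← Real.rpow_intCast,
      Int.cast_neg] using summand_bound_of_mem_verticalStrip (by positivity) v one_pos (zn_mem n)

end Fermat.Agent.DSEis
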