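import Fermat.Agent.DS.Eis

/-!
# `q`-expansions of Eisenstein series with coefficients depending on `c mod N` only
-/

set_option autoImplicit false

open UpperHalfPlane ModularForm EisensteinSeries Matrix.SpecialLinearGroup Filter Topology
  CongruenceSubgroup
open scoped MatrixGroups Manifold ModularForm Nat

noncomputable section

namespace Fermat.Agent.DSEis

variable {N : ℕ} [NeZero N]

/-- normalising constant -/
def cst (k : ℕ) : ℂ := (-2 * Real.pi * Complex.I) ^ k / (k - 1)!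

lemma cst_ne_zero (k : ℕ) : cst k ≠ 0 := by
  rw [cst]
  refine div_ne_zero (pow_ne_zero _ ?_) (by exact_mod_cast Nat.factorial_ne_zero _)
  simp [Real.pi_ne_zero]

/-- `ψ(d) + (-1)^k ψ(-d)` -/
def psiPM (ψ : ZMod N → ℂ) (k : ℕ) (d : ℕ) : ℂ := ψ d + (-1) ^ k * ψ (-d)

/-- `∑_{d ∣ n} (ψ(d) + (-1)^k ψ(-d)) (n/d)^(k-1)` -/
def divSum (ψ : ZMod N → ℂ) (k : ℕ) (n : ℕ) : ℂ :=
  ∑ x ∈ n.divisorsAntidiagonal, psiPM ψ k x.1 * (x.2 : ℂ) ^ (k - 1)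

lemma summable_double (ψ : ZMod N → ℂ) (k : ℕ) (l : ℕ) {q : ℂ} (hq : ‖q‖ < 1) :
    Summable fun c : ℕ+ × ℕ+ => psiPM ψ k c.1 * ((c.2 : ℂ) ^ l * q ^ (c.1 * c.2 : ℕ)) := by
  obtain ⟨C, hC, hc⟩ := exists_bound (N := N) (fun a => ψ (a 0))
  have hψ : ∀ a, ‖ψ a‖ ≤ C := fun a => hc (fun _ => a)
  refine Summable.of_norm_bounded (g := fun c : ℕ+ × ℕ+ =>
    2 * C * ‖((c.2 : ℂ) ^ l * q ^ (c.1 * c.2 : ℕ))‖) ?_ ?_
  · exact (summable_prod_mul_pow l hq).norm.mul_left _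
  · intro c
    rw [norm_mul]
    gcongr
    rw [psiPM]
    refine (norm_add_le _ _).trans ?_
    rw [norm_mul, norm_pow, norm_neg, norm_one, one_pow, one_mul]
    linarith [hψ (c.1 : ℕ), hψ (-((c.1 : ℕ) : ZMod N))]

lemma hasSum_divSum (ψ : ZMod N → ℂ) (k : ℕ) {q : ℂ} (hq : ‖q‖ < 1) :
    HasSum (fun n : ℕ+ => divSum ψ k n * q ^ (n : ℕ))
      (∑' c : ℕ+, psiPM ψ k c * ∑' m : ℕ+, (m : ℂ) ^ (k - 1) * q ^ (c * m : ℕ)) := by
  have H := summable_double ψ k (k - 1) hq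
  have h1 : ∑' c : ℕ+, psiPM ψ k c * ∑' m : ℕ+, (m : ℂ) ^ (k - 1) * q ^ (c * m : ℕ) =
      ∑' c : ℕ+ × ℕ+, psiPM ψ k c.1 * ((c.2 : ℂ) ^ (k - 1) * q ^ (c.1 * c.2 : ℕ)) := by
    rw [H.tsum_prod]
    refine tsum_congr fun c => ?_
    exact tsum_mul_left.symm
  rw [h1]
  have h2 := (sigmaAntidiagonalEquivProd.hasSum_iff (f := fun c : ℕ+ × ℕ+ =>
    psiPM ψ k c.1 * ((c.2 : ℂ) ^ (k - 1) * q ^ (c.1 * c.2 : ℕ)))).mpr H.hasSum
  refine h2.sigma fun n => ?_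
  have h3 := hasSum_fintype (fun x : (n : ℕ).divisorsAntidiagonal =>
    psiPM ψ k x.1.1 * ((x.1.2 : ℂ) ^ (k - 1) * q ^ (n : ℕ)))
  have h4 : ∑ x : (n : ℕ).divisorsAntidiagonal,
      psiPM ψ k x.1.1 * ((x.1.2 : ℂ) ^ (k - 1) * q ^ (n : ℕ)) = divSum ψ k n * q ^ (n : ℕ) := by
    rw [divSum, Finset.sum_mul, Finset.univ_eq_attach,
      (n : ℕ).divisorsAntidiagonal.sum_attach (fun x : ℕ × ℕ =>
        psiPM ψ k x.1 * ((x.2 : ℂ) ^ (k - 1) * q ^ (n : ℕ)))]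
    exact Finset.sum_congr rfl fun x _ => by ring
  rw [h4] at h3
  convert h3 using 2 with x
  have hx := (Nat.mem_divisorsAntidiagonal.mp x.2).1
  show psiPM ψ k x.1.1 * ((x.1.2 : ℂ) ^ (k - 1) * q ^ (x.1.1 * x.1.2)) = _
  rw [hx]

/-- constant term at infinity -/
def cst0 (ψ : ZMod N → ℂ) (k : ℕ) : ℂ := ψ 0 * ∑' d : ℤ, (d : ℂ) ^ (-(k : ℤ))

/-- the `q`-expansion coefficients of `eis` -/
def eisCoeff (ψ : ZMod N → ℂ) (k : ℕ) (n : ℕ) : ℂ :=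
  if n = 0 then cst0 ψ k else cst k * divSum ψ k n

omit [NeZero N] in
lemma divSum_zero (ψ : ZMod N → ℂ) (k : ℕ) : divSum ψ k 0 = 0 := by
  simp [divSum]

theorem eis_eq (ψ : ZMod N → ℂ) {k : ℕ} (hk : 3 ≤ k) (z : ℍ) :
    eis (fun a => ψ (a 0)) k z = cst0 ψ k + cst k * ∑' c : ℕ+, psiPM ψ k c *
      ∑' m : ℕ+, (m : ℂ) ^ (k - 1) * Complex.exp (2 * Real.pi * Complex.I * z) ^ (c * m : ℕ) := by
  have hk' : (3 : ℤ) ≤ k := by exact_mod_cast hk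
  have hs := summable_eis (fun a : Fin 2 → ZMod N => ψ (a 0)) hk' z
  have hs2 : Summable (fun x : ℤ × ℤ => ψ (x.1 : ZMod N) * eisSummand k ![x.1, x.2] z) := by
    refine (((finTwoArrowEquiv ℤ).symm.summable_iff).mpr hs).congr fun x => ?_
    simp [red]
  rw [eis, ← (finTwoArrowEquiv ℤ).symm.tsum_eq]
  have e1 : ∑' x : ℤ × ℤ, ψ (red N ((finTwoArrowEquiv ℤ).symm x) 0) *
      eisSummand k ((finTwoArrowEquiv ℤ).symm x) z =
      ∑' c : ℤ, ψ (c : ZMod N) * ∑' d : ℤ, ((c * z + d : ℂ) ^ k)⁻¹ := by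
    rw [show (fun x : ℤ × ℤ => ψ (red N ((finTwoArrowEquiv ℤ).symm x) 0) *
      eisSummand k ((finTwoArrowEquiv ℤ).symm x) z) =
        fun x : ℤ × ℤ => ψ (x.1 : ZMod N) * eisSummand k ![x.1, x.2] z from by
          ext x; simp [red]]
    rw [hs2.tsum_prod]
    refine tsum_congr fun c => ?_
    rw [← tsum_mul_left]
    refine tsum_congr fun d => ?_
    simp [eisSummand]
  rw [e1]
  have hs3 : Summable fun c : ℤ => ψ (c : ZMod N) * ∑' d : ℤ, ((c * z + d : ℂ) ^ k)⁻¹ := by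
    refine hs2.prod.congr fun c => ?_
    rw [← tsum_mul_left]
    refine tsum_congr fun d => ?_
    simp [eisSummand]
  rw [tsum_int_eq_zero_add_tsum_pnat hs3]
  have H (b : ℕ+) : ∑' d : ℤ, (((b : ℂ) * z + d : ℂ) ^ k)⁻¹ = cst k *
      ∑' m : ℕ+, (m : ℂ) ^ (k - 1) * Complex.exp (2 * Real.pi * Complex.I * z) ^ (b * m : ℕ) := by
    have := qExpansion_identity_pnat (k := k - 1) (by omega) ⟨b * z, by simpa using z.2⟩
    simp_rw [show k - 1 + 1 = k by omega, one_div] at this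
    rw [this, cst]
    congr 1
    refine tsum_congr fun m => ?_
    rw [← Complex.exp_nat_mul, ← Complex.exp_nat_mul]
    congr 2
    push_cast
    ring
  have H2 (b : ℕ+) : ∑' d : ℤ, (((-(b : ℂ)) * z + d : ℂ) ^ k)⁻¹ =
      (-1) ^ k * ∑' d : ℤ, (((b : ℂ) * z + d : ℂ) ^ k)⁻¹ := by
    rw [← tsum_mul_left, ← (Equiv.neg ℤ).tsum_eq]
    refine tsum_congr fun d => ?_
    rw [show (-(b : ℂ)) * z + ((Equiv.neg ℤ d : ℤ) : ℂ) = (-1) * ((b : ℂ) * z + d) by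
      simp; ring, mul_pow, mul_inv]
    congr 1
    rcases neg_one_pow_eq_or ℂ k with h | h <;> simp [h]
  have s1 := (summable_double ψ k (k - 1) (norm_exp_two_pi_I_lt_one z)).prod
  have s2 : Summable fun c : ℕ+ => psiPM ψ k c *
      ∑' m : ℕ+, (m : ℂ) ^ (k - 1) * Complex.exp (2 * Real.pi * Complex.I * z) ^ (c * m : ℕ) := by
    refine s1.congr fun c => ?_
    rw [← tsum_mul_left]
  have t1 : Summable fun n : ℕ+ => ψ (((n : ℕ) : ℤ) : ZMod N) *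
      ∑' d : ℤ, (((((n : ℕ) : ℤ) : ℂ) * z + d : ℂ) ^ k)⁻¹ := by
    have := (summable_int_iff_summable_nat_and_neg.mp hs3).1
    exact (summable_pnat_iff_summable_nat (f := fun n : ℕ => ψ ((n : ℤ) : ZMod N) *
      ∑' d : ℤ, (((((n : ℕ) : ℤ) : ℂ) * z + d : ℂ) ^ k)⁻¹)).mpr this
  have t2 : Summable fun n : ℕ+ => ψ ((-((n : ℕ) : ℤ) : ℤ) : ZMod N) *
      ∑' d : ℤ, ((((-((n : ℕ) : ℤ) : ℤ) : ℂ) * z + d : ℂ) ^ k)⁻¹ := by
    have := (summable_int_iff_summable_nat_and_neg.mp hs3).2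
    exact (summable_pnat_iff_summable_nat (f := fun n : ℕ => ψ ((-(n : ℤ) : ℤ) : ZMod N) *
      ∑' d : ℤ, ((((-((n : ℕ) : ℤ) : ℤ) : ℂ) * z + d : ℂ) ^ k)⁻¹)).mpr this
  rw [add_assoc, ← t1.tsum_add t2]
  congr 1
  · simp [cst0]
  · rw [← tsum_mul_left]
    refine tsum_congr fun n => ?_
    push_cast
    rw [H2, H, psiPM]
    ring

theorem hasSum_eis (ψ : ZMod N → ℂ) {k : ℕ} (hk : 3 ≤ k) (z : ℍ) :
    HasSum (fun n => eisCoeff ψ k n • Function.Periodic.qParam 1 z ^ n)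
      (eis (fun a => ψ (a 0)) k z) := by
  have h1 := (hasSum_divSum ψ k (norm_exp_two_pi_I_lt_one z)).mul_left (cst k)
  rw [eis_eq ψ hk, ← hasSum_nat_add_iff' 1, ← hasSum_pnat_iff_hasSum_succ
    (f := fun n => eisCoeff ψ k n • Function.Periodic.qParam 1 z ^ n)]
  simp only [Finset.range_one, Finset.sum_singleton, eisCoeff, if_true, pow_zero, smul_eq_mul,
    mul_one, add_sub_cancel_left]
  have h2 : (fun n : ℕ+ => (if (n : ℕ) = 0 then cst0 ψ k else cst k * divSum ψ k n) *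
      Function.Periodic.qParam 1 z ^ (n : ℕ)) = fun n : ℕ+ => cst k * (divSum ψ k n *
        Complex.exp (2 * Real.pi * Complex.I * z) ^ (n : ℕ)) := by
    funext n
    rw [if_neg n.ne_zero, Function.Periodic.qParam, mul_assoc]
    simp
  rw [h2]
  exact h1

end Fermat.Agent.DSEis
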