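import Mathlib

/-! Finite subgroups of `GL₂(k)` in characteristic `ℓ` of order divisible by `ℓ` (helper80). -/

set_option autoImplicit false

open Matrix

namespace Fermat.Agent.DS

section Dvd

variable {k : Type*} [Field k]

theorem sq_eq_zero_of_isNilpotent {n : Matrix (Fin 2) (Fin 2) k} (h : IsNilpotent n) :
    n * n = 0 ∧ n.trace = 0 := by
  have htr : n.trace = 0 := (Matrix.isNilpotent_trace_of_isNilpotent h).eq_zero
  have hdet : n.det = 0 := by
    obtain ⟨m, hm⟩ := h
    have h1 : n.det ^ m = 0 := by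
      rw [← Matrix.det_pow, hm]
      simp
    exact pow_eq_zero_iff (M₀ := k) (n := m) (by rintro rfl; rw [pow_zero] at hm; exact one_ne_zero hm) |>.mp h1
  refine ⟨?_, htr⟩
  rw [Matrix.trace_fin_two] at htr
  rw [Matrix.det_fin_two] at hdet
  have h11 : n 1 1 = - n 0 0 := by linear_combination htr
  ext i j
  fin_cases i <;> fin_cases j <;> simp only [Matrix.mul_apply, Fin.sum_univ_two, Fin.zero_eta,
    Fin.mk_one, Fin.isValue, Matrix.zero_apply]
  · rw [h11] at hdet; linear_combination -hdet
  · rw [h11]; ring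
  · rw [h11]; ring
  · rw [h11] at hdet ⊢; linear_combination -hdet

theorem exists_form {n : Matrix (Fin 2) (Fin 2) k} (h0 : n ≠ 0) (hn : n * n = 0)
    (htr : n.trace = 0) : ∃ a b c : k, c ≠ 0 ∧ (a ≠ 0 ∨ b ≠ 0) ∧
      n = c • !![-(a * b), a * a; -(b * b), a * b] := by
  rw [Matrix.trace_fin_two] at htr
  have h11 : n 1 1 = - n 0 0 := by linear_combination htr
  have h00 := congrFun (congrFun hn 0) 0
  simp only [Matrix.mul_apply, Fin.sum_univ_two, Fin.isValue, Matrix.zero_apply] at h00
  by_cases hy : n 0 1 = 0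
  · have hx : n 0 0 = 0 := by
      rw [hy] at h00
      have : n 0 0 * n 0 0 = 0 := by linear_combination h00
      exact mul_self_eq_zero.mp this
    have hz : n 1 0 ≠ 0 := by
      intro hz
      apply h0
      ext i j
      fin_cases i <;> fin_cases j <;> simp [hx, hy, hz, h11]
    refine ⟨0, 1, -(n 1 0), neg_ne_zero.mpr hz, Or.inr one_ne_zero, ?_⟩
    ext i j
    fin_cases i <;> fin_cases j <;> simp [hx, hy, h11]
  · refine ⟨n 0 1, -(n 0 0), (n 0 1)⁻¹, inv_ne_zero hy, Or.inl hy, ?_⟩
    ext i j
    fin_cases i <;> fin_cases j <;> simp [h11]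
    · field_simp
    · field_simp
    · field_simp
      linear_combination h00
    · field_simp

theorem pow_coe (u : GL (Fin 2) k) {n : Matrix (Fin 2) (Fin 2) k}
    (hu : (u : Matrix (Fin 2) (Fin 2) k) = 1 + n) (hn : n * n = 0) (i : ℕ) :
    ((u ^ i : GL (Fin 2) k) : Matrix (Fin 2) (Fin 2) k) = 1 + (i : k) • n := by
  induction i with
  | zero => simp
  | succ i ih =>
    rw [pow_succ, Units.val_mul, ih, hu]
    simp only [add_mul, mul_add, one_mul, mul_one, smul_mul_assoc, hn, smul_zero, add_zero]
    push_cast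
    rw [add_smul, one_smul]
    abel

end Dvd

section Main

variable {k : Type*} [Field k] {ℓ : ℕ} [Fact ℓ.Prime] [CharP k ℓ]

theorem card_le_of_dvd (G : Subgroup (GL (Fin 2) k)) [Finite G] (hdvd : ℓ ∣ Nat.card G)
    (hirr : ∀ v : Fin 2 → k, v ≠ 0 → ∃ g ∈ G, ∀ c : k,
      (g : Matrix (Fin 2) (Fin 2) k).mulVec v ≠ c • v)
    (M : ℕ) (S : Finset (k × k)) (hS : S.card ≤ M) :
    Nat.card {g : G // (((g : GL (Fin 2) k) : Matrix (Fin 2) (Fin 2) k).trace,
      ((g : GL (Fin 2) k) : Matrix (Fin 2) (Fin 2) k).det) ∈ S} * ℓ ≤ Nat.card G * (M + 1) := by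
  classical
  have hℓ : ℓ.Prime := Fact.out
  have : Fintype G := Fintype.ofFinite _
  obtain ⟨u, hu⟩ := exists_prime_orderOf_dvd_card' ℓ hdvd
  set n : Matrix (Fin 2) (Fin 2) k := ((u : GL (Fin 2) k) : Matrix (Fin 2) (Fin 2) k) - 1 with hn
  have hun : ((u : GL (Fin 2) k) : Matrix (Fin 2) (Fin 2) k) = 1 + n := by rw [hn]; abel
  have hn0 : n ≠ 0 := by
    intro h
    rw [h, add_zero] at hun
    have : u = 1 := Subtype.ext (Units.ext hun)
    rw [this, orderOf_one] at hu
    exact hℓ.one_lt.ne hu
  have hnil : IsNilpotent n := by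
    refine ⟨ℓ, ?_⟩
    have : CharP (Matrix (Fin 2) (Fin 2) k) ℓ := inferInstance
    rw [hn, sub_pow_char_of_commute ℓ (Commute.one_right _), one_pow, ← Units.val_pow_eq_pow_val,
      ← Subgroup.coe_pow, ← hu, pow_orderOf_eq_one]
    simp
  obtain ⟨hnn, htr⟩ := sq_eq_zero_of_isNilpotent hnil
  obtain ⟨a, b, c, hc, hab, hform⟩ := exists_form hn0 hnn htr
  -- the functional `β g = det (e₁, g e₁)`
  let β : GL (Fin 2) k → k := fun g =>
    a * (g.1 1 0 * a + g.1 1 1 * b) - b * (g.1 0 0 * a + g.1 0 1 * b)
  have htrg : ∀ (g : GL (Fin 2) k) (i : ℕ), ((g * (u : GL (Fin 2) k) ^ i : GL (Fin 2) k) :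
      Matrix (Fin 2) (Fin 2) k).trace = (g : Matrix (Fin 2) (Fin 2) k).trace + i * (c * β g) := by
    intro g i
    rw [Units.val_mul, pow_coe _ hun hnn, mul_add, mul_one, Matrix.trace_add,
      mul_smul_comm, Matrix.trace_smul, smul_eq_mul]
    congr 2
    rw [hform, Matrix.trace_fin_two]
    simp [Matrix.mul_apply, Fin.sum_univ_two, β]
    ring
  have hβu : ∀ (g : GL (Fin 2) k) (i : ℕ), β (g * (u : GL (Fin 2) k) ^ i) = β g := by
    intro g i
    have h1 : ((g * (u : GL (Fin 2) k) ^ i : GL (Fin 2) k) : Matrix (Fin 2) (Fin 2) k) =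
        g.1 + (i : k) • (g.1 * (c • !![-(a * b), a * a; -(b * b), a * b])) := by
      rw [Units.val_mul, pow_coe _ hun hnn, mul_add, mul_one, mul_smul_comm, hform]
    simp only [β, h1]
    simp [Matrix.mul_apply, Fin.sum_univ_two]
    ring
  have hdetu : ∀ (g : GL (Fin 2) k) (i : ℕ), ((g * (u : GL (Fin 2) k) ^ i : GL (Fin 2) k) :
      Matrix (Fin 2) (Fin 2) k).det = (g : Matrix (Fin 2) (Fin 2) k).det := by
    intro g i
    have h1 : (1 + n).det = 1 := by
      rw [hform, Matrix.det_fin_two]
      simp
      ring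
    rw [Units.val_mul, Matrix.det_mul, Units.val_pow_eq_pow_val, Matrix.det_pow, hun, h1, one_pow,
      mul_one]
  -- elements outside the stabiliser
  let Q : G → Prop := fun g => (((g : GL (Fin 2) k) : Matrix (Fin 2) (Fin 2) k).trace,
      ((g : GL (Fin 2) k) : Matrix (Fin 2) (Fin 2) k).det) ∈ S
  let A : Finset G := Finset.univ.filter fun g => Q g ∧ β g ≠ 0
  let B : Finset G := Finset.univ.filter fun g => β g = 0
  have hA : A.card * ℓ ≤ Nat.card G * M := by
    have h1 : ∀ i : ℕ, (Finset.univ.filter fun g : G => Q (g * u ^ i) ∧ β g ≠ 0).card = A.card := by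
      intro i
      refine Finset.card_bij (fun g _ => g * u ^ i) ?_ ?_ ?_
      · intro g hg
        simp only [Finset.mem_filter, Finset.mem_univ, true_and, A] at hg ⊢
        refine ⟨hg.1, ?_⟩
        have := hβu g i
        rw [Subgroup.coe_mul, Subgroup.coe_pow, this]
        exact hg.2
      · intro g _ g' _ h
        exact mul_right_cancel h
      · intro g hg
        simp only [Finset.mem_filter, Finset.mem_univ, true_and, A] at hg ⊢
        refine ⟨g * (u ^ i)⁻¹, ⟨by rw [inv_mul_cancel_right]; exact hg.1, ?_⟩,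
          inv_mul_cancel_right _ _⟩
        have h2 := hβu ((g * (u ^ i)⁻¹ : G) : GL (Fin 2) k) i
        have h3 : ((g * (u ^ i)⁻¹ : G) : GL (Fin 2) k) * (u : GL (Fin 2) k) ^ i =
            (g : GL (Fin 2) k) := by
          rw [Subgroup.coe_mul, Subgroup.coe_inv, Subgroup.coe_pow, inv_mul_cancel_right]
        rw [h3] at h2
        rw [← h2]
        exact hg.2
    have h2 : A.card * ℓ = ∑ i ∈ Finset.range ℓ,
        (Finset.univ.filter fun g : G => Q (g * u ^ i) ∧ β g ≠ 0).card := by
      rw [Finset.sum_congr rfl fun i _ => h1 i, Finset.sum_const, Finset.card_range, smul_eq_mul,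
        mul_comm]
    have h3 : ∑ i ∈ Finset.range ℓ, (Finset.univ.filter fun g : G => Q (g * u ^ i) ∧ β g ≠ 0).card
        = ∑ g : G, ((Finset.range ℓ).filter fun i => Q (g * u ^ i) ∧ β g ≠ 0).card := by
      simp only [Finset.card_filter]
      exact Finset.sum_comm
    have h4 : ∀ g : G, ((Finset.range ℓ).filter fun i => Q (g * u ^ i) ∧ β g ≠ 0).card ≤ M := by
      intro g
      by_cases hg : β g = 0
      · simp [hg]
      · refine le_trans ?_ hS
        refine Finset.card_le_card_of_injOn (fun i : ℕ =>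
          (((g : GL (Fin 2) k) : Matrix (Fin 2) (Fin 2) k).trace + i * (c * β g),
            ((g : GL (Fin 2) k) : Matrix (Fin 2) (Fin 2) k).det)) ?_ ?_
        · intro i hi
          simp only [Finset.coe_filter, Finset.mem_range, Set.mem_ofPred_eq, Q] at hi
          have h5 := hi.2.1
          rw [Subgroup.coe_mul, Subgroup.coe_pow, htrg, hdetu] at h5
          exact h5
        · intro i hi j hj hij
          simp only [Finset.coe_filter, Finset.mem_range, Set.mem_ofPred_eq] at hi hj
          simp only [Prod.mk.injEq, add_right_inj, and_true] at hij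
          have h6 : (i : k) = j := mul_right_cancel₀ (mul_ne_zero hc hg) hij
          exact CharP.natCast_injOn_Iio k ℓ hi.1 hj.1 h6
    rw [h2, h3]
    refine (Finset.sum_le_card_nsmul _ _ M fun g _ => h4 g).trans ?_
    rw [Finset.card_univ, smul_eq_mul, Nat.card_eq_fintype_card]
  have hB : B.card * ℓ ≤ Nat.card G := by
    obtain ⟨g₁, hg₁G, hg₁⟩ := hirr ![a, b] (by
      intro h
      have h0 := congrFun h 0
      have h1 := congrFun h 1
      simp at h0 h1
      rcases hab with h | h
      · exact h h0
      · exact h h1)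
    have hw : β g₁ ≠ 0 := by
      intro h0
      rcases hab with ha | hb
      · refine hg₁ ((g₁.1 0 0 * a + g₁.1 0 1 * b) / a) ?_
        ext i
        fin_cases i
        · simp [Matrix.mulVec, dotProduct, Fin.sum_univ_two]
          field_simp
        · simp [Matrix.mulVec, dotProduct, Fin.sum_univ_two]
          field_simp
          simp only [β] at h0
          linear_combination h0
      · refine hg₁ ((g₁.1 1 0 * a + g₁.1 1 1 * b) / b) ?_
        ext i
        fin_cases i
        · simp [Matrix.mulVec, dotProduct, Fin.sum_univ_two]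
          field_simp
          simp only [β] at h0
          linear_combination -h0
        · simp [Matrix.mulVec, dotProduct, Fin.sum_univ_two]
          field_simp
    have hs : ∀ h : GL (Fin 2) k, β h = 0 → ∃ s : k, s ≠ 0 ∧
        h.1.mulVec ![a, b] = s • ![a, b] := by
      intro h h0
      have h1 : ∃ s : k, h.1.mulVec ![a, b] = s • ![a, b] := by
        rcases hab with ha | hb
        · refine ⟨(h.1 0 0 * a + h.1 0 1 * b) / a, ?_⟩
          ext i
          fin_cases i
          · simp [Matrix.mulVec, dotProduct, Fin.sum_univ_two]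
            field_simp
          · simp [Matrix.mulVec, dotProduct, Fin.sum_univ_two]
            field_simp
            simp only [β] at h0
            linear_combination h0
        · refine ⟨(h.1 1 0 * a + h.1 1 1 * b) / b, ?_⟩
          ext i
          fin_cases i
          · simp [Matrix.mulVec, dotProduct, Fin.sum_univ_two]
            field_simp
            simp only [β] at h0
            linear_combination -h0
          · simp [Matrix.mulVec, dotProduct, Fin.sum_univ_two]
            field_simp
      obtain ⟨s, hs⟩ := h1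
      refine ⟨s, ?_, hs⟩
      rintro rfl
      rw [zero_smul] at hs
      have h2 : (h⁻¹).1.mulVec (h.1.mulVec ![a, b]) = ![a, b] := by
        rw [Matrix.mulVec_mulVec, ← Units.val_mul, inv_mul_cancel, Units.val_one,
          Matrix.one_mulVec]
      rw [hs, Matrix.mulVec_zero] at h2
      have h3 := congrFun h2 0
      have h4 := congrFun h2 1
      simp at h3 h4
      rcases hab with h | h
      · exact h h3.symm
      · exact h h4.symm
    set w : Fin 2 → k := g₁.1.mulVec ![a, b] with hwdef
    have hβw : a * w 1 - b * w 0 = β g₁ := by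
      simp [hwdef, β]
    have hkey : ∀ (i : ℕ) (h : GL (Fin 2) k) (s : k), h.1.mulVec ![a, b] = s • ![a, b] →
        ((u : GL (Fin 2) k) ^ i * g₁ * h).1.mulVec ![a, b] =
          s • (w + ((i : k) * (c * β g₁)) • ![a, b]) := by
      intro i h s hh
      rw [Units.val_mul, ← Matrix.mulVec_mulVec, hh, Matrix.mulVec_smul, Units.val_mul,
        ← Matrix.mulVec_mulVec, ← hwdef, pow_coe _ hun hnn, Matrix.add_mulVec, Matrix.one_mulVec,
        Matrix.smul_mulVec, mul_smul]
      congr 3
      rw [hform, ← hβw]
      ext j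
      fin_cases j
      · simp [Matrix.mulVec, dotProduct, Fin.sum_univ_two]
        ring
      · simp [Matrix.mulVec, dotProduct, Fin.sum_univ_two]
        ring
    rw [Nat.card_eq_fintype_card, ← Finset.card_univ, mul_comm, ← Finset.card_range ℓ,
      ← Finset.card_product]
    refine Finset.card_le_card_of_injOn (fun x : ℕ × G => u ^ x.1 * ⟨g₁, hg₁G⟩ * x.2)
      (fun _ _ => Finset.mem_coe.mpr (Finset.mem_univ _)) ?_
    rintro ⟨i, h⟩ hi ⟨j, h'⟩ hj heq
    simp only [Finset.coe_product, Set.mem_prod, Finset.mem_coe, Finset.mem_range] at hi hj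
    obtain ⟨hi, hh⟩ := hi
    obtain ⟨hj, hh'⟩ := hj
    simp only [Finset.mem_filter, Finset.mem_univ, true_and, B] at hh hh'
    obtain ⟨s, hs0, hs1⟩ := hs _ hh
    obtain ⟨s', hs0', hs1'⟩ := hs _ hh'
    have h1 := hkey i _ s hs1
    have h2 := hkey j _ s' hs1'
    have h3 : (u : GL (Fin 2) k) ^ i * g₁ * h = (u : GL (Fin 2) k) ^ j * g₁ * h' :=
      congrArg Subtype.val heq
    rw [h3, h2] at h1
    have h4 := congrFun h1 0
    have h5 := congrFun h1 1
    simp only [Pi.smul_apply, Pi.add_apply, smul_eq_mul, Matrix.cons_val_zero,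
      Matrix.cons_val_one] at h4 h5
    have h6 : s' = s := by
      have : (s' - s) * β g₁ = 0 := by
        rw [← hβw]
        linear_combination a * h5 - b * h4
      rcases mul_eq_zero.mp this with h | h
      · exact sub_eq_zero.mp h
      · exact absurd h hw
    rw [h6] at h4 h5
    have h7 : (i : k) = j := by
      rcases hab with ha | hb
      · have h8 := mul_left_cancel₀ hs0 h4
        rw [add_right_inj] at h8
        exact (mul_right_cancel₀ (mul_ne_zero hc hw) (mul_right_cancel₀ ha h8)).symm
      · have h8 := mul_left_cancel₀ hs0 h5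
        rw [add_right_inj] at h8
        exact (mul_right_cancel₀ (mul_ne_zero hc hw) (mul_right_cancel₀ hb h8)).symm
    have h9 : i = j := CharP.natCast_injOn_Iio k ℓ hi hj h7
    subst h9
    exact Prod.ext rfl (mul_left_cancel heq)
  have hcard : Nat.card {g : G // Q g} ≤ A.card + B.card := by
    rw [Nat.card_eq_fintype_card, Fintype.card_subtype]
    refine (Finset.card_le_card ?_).trans (Finset.card_union_le A B)
    intro g hg
    simp only [Finset.mem_filter, Finset.mem_univ, true_and] at hg
    by_cases h0 : β g = 0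
    · exact Finset.mem_union_right _ (by simp [B, h0])
    · exact Finset.mem_union_left _ (by simp only [A, Finset.mem_filter, Finset.mem_univ, true_and]; exact ⟨hg, h0⟩)
  calc Nat.card {g : G // Q g} * ℓ ≤ (A.card + B.card) * ℓ := Nat.mul_le_mul_right _ hcard
    _ = A.card * ℓ + B.card * ℓ := add_mul _ _ _
    _ ≤ Nat.card G * M + Nat.card G := add_le_add hA hB
    _ = Nat.card G * (M + 1) := by ring

end Main

end Fermat.Agent.DS
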