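import Mathlib

/-!
# Finite subgroups of `GL₂(k)` of order prime to the characteristic

They contain a diagonalizable subgroup of index at most `12` (Klein's argument).
-/

set_option autoImplicit false

namespace Fermat.Agent.DS

open Matrix OnePoint

section

variable {k : Type*} [Field k]

/-- the matrix of an element of `GL₂`. -/
abbrev mat (g : GL (Fin 2) k) : Matrix (Fin 2) (Fin 2) k := (g : Matrix (Fin 2) (Fin 2) k)

/-- powers of an upper triangular matrix with equal diagonal entries. -/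
lemma upper_pow (a c : k) (n : ℕ) :
    (!![a, c; 0, a] : Matrix (Fin 2) (Fin 2) k) ^ (n + 1) =
      !![a ^ (n + 1), ((n + 1 : ℕ) : k) * a ^ n * c; 0, a ^ (n + 1)] := by
  induction n with
  | zero => simp
  | succ n ih =>
    rw [pow_succ, ih]
    ext i j
    fin_cases i <;> fin_cases j <;>
      simp [Matrix.mul_apply, Fin.sum_univ_two, pow_succ]
    ring

/-- an upper triangular matrix of finite order prime to the characteristic with equal diagonal
entries is scalar. -/
lemma upper_finite_order {a c : k} {n : ℕ} (hn : (n : k) ≠ 0)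
    (h : (!![a, c; 0, a] : Matrix (Fin 2) (Fin 2) k) ^ n = 1) : c = 0 := by
  obtain ⟨m, rfl⟩ : ∃ m, n = m + 1 := by
    cases n with
    | zero => simp at hn
    | succ m => exact ⟨m, rfl⟩
  rw [upper_pow] at h
  have h00 := congrFun (congrFun h 0) 0
  have h01 := congrFun (congrFun h 0) 1
  simp at h00 h01
  rcases h01 with (h01 | h01) | h01
  · exact absurd (by exact_mod_cast h01) hn
  · exfalso
    rw [h01.1, pow_succ, mul_zero] at h00
    exact zero_ne_one h00
  · exact h01

end

section action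

variable {k : Type*} [Field k] [DecidableEq k]

lemma exists_smul_infty (x : OnePoint k) : ∃ Q : GL (Fin 2) k, Q • (∞ : OnePoint k) = x := by
  cases x with
  | infty => exact ⟨1, one_smul _ _⟩
  | coe c =>
    refine ⟨GeneralLinearGroup.mkOfDetNeZero !![c, 1; 1, 0] (by simp [Matrix.det_fin_two]), ?_⟩
    rw [smul_infty_eq_ite]
    simp [GeneralLinearGroup.mkOfDetNeZero]

/-- fixed points of a diagonal matrix with distinct entries. -/
lemma diag_smul_eq_iff {D : GL (Fin 2) k} {a b : k} (hD : mat D = !![a, 0; 0, b]) (hab : a ≠ b)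
    (y : OnePoint k) : D • y = y ↔ y = ∞ ∨ y = ((0 : k) : OnePoint k) := by
  have h00 : D 0 0 = a := by have := congrFun (congrFun hD 0) 0; simpa using this
  have h01 : D 0 1 = 0 := by have := congrFun (congrFun hD 0) 1; simpa using this
  have h10 : D 1 0 = 0 := by have := congrFun (congrFun hD 1) 0; simpa using this
  have h11 : D 1 1 = b := by have := congrFun (congrFun hD 1) 1; simpa using this
  have hdet : a * b ≠ 0 := by
    have := D.det_ne_zero
    rw [Matrix.det_fin_two] at this
    change D 0 0 * D 1 1 - D 0 1 * D 1 0 ≠ 0 at this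
    rw [h00, h01, h10, h11] at this
    simpa using this
  have ha : a ≠ 0 := left_ne_zero_of_mul hdet
  have hb : b ≠ 0 := right_ne_zero_of_mul hdet
  cases y with
  | infty => simp [smul_infty_eq_self_iff, h10]
  | coe c =>
    rw [smul_some_eq_ite, h00, h01, h10, h11]
    simp only [zero_mul, zero_add, hb, if_false, add_zero, OnePoint.coe_ne_infty, false_or]
    rw [OnePoint.coe_eq_coe, OnePoint.coe_eq_coe, div_eq_iff hb]
    constructor
    · intro h
      by_contra hc
      exact hab (mul_right_cancel₀ hc (by rw [h]; ring))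
    · rintro rfl; simp

/-- the stabiliser of a point is upper triangular in suitable coordinates. -/
lemma conj_lower_zero {g Q : GL (Fin 2) k} {x : OnePoint k} (hQ : Q • (∞ : OnePoint k) = x)
    (hg : g • x = x) : mat (Q⁻¹ * g * Q) 1 0 = 0 := by
  have : (Q⁻¹ * g * Q) • (∞ : OnePoint k) = ∞ := by
    rw [mul_smul, mul_smul, hQ, hg, ← hQ, inv_smul_smul]
  exact smul_infty_eq_self_iff.mp this

omit [DecidableEq k] in
lemma mat_eq_of (g : GL (Fin 2) k) (h : mat g 1 0 = 0) :
    mat g = !![mat g 0 0, mat g 0 1; 0, mat g 1 1] := by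
  ext i j
  fin_cases i <;> fin_cases j <;> simp [h]

omit [DecidableEq k] in
lemma conj_pow (g Q : GL (Fin 2) k) (n : ℕ) : (Q⁻¹ * g * Q) ^ n = Q⁻¹ * g ^ n * Q := by
  induction n with
  | zero => simp
  | succ n ih => rw [pow_succ, ih, pow_succ]; group

/-- diagonalisation of a non scalar element of finite order prime to the characteristic, with
a prescribed fixed point at infinity. -/
lemma exists_diag {g : GL (Fin 2) k} {x : OnePoint k} (hx : g • x = x) {n : ℕ} (hn : (n : k) ≠ 0)
    (hgn : g ^ n = 1) (hs : ¬ ∃ c : k, mat g = !![c, 0; 0, c]) :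
    ∃ (Q : GL (Fin 2) k) (a b : k), a ≠ b ∧ Q • (∞ : OnePoint k) = x ∧
      mat (Q⁻¹ * g * Q) = !![a, 0; 0, b] := by
  obtain ⟨Q, hQ⟩ := exists_smul_infty x
  have h10 := conj_lower_zero hQ hx
  have hM := mat_eq_of _ h10
  set g' := Q⁻¹ * g * Q with hg'
  have hg'n : g' ^ n = 1 := by rw [hg', conj_pow, hgn]; group
  have hg'n' : mat g' ^ n = 1 := by
    have := congrArg (fun z : GL (Fin 2) k => mat z) hg'n
    simpa using this
  set a := mat g' 0 0
  set c := mat g' 0 1
  set b := mat g' 1 1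
  by_cases hab : a = b
  · exfalso
    apply hs
    rw [← hab] at hM
    have hc : c = 0 := by
      rw [hM] at hg'n'
      exact upper_finite_order hn hg'n'
    rw [hc] at hM
    refine ⟨a, ?_⟩
    have e1 : mat g' = a • (1 : Matrix (Fin 2) (Fin 2) k) := by
      rw [hM]; ext i j; fin_cases i <;> fin_cases j <;> simp
    have e2 : g = Q * g' * Q⁻¹ := by rw [hg']; group
    have e3 : mat g = mat Q * mat g' * mat Q⁻¹ := by rw [e2]; simp [mat]
    rw [e3, e1]
    have e4 : mat Q * mat Q⁻¹ = 1 := by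
      have : mat (Q * Q⁻¹) = mat Q * mat Q⁻¹ := by simp [mat]
      rw [← this, mul_inv_cancel]; simp [mat]
    rw [Matrix.mul_smul, Matrix.mul_one, Matrix.smul_mul, e4]
    ext i j; fin_cases i <;> fin_cases j <;> simp
  · -- conjugate by `[1, t; 0, 1]`, `t = c / (b - a)`
    have hba : b - a ≠ 0 := sub_ne_zero.mpr (Ne.symm hab)
    let T : GL (Fin 2) k := GeneralLinearGroup.mkOfDetNeZero !![1, c / (b - a); 0, 1]
      (by simp [Matrix.det_fin_two])
    have hT : mat T = !![1, c / (b - a); 0, 1] := rfl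
    refine ⟨Q * T, a, b, hab, ?_, ?_⟩
    · rw [mul_smul]
      have : T • (∞ : OnePoint k) = ∞ := by
        rw [smul_infty_eq_self_iff]
        change mat T 1 0 = 0
        rw [hT]; simp
      rw [this, hQ]
    · have e1 : g' * T = T * (T⁻¹ * g' * T) := by group
      have e2 : mat T * mat ((Q * T)⁻¹ * g * (Q * T)) = mat T * !![a, 0; 0, b] := by
        have : mat T * mat ((Q * T)⁻¹ * g * (Q * T)) = mat g' * mat T := by
          have e3 : T * ((Q * T)⁻¹ * g * (Q * T)) = g' * T := by rw [hg']; group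
          have := congrArg (fun z : GL (Fin 2) k => mat z) e3
          simpa [mat] using this
        rw [this, hM, hT]
        ext i j
        fin_cases i <;> fin_cases j <;> simp [Matrix.mul_apply, Fin.sum_univ_two]
        field_simp
        ring
      have e5 : mat T⁻¹ * mat T = 1 := by
        have : mat (T⁻¹ * T) = mat T⁻¹ * mat T := by simp [mat]
        rw [← this, inv_mul_cancel]; simp [mat]
      calc mat ((Q * T)⁻¹ * g * (Q * T)) = mat T⁻¹ * mat T * mat ((Q * T)⁻¹ * g * (Q * T)) := by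
            rw [e5, Matrix.one_mul]
        _ = mat T⁻¹ * (mat T * !![a, 0; 0, b]) := by rw [Matrix.mul_assoc, e2]
        _ = !![a, 0; 0, b] := by rw [← Matrix.mul_assoc, e5, Matrix.one_mul]

/-- the fixed points of a non scalar element. -/
lemma smul_eq_iff {g Q : GL (Fin 2) k} {a b : k} (hab : a ≠ b)
    (hD : mat (Q⁻¹ * g * Q) = !![a, 0; 0, b]) (y : OnePoint k) :
    g • y = y ↔ y = Q • (∞ : OnePoint k) ∨ y = Q • ((0 : k) : OnePoint k) := by
  have h := diag_smul_eq_iff hD hab (Q⁻¹ • y)
  rw [inv_smul_eq_iff, inv_smul_eq_iff, mul_smul, mul_smul, smul_inv_smul,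
    inv_smul_eq_iff, smul_inv_smul] at h
  exact h

/-- simultaneous diagonalisation of the stabiliser of `x`. -/
lemma stab_diag {G : Subgroup (GL (Fin 2) k)} {n : ℕ} (hn : (n : k) ≠ 0)
    (hG : ∀ g ∈ G, g ^ n = 1) {x : OnePoint k} {g : GL (Fin 2) k} (hgG : g ∈ G) (hgx : g • x = x)
    (hs : ¬ ∃ c : k, mat g = !![c, 0; 0, c]) :
    ∃ Q : GL (Fin 2) k, ∀ h ∈ G, h • x = x → ∃ a b : k, mat (Q⁻¹ * h * Q) = !![a, 0; 0, b] := by
  obtain ⟨Q, a, b, hab, hQ, hD⟩ := exists_diag hgx hn (hG g hgG) hs
  refine ⟨Q, fun h hh hx => ?_⟩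
  have h10 := conj_lower_zero hQ hx
  have hM := mat_eq_of _ h10
  set h' := Q⁻¹ * h * Q with hh'
  set D := Q⁻¹ * g * Q with hDdef
  set r := mat h' 0 0
  set s := mat h' 0 1
  set t := mat h' 1 1
  refine ⟨r, t, ?_⟩
  rw [hM]
  suffices hs0 : s = 0 by rw [hs0]
  -- the commutator `u`
  have hu : (h' * D * h'⁻¹ * D⁻¹) ^ n = 1 := by
    have : h' * D * h'⁻¹ * D⁻¹ = Q⁻¹ * (h * g * h⁻¹ * g⁻¹) * Q := by
      rw [hh', hDdef]; group
    rw [this, conj_pow, hG _ (G.mul_mem (G.mul_mem (G.mul_mem hh hgG) (G.inv_mem hh))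
      (G.inv_mem hgG))]
    group
  set u := h' * D * h'⁻¹ * D⁻¹ with hudef
  have hun : mat u ^ n = 1 := by
    have := congrArg (fun z : GL (Fin 2) k => mat z) hu
    simpa using this
  have hmul : mat u * (mat D * mat h') = mat h' * mat D := by
    have e3 : u * (D * h') = h' * D := by rw [hudef]; group
    have := congrArg (fun z : GL (Fin 2) k => mat z) e3
    simpa [mat] using this
  have hdetD : a * b ≠ 0 := by
    have := D.det_ne_zero
    change Matrix.det (mat D) ≠ 0 at this
    rw [hD, Matrix.det_fin_two] at this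
    simpa using this
  have hdeth : r * t ≠ 0 := by
    have := h'.det_ne_zero
    change Matrix.det (mat h') ≠ 0 at this
    rw [hM, Matrix.det_fin_two] at this
    simpa using this
  have ha : a ≠ 0 := left_ne_zero_of_mul hdetD
  have hb : b ≠ 0 := right_ne_zero_of_mul hdetD
  have hr : r ≠ 0 := left_ne_zero_of_mul hdeth
  have ht : t ≠ 0 := right_ne_zero_of_mul hdeth
  rw [hD, hM] at hmul
  have e00 := congrFun (congrFun hmul 0) 0
  have e01 := congrFun (congrFun hmul 0) 1
  have e10 := congrFun (congrFun hmul 1) 0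
  have e11 := congrFun (congrFun hmul 1) 1
  simp [Matrix.mul_apply, Fin.sum_univ_two] at e00 e01 e10 e11
  have u00 : mat u 0 0 = 1 := by
    have : (mat u 0 0 - 1) * (a * r) = 0 := by linear_combination e00
    rcases mul_eq_zero.mp this with h | h
    · exact sub_eq_zero.mp h
    · exact absurd h (mul_ne_zero ha hr)
  have u10 : mat u 1 0 = 0 := by
    rcases e10 with h | h | h
    · exact h
    · exact absurd h ha
    · exact absurd h hr
  have u11 : mat u 1 1 = 1 := by
    rw [u10] at e11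
    have : (mat u 1 1 - 1) * (b * t) = 0 := by linear_combination e11
    rcases mul_eq_zero.mp this with h | h
    · exact sub_eq_zero.mp h
    · exact absurd h (mul_ne_zero hb ht)
  rw [u00] at e01
  have hU : mat u = !![1, mat u 0 1; 0, 1] := by
    ext i j
    fin_cases i <;> fin_cases j <;> simp [u00, u10, u11]
  rw [hU] at hun
  have h0 := upper_finite_order hn hun
  rw [h0] at e01
  have e5 : (a - b) * s = 0 := by linear_combination e01
  rcases mul_eq_zero.mp e5 with h | h
  · exact absurd (sub_eq_zero.mp h) hab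
  · exact h

end action

section arith

lemma arith_three_aux {n o₁ o₂ o₃ m₁ m₂ m₃ : ℕ} (h₁ : o₁ * m₁ = n) (h₂ : o₂ * m₂ = n)
    (h₃ : o₃ * m₃ = n) (hm₁ : 2 ≤ m₁) (h12 : m₁ ≤ m₂) (h23 : m₂ ≤ m₃)
    (hs : n + 2 = o₁ + o₂ + o₃) : o₁ ≤ 12 ∨ o₂ ≤ 12 ∨ o₃ ≤ 12 := by
  have b1 : ∀ c, c ≤ m₁ → c * o₁ ≤ n := fun c hc => by
    rw [← h₁, mul_comm]; exact Nat.mul_le_mul_left _ hc
  have b2 : ∀ c, c ≤ m₂ → c * o₂ ≤ n := fun c hc => by
    rw [← h₂, mul_comm]; exact Nat.mul_le_mul_left _ hc
  have b3 : ∀ c, c ≤ m₃ → c * o₃ ≤ n := fun c hc => by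
    rw [← h₃, mul_comm]; exact Nat.mul_le_mul_left _ hc
  have hm1 : m₁ = 2 := by
    by_contra hne
    have := b1 3 (by omega)
    have := b2 3 (by omega)
    have := b3 3 (by omega)
    omega
  subst hm1
  by_cases hm2 : m₂ = 2
  · subst hm2; omega
  by_cases hm2' : m₂ = 3
  · subst hm2'
    by_cases hm3 : 6 ≤ m₃
    · have := b3 6 hm3
      omega
    · have : m₃ = 3 ∨ m₃ = 4 ∨ m₃ = 5 := by omega
      rcases this with h | h | h <;> subst h <;> omega
  · have := b2 4 (by omega)
    have := b3 4 (by omega)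
    omega

lemma arith_three {n o₁ o₂ o₃ m₁ m₂ m₃ : ℕ} (h₁ : o₁ * m₁ = n) (h₂ : o₂ * m₂ = n)
    (h₃ : o₃ * m₃ = n) (hm₁ : 2 ≤ m₁) (hm₂ : 2 ≤ m₂) (hm₃ : 2 ≤ m₃)
    (hs : n + 2 = o₁ + o₂ + o₃) : o₁ ≤ 12 ∨ o₂ ≤ 12 ∨ o₃ ≤ 12 := by
  rcases le_total m₁ m₂ with h12 | h12 <;> rcases le_total m₂ m₃ with h23 | h23 <;>
    rcases le_total m₁ m₃ with h13 | h13
  · have := arith_three_aux h₁ h₂ h₃ hm₁ h12 h23 (by omega); omega
  · have := arith_three_aux h₁ h₂ h₃ hm₁ h12 h23 (by omega); omega
  · have := arith_three_aux h₁ h₃ h₂ hm₁ h13 h23 (by omega); omega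
  · have := arith_three_aux h₃ h₁ h₂ hm₃ h13 h12 (by omega); omega
  · have := arith_three_aux h₂ h₁ h₃ hm₂ h12 h13 (by omega); omega
  · have := arith_three_aux h₂ h₃ h₁ hm₂ h23 h13 (by omega); omega
  · have := arith_three_aux h₃ h₂ h₁ hm₃ h23 h12 (by omega); omega
  · have := arith_three_aux h₃ h₂ h₁ hm₃ h23 h12 (by omega); omega

lemma arith_orbits {ι : Type*} [Fintype ι] {n : ℕ} (hn : 1 ≤ n) {o m : ι → ℕ}
    (h : ∀ i, o i * m i = n) (hm : ∀ i, 2 ≤ m i)
    (hs : Fintype.card ι * n + 2 = ∑ i, o i + 2 * n) : n = 1 ∨ ∃ i, o i ≤ 12 := by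
  have h2 : ∀ i, 2 * o i ≤ n := fun i => by
    rw [← h i, mul_comm]; exact Nat.mul_le_mul_left _ (hm i)
  have hsum : 2 * ∑ i, o i ≤ Fintype.card ι * n := by
    rw [Finset.mul_sum]
    calc ∑ i, 2 * o i ≤ ∑ _i : ι, n := Finset.sum_le_sum fun i _ => h2 i
      _ = Fintype.card ι * n := by simp
  have hr : Fintype.card ι < 4 := by
    by_contra hcon
    have : 4 * n ≤ Fintype.card ι * n := Nat.mul_le_mul_right _ (by omega)
    omega
  have e := (Fintype.equivFin ι)
  obtain ⟨r, hr'⟩ : ∃ r, r = Fintype.card ι := ⟨_, rfl⟩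
  rw [← hr'] at hr hs e
  have hsum' : ∑ i, o i = ∑ j : Fin r, o (e.symm j) := (e.symm.sum_comp o).symm
  rw [hsum'] at hs
  interval_cases r
  · simp at hs
    left; omega
  · rw [Fin.sum_univ_one] at hs
    have := h2 (e.symm 0)
    have h3 := h (e.symm 0)
    exfalso
    have h4 : o (e.symm 0) = 0 := by omega
    rw [h4] at h3
    omega
  · rw [Fin.sum_univ_two] at hs
    right
    exact ⟨e.symm 0, by omega⟩
  · rw [Fin.sum_univ_three] at hs
    right
    rcases arith_three (h (e.symm 0)) (h (e.symm 1)) (h (e.symm 2)) (hm _) (hm _) (hm _)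
      (by omega) with h' | h' | h'
    · exact ⟨_, h'⟩
    · exact ⟨_, h'⟩
    · exact ⟨_, h'⟩

end arith

section main

open MulAction

variable {k : Type*} [Field k] [DecidableEq k]

lemma scalar_smul {g : GL (Fin 2) k} {c : k} (hg : mat g = !![c, 0; 0, c]) (x : OnePoint k) :
    g • x = x := by
  have h00 : g 0 0 = c := by have := congrFun (congrFun hg 0) 0; simpa using this
  have h01 : g 0 1 = 0 := by have := congrFun (congrFun hg 0) 1; simpa using this
  have h10 : g 1 0 = 0 := by have := congrFun (congrFun hg 1) 0; simpa using this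
  have h11 : g 1 1 = c := by have := congrFun (congrFun hg 1) 1; simpa using this
  have hc : c ≠ 0 := by
    have := g.det_ne_zero
    change Matrix.det (mat g) ≠ 0 at this
    rw [hg, Matrix.det_fin_two] at this
    simp at this
    exact this
  cases x with
  | infty => exact smul_infty_eq_self_iff.mpr h10
  | coe d =>
    rw [smul_some_eq_ite, h00, h01, h10, h11]
    simp only [zero_mul, zero_add, hc, if_false, add_zero, OnePoint.coe_eq_coe]
    field_simp

lemma scalar_of_smul {g : GL (Fin 2) k} (h : ∀ x : OnePoint k, g • x = x) :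
    ∃ c : k, mat g = !![c, 0; 0, c] := by
  have h10 : g 1 0 = 0 := smul_infty_eq_self_iff.mp (h ∞)
  have hdet := g.det_ne_zero
  rw [Matrix.det_fin_two] at hdet
  change g 0 0 * g 1 1 - g 0 1 * g 1 0 ≠ 0 at hdet
  rw [h10, mul_zero, sub_zero] at hdet
  have h11 : g 1 1 ≠ 0 := right_ne_zero_of_mul hdet
  have h0 := h ((0 : k) : OnePoint k)
  rw [smul_some_eq_ite, h10] at h0
  simp only [zero_add, h11, if_false, mul_zero, OnePoint.coe_eq_coe] at h0
  rw [div_eq_zero_iff] at h0
  have h01 : g 0 1 = 0 := h0.resolve_right h11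
  have h1 := h ((1 : k) : OnePoint k)
  rw [smul_some_eq_ite, h10, h01] at h1
  simp only [zero_add, h11, if_false, mul_one, add_zero, OnePoint.coe_eq_coe] at h1
  rw [div_eq_one_iff_eq h11] at h1
  refine ⟨g 1 1, ?_⟩
  ext i j
  fin_cases i <;> fin_cases j <;> simp [mat, h1, h01, h10]

/-- over an algebraically closed field every element of `GL₂` has a fixed point on `ℙ¹`. -/
lemma exists_fixed [IsAlgClosed k] (g : GL (Fin 2) k) : ∃ x : OnePoint k, g • x = x := by
  by_cases h10 : g 1 0 = 0
  · exact ⟨∞, smul_infty_eq_self_iff.mpr h10⟩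
  · obtain ⟨c, hc⟩ := IsAlgClosed.exists_eval₂_eq_zero_of_injective (RingHom.id k)
      Function.injective_id (g.fixpointPolynomial) (by
        intro hdeg
        have h2 := congrArg (fun p => Polynomial.coeff p 2)
          (Polynomial.eq_C_of_degree_eq_zero hdeg)
        simp [GeneralLinearGroup.fixpointPolynomial, Polynomial.coeff_X, Polynomial.coeff_C] at h2
        exact h10 h2)
    refine ⟨c, ?_⟩
    rw [← GeneralLinearGroup.fixpointPolynomial_aeval_eq_zero_iff]
    exact hc

/-- the set of points of `ℙ¹` fixed by a non scalar element of `G`. -/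
def special (G : Subgroup (GL (Fin 2) k)) : SubMulAction G (OnePoint k) where
  carrier := {x | ∃ g ∈ G, (¬ ∃ c : k, mat g = !![c, 0; 0, c]) ∧ g • x = x}
  smul_mem' := by
    rintro ⟨h, hh⟩ x ⟨g, hg, hs, hx⟩
    refine ⟨h * g * h⁻¹, G.mul_mem (G.mul_mem hh hg) (G.inv_mem hh), ?_, ?_⟩
    · intro hcon
      apply hs
      apply scalar_of_smul
      intro y
      obtain ⟨c, hc⟩ := hcon
      have h1 := scalar_smul hc (h • y)
      rw [mul_smul, mul_smul, inv_smul_smul] at h1
      exact (MulAction.injective h) h1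
    · change (h * g * h⁻¹) • (h • x) = h • x
      rw [mul_smul, mul_smul, inv_smul_smul, hx]

lemma mem_special {G : Subgroup (GL (Fin 2) k)} {x : OnePoint k} :
    x ∈ special G ↔ ∃ g ∈ G, (¬ ∃ c : k, mat g = !![c, 0; 0, c]) ∧ g • x = x := Iff.rfl

/-- a non scalar element of finite order prime to the characteristic has exactly two fixed points. -/
lemma exists_two_fixed [IsAlgClosed k] {g : GL (Fin 2) k} {n : ℕ} (hn : (n : k) ≠ 0)
    (hgn : g ^ n = 1) (hs : ¬ ∃ c : k, mat g = !![c, 0; 0, c]) :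
    ∃ x₁ x₂ : OnePoint k, x₁ ≠ x₂ ∧ ∀ y, g • y = y ↔ y = x₁ ∨ y = x₂ := by
  obtain ⟨x, hx⟩ := exists_fixed g
  obtain ⟨Q, a, b, hab, -, hD⟩ := exists_diag hx hn hgn hs
  refine ⟨Q • (∞ : OnePoint k), Q • ((0 : k) : OnePoint k), ?_, smul_eq_iff hab hD⟩
  intro h
  exact (OnePoint.infty_ne_coe (0 : k)) ((MulAction.injective Q) h)

lemma finite_special [IsAlgClosed k] (G : Subgroup (GL (Fin 2) k)) [Finite G] {n : ℕ}
    (hn : (n : k) ≠ 0) (hG : ∀ g ∈ G, g ^ n = 1) : Finite (special G) := by
  have hsub : ((special G : SubMulAction G (OnePoint k)) : Set (OnePoint k)) ⊆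
      ⋃ g : G, {x | (¬ ∃ c : k, mat (g : GL (Fin 2) k) = !![c, 0; 0, c]) ∧
        (g : GL (Fin 2) k) • x = x} := by
    rintro x ⟨g, hg, hs, hx⟩
    exact Set.mem_iUnion.mpr ⟨⟨g, hg⟩, hs, hx⟩
  refine (Set.Finite.subset (Set.finite_iUnion fun g => ?_) hsub).to_subtype
  by_cases hs : ∃ c : k, mat (g : GL (Fin 2) k) = !![c, 0; 0, c]
  · convert Set.finite_empty
    ext x
    simp [hs]
  · obtain ⟨x₁, x₂, -, h⟩ := exists_two_fixed hn (hG g g.2) hs
    refine (Set.toFinite {x₁, x₂}).subset ?_
    rintro x ⟨-, hx⟩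
    exact (h x).mp hx

end main

/-- **Klein**: a finite subgroup of `GL₂(k)` of order prime to the characteristic contains a
diagonalizable subgroup of index at most `12`. -/
theorem exists_abelian {k : Type*} [Field k] [IsAlgClosed k] (G : Subgroup (GL (Fin 2) k))
    [Finite G] (hG : (Nat.card G : k) ≠ 0) :
    ∃ A : Subgroup (GL (Fin 2) k), A ≤ G ∧ Nat.card G ≤ 12 * Nat.card A ∧
      ∃ P : GL (Fin 2) k, ∀ a ∈ A, ∃ x y : k,
        ((P * a * P⁻¹ : GL (Fin 2) k) : Matrix (Fin 2) (Fin 2) k) = !![x, 0; 0, y] := by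
  classical
  have hFG : Fintype G := Fintype.ofFinite G
  set N := Nat.card G with hN
  have hN0 : 0 < N := Nat.card_pos
  have hpow : ∀ g ∈ G, g ^ N = 1 := fun g hg => by
    have := pow_card_eq_one' (x := (⟨g, hg⟩ : G))
    exact congrArg Subtype.val this
  have hfin : Finite (special G) := finite_special G hG hpow
  have hFX : Fintype (special G) := Fintype.ofFinite _
  -- the scalar subgroup
  let Z : Subgroup G := (MulAction.toPermHom G (OnePoint k)).ker
  have hZ : ∀ g : G, g ∈ Z ↔ ∀ x : OnePoint k, (g : GL (Fin 2) k) • x = x := by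
    intro g
    rw [MonoidHom.mem_ker]
    constructor
    · intro h x
      exact congrArg (fun f : Equiv.Perm (OnePoint k) => f x) h
    · intro h
      ext1 x
      exact h x
  have hZs : ∀ g : G, g ∈ Z ↔ ∃ c : k, mat (g : GL (Fin 2) k) = !![c, 0; 0, c] := by
    intro g
    rw [hZ]
    exact ⟨scalar_of_smul, fun ⟨c, hc⟩ x => scalar_smul hc x⟩
  set z := Nat.card Z with hz
  have hz0 : 0 < z := Nat.card_pos
  by_cases htop : Z = ⊤
  · refine ⟨G, le_rfl, by omega, 1, fun a ha => ?_⟩
    obtain ⟨c, hc⟩ := (hZs ⟨a, ha⟩).mp (by rw [htop]; trivial)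
    refine ⟨c, c, ?_⟩
    have : (1 * a * 1⁻¹ : GL (Fin 2) k) = a := by group
    rw [this]
    exact hc
  -- fixed points
  have hfix : ∀ g : G, Fintype.card (MulAction.fixedBy (special G) g) =
      if g ∈ Z then Fintype.card (special G) else 2 := by
    intro g
    split_ifs with hg
    · have : MulAction.fixedBy (special G) g = Set.univ := by
        ext x
        simp only [MulAction.mem_fixedBy, Set.mem_univ, iff_true]
        exact Subtype.ext ((hZ g).mp hg x)
      rw [← Nat.card_eq_fintype_card, ← Nat.card_eq_fintype_card, this]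
      simp
    · have hs : ¬ ∃ c : k, mat (g : GL (Fin 2) k) = !![c, 0; 0, c] := fun h => hg ((hZs g).mpr h)
      obtain ⟨x₁, x₂, hne, h⟩ := exists_two_fixed hG (hpow g g.2) hs
      have m₁ : x₁ ∈ special G := ⟨g, g.2, hs, (h x₁).mpr (Or.inl rfl)⟩
      have m₂ : x₂ ∈ special G := ⟨g, g.2, hs, (h x₂).mpr (Or.inr rfl)⟩
      have : MulAction.fixedBy (special G) g = {⟨x₁, m₁⟩, ⟨x₂, m₂⟩} := by
        ext x
        simp only [MulAction.mem_fixedBy, Set.mem_insert_iff, Set.mem_singleton_iff]
        rw [Subtype.ext_iff, Subtype.ext_iff, Subtype.ext_iff]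
        exact h x
      rw [← Nat.card_eq_fintype_card, this, Nat.card_coe_set_eq, Set.ncard_pair]
      intro h0
      exact hne (congrArg Subtype.val h0)
  have hFΩ : Fintype (Quotient (MulAction.orbitRel G (special G))) := Fintype.ofFinite _
  have hburn := MulAction.sum_card_fixedBy_eq_card_orbits_mul_card_group G (special G)
  rw [Finset.sum_congr rfl (fun g _ => hfix g), Finset.sum_ite, Finset.sum_const, Finset.sum_const,
    smul_eq_mul, smul_eq_mul] at hburn
  have hc1 : (Finset.univ.filter (fun g : G => g ∈ Z)).card = z := by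
    rw [hz, Nat.card_eq_fintype_card, Fintype.card_subtype]
  have hc2 : (Finset.univ.filter (fun g : G => g ∉ Z)).card = N - z := by
    have := Finset.card_filter_add_card_filter_not (s := (Finset.univ : Finset G))
      (p := fun g : G => g ∈ Z)
    rw [hc1, Finset.card_univ, ← Nat.card_eq_fintype_card, ← hN] at this
    omega
  rw [hc1, hc2, ← Nat.card_eq_fintype_card (α := G), ← hN] at hburn
  -- class formula
  let o : Quotient (MulAction.orbitRel G (special G)) → ℕ := fun ω =>
    (MulAction.stabilizer G ω.out).index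
  have hX : Fintype.card (special G) = ∑ ω, o ω := by
    rw [← Nat.card_eq_fintype_card,
      Nat.card_congr (MulAction.selfEquivSigmaOrbitsQuotientStabilizer G (special G)),
      Nat.card_sigma]
    rfl
  -- index of the scalars
  obtain ⟨n, hn⟩ : ∃ n, n = Z.index := ⟨_, rfl⟩
  have hzn : z * n = N := by rw [hn]; exact Z.card_mul_index
  have hn1 : n ≠ 1 := by
    rw [hn]; intro h; exact htop (Subgroup.index_eq_one.mp h)
  have hn0 : 1 ≤ n := by
    rcases Nat.eq_zero_or_pos n with h | h
    · rw [h, mul_zero] at hzn; omega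
    · exact h
  have hle : ∀ x : special G, Z ≤ MulAction.stabilizer G x := by
    intro x g hg
    rw [MulAction.mem_stabilizer_iff]
    exact Subtype.ext ((hZ g).mp hg x)
  let m : Quotient (MulAction.orbitRel G (special G)) → ℕ := fun ω =>
    Z.relIndex (MulAction.stabilizer G ω.out)
  have hom : ∀ ω, o ω * m ω = n := by
    intro ω
    rw [hn, mul_comm]
    exact Subgroup.relIndex_mul_index (hle _)
  have hm : ∀ ω, 2 ≤ m ω := by
    intro ω
    have h0 : m ω ≠ 0 := by
      intro h
      have := hom ω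
      rw [h, mul_zero] at this
      omega
    have h1 : m ω ≠ 1 := by
      intro h
      have h2 : MulAction.stabilizer G ω.out ≤ Z := Subgroup.relIndex_eq_one.mp h
      obtain ⟨g, hg, hs, hx⟩ := mem_special.mp ω.out.2
      have h3 : (⟨g, hg⟩ : G) ∈ MulAction.stabilizer G ω.out := by
        rw [MulAction.mem_stabilizer_iff]
        exact Subtype.ext hx
      exact hs ((hZs _).mp (h2 h3))
    omega
  have hs : Fintype.card (Quotient (MulAction.orbitRel G (special G))) * n + 2 =
      ∑ ω, o ω + 2 * n := by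
    rw [hX] at hburn
    have h1 : z * (Fintype.card (Quotient (MulAction.orbitRel G (special G))) * n + 2) =
        z * (∑ ω, o ω + 2 * n) := by
      have h2 : z ≤ N := by rw [← hzn]; exact Nat.le_mul_of_pos_right _ hn0
      have h3 : (N - z) * 2 + 2 * z = 2 * N := by omega
      calc z * (Fintype.card (Quotient (MulAction.orbitRel G (special G))) * n + 2)
          = Fintype.card (Quotient (MulAction.orbitRel G (special G))) * (z * n) + 2 * z := by ring
        _ = (z * ∑ ω, o ω + (N - z) * 2) + 2 * z := by rw [hzn, ← hburn]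
        _ = z * ∑ ω, o ω + 2 * N := by rw [add_assoc, h3]
        _ = z * (∑ ω, o ω + 2 * n) := by rw [← hzn]; ring
    exact Nat.eq_of_mul_eq_mul_left hz0 h1
  rcases arith_orbits hn0 hom hm hs with h | ⟨ω, hω⟩
  · exact absurd h hn1
  -- the diagonalizable subgroup
  obtain ⟨g, hg, hgs, hx⟩ := mem_special.mp ω.out.2
  obtain ⟨Q, hQ⟩ := stab_diag hG hpow hg hx hgs
  refine ⟨(MulAction.stabilizer G ω.out).map G.subtype, Subgroup.map_subtype_le _, ?_, Q⁻¹, ?_⟩
  · have h1 : Nat.card ((MulAction.stabilizer G ω.out).map G.subtype) =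
        Nat.card (MulAction.stabilizer G ω.out) :=
      Nat.card_congr ((MulAction.stabilizer G ω.out).equivMapOfInjective G.subtype
        G.subtype_injective).symm.toEquiv
    rw [h1]
    have h2 := (MulAction.stabilizer G ω.out).index_mul_card
    rw [← hN] at h2
    rw [← h2]
    exact Nat.mul_le_mul_right _ hω
  · rintro _ ⟨a, ha, rfl⟩
    have h1 : (a : GL (Fin 2) k) • ((ω.out : special G) : OnePoint k) =
        ((ω.out : special G) : OnePoint k) := by
      have := MulAction.mem_stabilizer_iff.mp ha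
      exact congrArg Subtype.val this
    obtain ⟨x, y, hxy⟩ := hQ a a.2 h1
    refine ⟨x, y, ?_⟩
    rw [inv_inv]
    exact hxy

end Fermat.Agent.DS
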