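import Fermat.Agent.S30_Pseudo

/-!
# Odd two-dimensional pseudo-characters over a field come from representations
-/

set_option autoImplicit false

open Fermat.Agent.S30aux

noncomputable section

namespace Fermat.Agent.DS

/-- Two by two matrices satisfying `M^2 - t M + d = 0` with `M` not scalar -/
lemma trace_det_of_rel {k : Type*} [Field k] (M : Matrix (Fin 2) (Fin 2) k) (t d : k)
    (h : M * M - t • M + d • (1 : Matrix (Fin 2) (Fin 2) k) = 0)
    (hM : ¬ ∃ c : k, M = c • (1 : Matrix (Fin 2) (Fin 2) k)) : M.trace = t ∧ M.det = d := by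
  have h00 := congrFun (congrFun h 0) 0
  have h01 := congrFun (congrFun h 0) 1
  have h10 := congrFun (congrFun h 1) 0
  have h11 := congrFun (congrFun h 1) 1
  simp only [Matrix.add_apply, Matrix.sub_apply, Matrix.mul_apply, Fin.sum_univ_two,
    Matrix.smul_apply, smul_eq_mul, Matrix.one_apply_eq, Matrix.zero_apply, mul_one,
    Matrix.one_apply_ne (show (0 : Fin 2) ≠ 1 by decide),
    Matrix.one_apply_ne (show (1 : Fin 2) ≠ 0 by decide), mul_zero, add_zero] at h00 h01 h10 h11
  rw [Matrix.trace_fin_two, Matrix.det_fin_two]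
  have key : M 0 0 + M 1 1 = t := by
    by_contra hne
    have hne' : M 0 0 + M 1 1 - t ≠ 0 := sub_ne_zero.mpr hne
    have e01 : M 0 1 = 0 := by
      have : M 0 1 * (M 0 0 + M 1 1 - t) = 0 := by linear_combination h01
      exact (mul_eq_zero.mp this).resolve_right hne'
    have e10 : M 1 0 = 0 := by
      have : M 1 0 * (M 0 0 + M 1 1 - t) = 0 := by linear_combination h10
      exact (mul_eq_zero.mp this).resolve_right hne'
    have e : M 0 0 = M 1 1 := by
      rw [e01, e10] at h00 h11
      have : (M 0 0 - M 1 1) * (M 0 0 + M 1 1 - t) = 0 := by linear_combination h00 - h11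
      exact sub_eq_zero.mp ((mul_eq_zero.mp this).resolve_right hne')
    apply hM
    refine ⟨M 0 0, ?_⟩
    ext i j
    fin_cases i <;> fin_cases j <;> simp [e01, e10, e]
  refine ⟨key, ?_⟩
  rw [← key] at h00
  linear_combination -h00

section

variable {G : Type*} [Group G] {k : Type*} [Field k]

/-- the diagonal representation -/
def diagRep (a b : G →* kˣ) : G →* GL (Fin 2) k :=
  ((Matrix.diagonalRingHom (Fin 2) k).toMonoidHom.comp
    (({ toFun := fun g => ![((a g : kˣ) : k), ((b g : kˣ) : k)]
        map_one' := by ext i; fin_cases i <;> simp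
        map_mul' := fun g h => by ext i; fin_cases i <;> simp } : G →* (Fin 2 → k)))).toHomUnits

lemma diagRep_apply (a b : G →* kˣ) (g : G) :
    ((diagRep a b g : GL (Fin 2) k) : Matrix (Fin 2) (Fin 2) k) =
      Matrix.diagonal ![((a g : kˣ) : k), ((b g : kˣ) : k)] := rfl

theorem exists_rep_of_pseudo (h2 : (2 : k) ≠ 0)
    (T : G → k) (D : G →* kˣ) (hT1 : T 1 = 2)
    (hT : ∀ g h, T g * T h = T (g * h) + ((D h : kˣ) : k) * T (g * h⁻¹))
    (c : G) (hc : c * c = 1) (hcD : ((D c : kˣ) : k) = -1) :
    ∃ ρ : G →* GL (Fin 2) k,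
      (∀ g, ((ρ g : GL (Fin 2) k) : Matrix (Fin 2) (Fin 2) k).trace = T g) ∧
      (∀ g, ((ρ g : GL (Fin 2) k) : Matrix (Fin 2) (Fin 2) k).det = ((D g : kˣ) : k)) ∧
      ∀ σ : G, (∀ g, T (g * σ) = T g) → ρ σ = 1 := by
  have H : IsPseudo T D := ⟨hT1, hT⟩
  have hTc : T c = 0 := H.apply_c h2 hc hcD
  rcases dichotomy H h2 c hc hcD with ⟨u, hu, hu0, α, hα⟩ | ⟨v, hv, w, hw, hv0, hw0, hcv, hcw, hst⟩
  · -- reducible case
    have hψ : ∀ h, rt G k h u = (α h / 2) • u := by
      intro h
      rw [div_eq_inv_mul, mul_smul, ← hα, smul_smul, inv_mul_cancel₀ h2, one_smul]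
    have hun : ∀ a b : k, a • u = b • u → a = b := fun a b hab => by
      obtain ⟨y, hy⟩ := Function.ne_iff.mp hu0
      have := congrFun hab y
      exact mul_right_cancel₀ hy this
    let ψ0 : G →* k :=
      { toFun := fun h => α h / 2
        map_one' := by
          apply hun
          rw [← hψ, map_one, one_smul]; rfl
        map_mul' := fun g h => by
          apply hun
          rw [← hψ, rt_mul_apply, hψ h, map_smul, hψ g, smul_smul, mul_comm] }
    let ψ : G →* kˣ := ψ0.toHomUnits
    have hψ' : ∀ h, rt G k h u = ((ψ h : kˣ) : k) • u := hψ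
    have hsum : ∀ h, T h = ((ψ h : kˣ) : k) + (((D * ψ⁻¹) h : kˣ) : k) := by
      intro h
      apply hun
      rw [← H.rel hu h, hψ', hψ', add_smul, smul_smul, MonoidHom.mul_apply, MonoidHom.inv_apply,
        map_inv, Units.val_mul]
    refine ⟨diagRep ψ (D * ψ⁻¹), fun g => ?_, fun g => ?_, fun σ hσ => ?_⟩
    · rw [diagRep_apply, Matrix.trace_diagonal, Fin.sum_univ_two, hsum]
      rfl
    · rw [diagRep_apply, Matrix.det_diagonal, Fin.prod_univ_two]
      simp only [Matrix.cons_val_zero, Matrix.cons_val_one]
      rw [← Units.val_mul]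
      congr 1
      rw [MonoidHom.mul_apply, MonoidHom.inv_apply, mul_comm, inv_mul_cancel_right]
    · have e1 := hσ 1
      have e2 := hσ c
      rw [one_mul, hT1, hsum] at e1
      rw [hTc, hsum, map_mul, map_mul, Units.val_mul, Units.val_mul] at e2
      rw [hsum] at hTc
      have hc2 : ((ψ c : kˣ) : k) ≠ 0 := Units.ne_zero _
      have e3 : (((D * ψ⁻¹) c : kˣ) : k) = - ((ψ c : kˣ) : k) := by linear_combination hTc
      rw [e3] at e2
      have e4 : ((ψ σ : kˣ) : k) = (((D * ψ⁻¹) σ : kˣ) : k) := by
        have : ((ψ c : kˣ) : k) * (((ψ σ : kˣ) : k) - (((D * ψ⁻¹) σ : kˣ) : k)) = 0 := by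
          linear_combination e2
        exact sub_eq_zero.mp ((mul_eq_zero.mp this).resolve_left hc2)
      rw [← e4] at e1
      have e5 : ((ψ σ : kˣ) : k) = 1 := by
        have : (2 : k) * (((ψ σ : kˣ) : k) - 1) = 0 := by linear_combination e1
        exact sub_eq_zero.mp ((mul_eq_zero.mp this).resolve_left h2)
      apply Units.ext
      rw [diagRep_apply, ← e4, e5]
      ext i j
      fin_cases i <;> fin_cases j <;> simp
  · -- two-dimensional invariant subspace
    have hst' : ∀ h, rt G k h v ∈ Submodule.span k {v, w} ∧ rt G k h w ∈ Submodule.span k {v, w} := by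
      intro h
      obtain ⟨a, ha, h1, h2'⟩ := hst h
      refine ⟨?_, ?_⟩
      · have := Submodule.smul_mem _ a⁻¹ h1
        rwa [smul_smul, inv_mul_cancel₀ ha, one_smul] at this
      · have := Submodule.smul_mem _ a⁻¹ h2'
        rwa [smul_smul, inv_mul_cancel₀ ha, one_smul] at this
    have hli : LinearIndependent k ![v, w] := by
      rw [LinearIndependent.pair_iff]
      intro a b hab
      have h3 := congrArg (rt G k c) hab
      rw [map_add, map_smul, map_smul, hcv, hcw, map_zero, smul_neg] at h3
      have h4 : (2 * a) • v = 0 := by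
        rw [mul_smul, two_smul]
        calc a • v + a • v = (a • v + b • w) + (a • v + -(b • w)) := by abel
          _ = 0 := by rw [hab, h3, add_zero]
      have h5 : (2 * b) • w = 0 := by
        rw [mul_smul, two_smul]
        calc b • w + b • w = (a • v + b • w) - (a • v + -(b • w)) := by abel
          _ = 0 := by rw [hab, h3, sub_zero]
      exact ⟨(mul_eq_zero.mp ((smul_eq_zero.mp h4).resolve_right hv0)).resolve_left h2,
        (mul_eq_zero.mp ((smul_eq_zero.mp h5).resolve_right hw0)).resolve_left h2⟩
    set V : Submodule k (G → k) := Submodule.span k (Set.range ![v, w]) with hV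
    have hVe : V = Submodule.span k {v, w} := by
      rw [hV, Matrix.range_cons, Matrix.range_cons, Matrix.range_empty, Set.union_empty,
        Set.singleton_union]
    let bas : Module.Basis (Fin 2) k V := Module.Basis.span hli
    have hb0 : ((bas 0 : V) : G → k) = v := congrArg Subtype.val (Module.Basis.span_apply hli 0)
    have hb1 : ((bas 1 : V) : G → k) = w := congrArg Subtype.val (Module.Basis.span_apply hli 1)
    have hVst : ∀ h, ∀ f ∈ V, rt G k h f ∈ V := by
      intro h f hf
      rw [hVe] at hf ⊢
      obtain ⟨a, b, rfl⟩ := Submodule.mem_span_pair.mp hf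
      rw [map_add, map_smul, map_smul]
      exact Submodule.add_mem _ (Submodule.smul_mem _ _ (hst' h).1)
        (Submodule.smul_mem _ _ (hst' h).2)
    have hVT : V ≤ IsPseudo.span k T := by
      rw [hVe, Submodule.span_le]
      rintro x (rfl | hx)
      · exact hv
      · rw [Set.mem_singleton_iff.mp hx]; exact hw
    let π : G →* Module.End k V :=
      { toFun := fun h => (rt G k h).restrict (hVst h)
        map_one' := by
          ext1 x
          apply Subtype.ext
          rw [LinearMap.coe_restrict_apply, map_one]; rfl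
        map_mul' := fun g h => by
          ext1 x
          apply Subtype.ext
          rw [LinearMap.coe_restrict_apply, map_mul]; rfl }
    have hπ : ∀ h (x : V), ((π h x : V) : G → k) = rt G k h x := fun h x => rfl
    let R0 : G →* Matrix (Fin 2) (Fin 2) k :=
      ((LinearMap.toMatrixAlgEquiv bas : _ →* _)).comp π
    let R : G →* GL (Fin 2) k := R0.toHomUnits
    have hR : ∀ g, ((R g : GL (Fin 2) k) : Matrix (Fin 2) (Fin 2) k) =
      LinearMap.toMatrixAlgEquiv bas (π g) := fun g => rfl
    have hrel : ∀ h, π h * π h + ((D h : kˣ) : k) • (1 : Module.End k V) = T h • π h := by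
      intro h
      ext1 x
      apply Subtype.ext
      have h3 := H.rel (hVT (hVst h x x.2)) h
      have h4 : rt G k h⁻¹ (rt G k h (x : G → k)) = x := by
        rw [← rt_mul_apply, inv_mul_cancel, map_one]; rfl
      rw [h4] at h3
      simp only [LinearMap.add_apply, Module.End.mul_apply,
        LinearMap.smul_apply, Module.End.one_apply, Submodule.coe_add,
        Submodule.coe_smul, hπ]
      exact h3
    have hrelM : ∀ h, ((R h : GL (Fin 2) k) : Matrix (Fin 2) (Fin 2) k) *
        ((R h : GL (Fin 2) k) : Matrix (Fin 2) (Fin 2) k) -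
        T h • ((R h : GL (Fin 2) k) : Matrix (Fin 2) (Fin 2) k) +
        ((D h : kˣ) : k) • (1 : Matrix (Fin 2) (Fin 2) k) = 0 := by
      intro h
      have := congrArg (LinearMap.toMatrixAlgEquiv bas) (hrel h)
      rw [map_add, map_mul, map_smul, map_smul, map_one, ← hR] at this
      rw [← this]
      abel
    -- the matrix of `c`
    have hRc : ((R c : GL (Fin 2) k) : Matrix (Fin 2) (Fin 2) k) = Matrix.diagonal ![1, -1] := by
      rw [hR]
      have e0 : π c (bas 0) = bas 0 := by
        apply Subtype.ext
        rw [hπ, hb0, hcv]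
      have e1 : π c (bas 1) = - bas 1 := by
        apply Subtype.ext
        rw [hπ, hb1, hcw, Submodule.coe_neg, hb1]
      ext i j
      rw [LinearMap.toMatrixAlgEquiv_apply]
      fin_cases j
      · change (bas.repr (π c (bas 0))) i = _
        rw [e0, Module.Basis.repr_self]
        fin_cases i <;> simp
      · change (bas.repr (π c (bas 1))) i = _
        rw [e1, map_neg, Module.Basis.repr_self]
        fin_cases i <;> simp
    have hboth : ∀ h, ((R h : GL (Fin 2) k) : Matrix (Fin 2) (Fin 2) k).trace = T h ∧
        ((R h : GL (Fin 2) k) : Matrix (Fin 2) (Fin 2) k).det = ((D h : kˣ) : k) := by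
      intro h
      by_cases hs : ∃ c : k, ((R h : GL (Fin 2) k) : Matrix (Fin 2) (Fin 2) k) =
          c • (1 : Matrix (Fin 2) (Fin 2) k)
      · obtain ⟨a, ha⟩ := hs
        have ha0 : a ≠ 0 := by
          rintro rfl
          rw [zero_smul] at ha
          exact (R h).ne_zero ha
        have hM : ((R (h * c) : GL (Fin 2) k) : Matrix (Fin 2) (Fin 2) k) =
            Matrix.diagonal ![a, -a] := by
          rw [map_mul, Units.val_mul, ha, hRc, Matrix.smul_mul, one_mul]
          ext i j
          fin_cases i <;> fin_cases j <;> simp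
        have h3 := trace_det_of_rel _ _ _ (hrelM (h * c)) (by
          rintro ⟨b, hb⟩
          rw [hM] at hb
          have e1 := congrFun (congrFun hb 0) 0
          have e2 := congrFun (congrFun hb 1) 1
          simp at e1 e2
          have : 2 * a = 0 := by linear_combination e1 - e2
          exact ha0 ((mul_eq_zero.mp this).resolve_left h2))
        rw [hM, Matrix.det_diagonal, Fin.prod_univ_two, map_mul, Units.val_mul, hcD] at h3
        have hd : ((D h : kˣ) : k) = a * a := by
          have := h3.2
          simp only [Matrix.cons_val_zero, Matrix.cons_val_one] at this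
          linear_combination this
        have ht : T h = 2 * a := by
          have h5 := congrFun (congrFun (hrelM h) 0) 0
          rw [ha, hd] at h5
          simp at h5
          have : a * (T h - 2 * a) = 0 := by linear_combination -h5
          exact sub_eq_zero.mp ((mul_eq_zero.mp this).resolve_left ha0)
        rw [ha, ht, hd, Matrix.trace_fin_two, Matrix.det_fin_two]
        simp
        ring
      · exact trace_det_of_rel _ _ _ (hrelM h) hs
    refine ⟨R, fun g => (hboth g).1, fun g => (hboth g).2, fun σ hσ => ?_⟩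
    apply Units.ext
    rw [hR, Units.val_one]
    have : π σ = 1 := by
      ext1 x
      apply Subtype.ext
      rw [hπ, Module.End.one_apply]
      funext y
      have h3 := IsPseudo.sub_mem H (hVT x.2) ⊥ σ (fun y => by rw [hσ, sub_self]; exact zero_mem _) y
      rw [Ideal.mem_bot, sub_eq_zero] at h3
      exact h3
    rw [this, map_one]

end

end Fermat.Agent.DS

end
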