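import Fermat.Agent.DS.PrimeSum
import Fermat.Agent.DS.Pseudo
import Fermat.Agent.DS.GroupsDvd
import Fermat.Agent.DS.GroupsPrime
import Fermat.Agent.DS.Irred

/-!
# The images of the mod `ℓ` representations attached to a weight one form have bounded exponent
-/

set_option autoImplicit false

open CongruenceSubgroup UpperHalfPlane ModularFormClass Filter Topology
open scoped MatrixGroups

noncomputable section

namespace Fermat.Agent.DS

/-- `ρ` is attached to the system `(t, e)` (values in `k`) outside `N ℓ`. -/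
structure Attached (N ℓ : ℕ) {k : Type} [Field k] (t e : ℕ → k) (ρ : GQ →* GL (Fin 2) k) :
    Prop where
  finiteLevel : GaloisFactorsThroughFiniteLevel ρ
  inertia : ∀ p : ℕ, p.Prime → ¬ p ∣ N → p ≠ ℓ →
    ∀ A : ValuationSubring (AlgebraicClosure ℚ), A.LiesOverPrime p →
      ∀ σ ∈ A.inertiaSubgroupIn ℚ, ρ σ = 1
  trace : ∀ p : ℕ, p.Prime → ¬ p ∣ N → p ≠ ℓ →
    ∀ A : ValuationSubring (AlgebraicClosure ℚ), A.LiesOverPrime p →
      ∀ σ : GQ, A.IsFrobeniusAt σ p →
        ((ρ σ : GL (Fin 2) k) : Matrix (Fin 2) (Fin 2) k).trace = t p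
  det : ∀ p : ℕ, p.Prime → ¬ p ∣ N → p ≠ ℓ →
    ∀ A : ValuationSubring (AlgebraicClosure ℚ), A.LiesOverPrime p →
      ∀ σ : GQ, A.IsFrobeniusAt σ p →
        ((ρ σ : GL (Fin 2) k) : Matrix (Fin 2) (Fin 2) k).det = e p

section Group

variable {k : Type} [Field k]

/-- trace and determinant -/
def trdet (g : GL (Fin 2) k) : k × k :=
  ((g : Matrix (Fin 2) (Fin 2) k).trace, (g : Matrix (Fin 2) (Fin 2) k).det)

lemma trdet_conj (g h : GL (Fin 2) k) : trdet (g * h * g⁻¹) = trdet h := by
  have h1 : ((g * h * g⁻¹ : GL (Fin 2) k) : Matrix (Fin 2) (Fin 2) k) =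
      (g : Matrix (Fin 2) (Fin 2) k) * (h : Matrix (Fin 2) (Fin 2) k) *
        ((g⁻¹ : GL (Fin 2) k) : Matrix (Fin 2) (Fin 2) k) := by
    simp
  have h2 : ((g⁻¹ : GL (Fin 2) k) : Matrix (Fin 2) (Fin 2) k) *
      (g : Matrix (Fin 2) (Fin 2) k) = 1 := Units.inv_mul g
  rw [trdet, trdet, h1, Matrix.trace_mul_comm, ← mul_assoc, h2, one_mul, Matrix.det_mul_comm,
    ← mul_assoc, h2, one_mul]

/-- counting diagonalisable elements with trace and determinant in a given set -/
lemma card_diag_le {A : Type*} (S : Finset (k × k)) (x y : A → k)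
    (hinj : ∀ a b, x a = x b → y a = y b → a = b)
    (hS : ∀ a, (x a + y a, x a * y a) ∈ S) : Finite A ∧ Nat.card A ≤ 2 * S.card := by
  classical
  let r : k × k → Finset k := fun s =>
    (Polynomial.X ^ 2 - Polynomial.C s.1 * Polynomial.X + Polynomial.C s.2 :
      Polynomial k).roots.toFinset
  have hdeg : ∀ s : k × k, (Polynomial.X ^ 2 - Polynomial.C s.1 * Polynomial.X +
      Polynomial.C s.2 : Polynomial k).natDegree = 2 := by
    intro s
    have : (Polynomial.X ^ 2 - Polynomial.C s.1 * Polynomial.X + Polynomial.C s.2 :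
      Polynomial k) = Polynomial.C 1 * Polynomial.X ^ 2 + Polynomial.C (-s.1) * Polynomial.X +
      Polynomial.C s.2 := by
      rw [Polynomial.C_neg, Polynomial.C_1]; ring
    rw [this]
    exact Polynomial.natDegree_quadratic one_ne_zero
  have hne : ∀ s : k × k, (Polynomial.X ^ 2 - Polynomial.C s.1 * Polynomial.X +
      Polynomial.C s.2 : Polynomial k) ≠ 0 := by
    intro s h
    have := hdeg s
    rw [h] at this
    simp at this
  have hr : ∀ s, (r s).card ≤ 2 := by
    intro s
    refine (Multiset.toFinset_card_le _).trans ((Polynomial.card_roots' _).trans (hdeg s).le)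
  let Φ : A → Finset.sigma S r := fun a => ⟨⟨(x a + y a, x a * y a), x a⟩, by
    rw [Finset.mem_sigma]
    refine ⟨hS a, ?_⟩
    rw [Multiset.mem_toFinset, Polynomial.mem_roots (hne _)]
    simp only [Polynomial.IsRoot, Polynomial.eval_add, Polynomial.eval_sub, Polynomial.eval_pow,
      Polynomial.eval_mul, Polynomial.eval_X, Polynomial.eval_C]
    ring⟩
  have hΦ : Function.Injective Φ := by
    intro a b hab
    have h1 := congrArg Subtype.val hab
    simp only [Φ, Sigma.mk.injEq, Prod.mk.injEq] at h1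
    have h2 : x a = x b := eq_of_heq h1.2
    refine hinj a b h2 ?_
    have h3 := h1.1.1
    rw [h2] at h3
    exact add_left_cancel h3
  refine ⟨Finite.of_injective Φ hΦ, ?_⟩
  calc Nat.card A ≤ Nat.card (Finset.sigma S r) := Nat.card_le_card_of_injective Φ hΦ
    _ = (Finset.sigma S r).card := by rw [Nat.card_eq_fintype_card, Fintype.card_coe]
    _ = ∑ s ∈ S, (r s).card := Finset.card_sigma _ _
    _ ≤ ∑ _s ∈ S, 2 := Finset.sum_le_sum fun s _ => hr s
    _ = 2 * S.card := by rw [Finset.sum_const, smul_eq_mul, mul_comm]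

/-- A diagonalisable subgroup which mostly consists of elements with trace and determinant in `S`
is small. -/
lemma card_le_of_diag (S : Finset (k × k)) (A : Subgroup (GL (Fin 2) k)) [Finite A]
    (P : GL (Fin 2) k) (hP : ∀ a ∈ A, ∃ x y : k,
      ((P * a * P⁻¹ : GL (Fin 2) k) : Matrix (Fin 2) (Fin 2) k) = !![x, 0; 0, y])
    (hbad : 2 * Nat.card {a : A // trdet (a : GL (Fin 2) k) ∉ S} ≤ Nat.card A) :
    Nat.card A ≤ 4 * S.card := by
  classical
  have : Fintype A := Fintype.ofFinite A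
  choose! x y hxy using hP
  have h1 : Nat.card {a : A // trdet (a : GL (Fin 2) k) ∈ S} ≤ 2 * S.card := by
    refine (card_diag_le S (fun a => x a.1) (fun a => y a.1) ?_ ?_).2
    · intro a b h1 h2
      have h3 : (P * (a.1 : GL (Fin 2) k) * P⁻¹ : GL (Fin 2) k) = P * b.1 * P⁻¹ := by
        apply Units.ext
        rw [hxy _ a.1.2, hxy _ b.1.2, h1, h2]
      apply Subtype.ext
      apply Subtype.ext
      exact mul_left_cancel (mul_right_cancel h3)
    · intro a
      have h3 := a.2
      rw [← trdet_conj P, trdet, hxy _ a.1.2, Matrix.trace_fin_two_of, Matrix.det_fin_two_of] at h3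
      simpa using h3
  have h2 : Nat.card A = Nat.card {a : A // trdet (a : GL (Fin 2) k) ∈ S} +
      Nat.card {a : A // trdet (a : GL (Fin 2) k) ∉ S} := by
    rw [Nat.card_eq_fintype_card, Nat.card_eq_fintype_card, Nat.card_eq_fintype_card,
      Fintype.card_subtype_compl, Nat.add_sub_cancel' (Fintype.card_subtype_le _)]
  omega

lemma trace_of_eigen {A : Matrix (Fin 2) (Fin 2) k} {v : Fin 2 → k} (hv : v ≠ 0) {c : k}
    (h : A.mulVec v = c • v) (hc : c ≠ 0) : A.trace = c + A.det * c⁻¹ := by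
  have h1 : (A - c • (1 : Matrix (Fin 2) (Fin 2) k)).det = 0 := by
    rw [← Matrix.exists_mulVec_eq_zero_iff]
    refine ⟨v, hv, ?_⟩
    rw [Matrix.sub_mulVec, h, Matrix.smul_mulVec, Matrix.one_mulVec, sub_self]
  rw [Matrix.det_fin_two] at h1
  simp only [Matrix.sub_apply, Matrix.smul_apply, Matrix.one_apply_eq, smul_eq_mul, mul_one,
    Matrix.one_apply_ne (show (0 : Fin 2) ≠ 1 by decide),
    Matrix.one_apply_ne (show (1 : Fin 2) ≠ 0 by decide), mul_zero, sub_zero] at h1
  rw [Matrix.trace_fin_two, Matrix.det_fin_two]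
  field_simp
  linear_combination -h1

end Group

section Bound

variable {N : ℕ} [NeZero N]

/-- Chebotarev: few elements of the image have trace and determinant outside the set of small
values. -/
theorem card_bad_le (hC : Chebotarev) (hR : RankinPrimes N) {c : ℝ} (hc : 0 < c) {ℓ : ℕ}
    {k : Type} [Field k] {t e : ℕ → k} {ρ : GQ →* GL (Fin 2) k} (hρ : Attached N ℓ t e ρ)
    (S : Set (k × k)) (hS : ∀ p : ℕ, p.Prime → ¬ p ∣ N → p ∉ badPrimes N c → (t p, e p) ∈ S) :
    (Nat.card {g : ρ.range // trdet (g : GL (Fin 2) k) ∉ S} : ℝ) ≤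
      ((systems N).card / c ^ 2) * Nat.card ρ.range := by
  have hfin : Finite ρ.range := finite_range_of_factors hρ.finiteLevel
  set C : Set ρ.range := {g | trdet (g : GL (Fin 2) k) ∉ S} with hCdef
  have h1 := hC ρ.range ρ.rangeRestrict ρ.rangeRestrict_surjective
    (factors_rangeRestrict hρ.finiteLevel) C (by
      intro g x hx
      change trdet ((g * x * g⁻¹ : ρ.range) : GL (Fin 2) k) ∉ S
      rw [Subgroup.coe_mul, Subgroup.coe_mul, Subgroup.coe_inv, trdet_conj]
      exact hx)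
  obtain ⟨C₀, hC₀⟩ := primeSum_badPrimes hR hc
  set F : Set ℕ := {p | p ∣ N ∨ p = ℓ} with hF
  have hFfin : F.Finite := by
    refine ((Nat.divisors N).finite_toSet.union (Set.finite_singleton ℓ)).subset ?_
    rintro p (hp | hp)
    · left; exact Nat.mem_divisors.mpr ⟨hp, NeZero.ne N⟩
    · right; exact hp
  have hsub : FrobSet ρ.rangeRestrict C ⊆ badPrimes N c ∪ F := by
    rintro p ⟨hp, A, hA, -, σ, hσ, hσC⟩
    by_cases hpF : p ∈ F
    · exact Or.inr hpF
    · left
      rw [hF, Set.mem_ofPred_eq, not_or] at hpF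
      by_contra hbad
      apply hσC
      have := hS p hp hpF.1 hbad
      rw [← hρ.trace p hp hpF.1 hpF.2 A hA σ hσ, ← hρ.det p hp hpF.1 hpF.2 A hA σ hσ] at this
      exact this
  have h2 := le_of_density (η := (systems N).card / c ^ 2) (C := C₀ + hFfin.toFinset.card) h1
    (fun s hs hs2 => by
      refine (primeSum_mono hsub hs).trans ((primeSum_union_le _ _ hs).trans ?_)
      have h3 := hC₀ s hs hs2
      have h4 := primeSum_le_card hFfin hs
      linarith)
  have hpos : (0 : ℝ) < Nat.card ρ.range := by exact_mod_cast Nat.card_pos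
  rw [div_le_iff₀ hpos] at h2
  exact h2

/-- Uniform bound for the exponent of the image. -/
theorem exists_attached_exponent (hC : Chebotarev) (hR : RankinPrimes N) (S₀ : ℕ)
    {c : ℝ} (hc : 0 < c) (hc2 : 24 * ((systems N).card : ℝ) ≤ c ^ 2)
    {ℓ : ℕ} (hℓ : ℓ.Prime) (hℓS : 2 * (S₀ + 1) < ℓ)
    {k : Type} [Field k] [CharP k ℓ] [IsAlgClosed k] {t e : ℕ → k}
    {ρ : GQ →* GL (Fin 2) k} (hρ : Attached N ℓ t e ρ) (S : Finset (k × k)) (hS₀ : S.card ≤ S₀)
    (hS : ∀ p : ℕ, p.Prime → ¬ p ∣ N → p ∉ badPrimes N c → (t p, e p) ∈ S) :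
    ∃ ρ' : GQ →* GL (Fin 2) k, Attached N ℓ t e ρ' ∧ ∀ σ, ρ' σ ^ (48 * S₀).factorial = 1 := by
  classical
  have hFact : Fact ℓ.Prime := ⟨hℓ⟩
  have hpow : ∀ (G : Subgroup (GL (Fin 2) k)) [Finite G] (m : ℕ), Nat.card G ≤ m →
      ∀ g ∈ G, g ^ m.factorial = 1 := by
    intro G _ m hm g hg
    have h1 : orderOf g ∣ Nat.card G := by
      have := orderOf_dvd_natCard (⟨g, hg⟩ : G)
      rwa [Subgroup.orderOf_mk] at this
    exact orderOf_dvd_iff_pow_eq_one.mp (h1.trans (Nat.dvd_factorial Nat.card_pos hm))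
  have hη : ∀ {ρ : GQ →* GL (Fin 2) k}, Attached N ℓ t e ρ →
      24 * Nat.card {g : ρ.range // trdet (g : GL (Fin 2) k) ∉ S} ≤ Nat.card ρ.range := by
    intro ρ hρ
    have h1 := card_bad_le hC hR hc hρ (S : Set (k × k)) hS
    have h2 : ((systems N).card / c ^ 2 : ℝ) ≤ 1 / 24 := by
      rw [div_le_div_iff₀ (by positivity) (by norm_num)]
      linarith
    have h3 : (24 * Nat.card {g : ρ.range // trdet (g : GL (Fin 2) k) ∉ (S : Set (k × k))} : ℝ) ≤
        Nat.card ρ.range := by
      have h4 : (0 : ℝ) ≤ Nat.card ρ.range := by positivity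
      nlinarith [mul_le_mul_of_nonneg_right h2 h4]
    exact_mod_cast h3
  by_cases hirr : ∀ v : Fin 2 → k, v ≠ 0 →
      ∃ g ∈ ρ.range, ∀ c : k, (g : Matrix (Fin 2) (Fin 2) k).mulVec v ≠ c • v
  · -- irreducible case
    have hfin : Finite ρ.range := finite_range_of_factors hρ.finiteLevel
    have hft : Fintype ρ.range := Fintype.ofFinite _
    have hbad := hη hρ
    have hcompl : Nat.card ρ.range = Nat.card {g : ρ.range // trdet (g : GL (Fin 2) k) ∈ S} +
        Nat.card {g : ρ.range // trdet (g : GL (Fin 2) k) ∉ S} := by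
      rw [Nat.card_eq_fintype_card, Nat.card_eq_fintype_card, Nat.card_eq_fintype_card,
        Fintype.card_subtype_compl, Nat.add_sub_cancel' (Fintype.card_subtype_le _)]
    have hpos : 0 < Nat.card ρ.range := Nat.card_pos
    refine ⟨ρ, hρ, fun σ => ?_⟩
    by_cases hdvd : ℓ ∣ Nat.card ρ.range
    · exfalso
      have h1 : Nat.card {g : ρ.range // trdet (g : GL (Fin 2) k) ∈ S} * ℓ ≤
          Nat.card ρ.range * (S₀ + 1) := card_le_of_dvd ρ.range hdvd hirr S₀ S hS₀
      have h2 : Nat.card ρ.range ≤ 2 * Nat.card {g : ρ.range // trdet (g : GL (Fin 2) k) ∈ S} := by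
        omega
      have h3 : Nat.card ρ.range * ℓ ≤ Nat.card ρ.range * (2 * (S₀ + 1)) := by
        calc Nat.card ρ.range * ℓ
            ≤ 2 * Nat.card {g : ρ.range // trdet (g : GL (Fin 2) k) ∈ S} * ℓ :=
              Nat.mul_le_mul_right _ h2
          _ = 2 * (Nat.card {g : ρ.range // trdet (g : GL (Fin 2) k) ∈ S} * ℓ) := by ring
          _ ≤ 2 * (Nat.card ρ.range * (S₀ + 1)) := Nat.mul_le_mul_left _ h1
          _ = Nat.card ρ.range * (2 * (S₀ + 1)) := by ring
      have h4 := Nat.le_of_mul_le_mul_left h3 hpos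
      omega
    · have hG : ((Nat.card ρ.range : ℕ) : k) ≠ 0 := by
        rw [Ne, CharP.cast_eq_zero_iff k ℓ]
        exact hdvd
      obtain ⟨A, hA, hcard, P, hP⟩ := exists_abelian ρ.range hG
      have hAfin : Finite A := Finite.of_injective (Subgroup.inclusion hA)
        (Subgroup.inclusion_injective hA)
      have h1 : Nat.card {a : A // trdet (a : GL (Fin 2) k) ∉ S} ≤
          Nat.card {g : ρ.range // trdet (g : GL (Fin 2) k) ∉ S} := by
        refine Nat.card_le_card_of_injective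
          (fun a => ⟨Subgroup.inclusion hA a.1, a.2⟩) ?_
        intro a b hab
        have := congrArg Subtype.val hab
        exact Subtype.ext (Subgroup.inclusion_injective hA this)
      have h2 := card_le_of_diag S A P hP (by omega)
      refine hpow ρ.range (48 * S₀) ?_ _ ⟨σ, rfl⟩
      omega
  · -- reducible case
    push Not at hirr
    obtain ⟨v, hv, hv'⟩ := hirr
    have hun : ∀ a b : k, a • v = b • v → a = b := fun a b hab => by
      obtain ⟨i, hi⟩ := Function.ne_iff.mp hv
      exact mul_right_cancel₀ hi (congrFun hab i)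
    choose! a ha using hv'
    let χ₀ : GQ →* k :=
      { toFun := fun σ => a (ρ σ)
        map_one' := by
          apply hun
          rw [← ha _ ⟨1, rfl⟩, map_one, Units.val_one, Matrix.one_mulVec, one_smul]
        map_mul' := fun σ τ => by
          apply hun
          rw [← ha _ ⟨σ * τ, rfl⟩, map_mul, Units.val_mul, ← Matrix.mulVec_mulVec, ha _ ⟨τ, rfl⟩,
            Matrix.mulVec_smul, ha _ ⟨σ, rfl⟩, smul_smul, mul_comm] }
    let χ : GQ →* kˣ := χ₀.toHomUnits
    have hχ : ∀ σ, ((χ σ : kˣ) : k) = a (ρ σ) := fun σ => rfl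
    let δ : GQ →* kˣ := (Matrix.GeneralLinearGroup.det).comp ρ
    have hδ : ∀ σ, ((δ σ : kˣ) : k) = ((ρ σ : GL (Fin 2) k) : Matrix (Fin 2) (Fin 2) k).det :=
      fun σ => rfl
    set ρ' : GQ →* GL (Fin 2) k := diagRep χ (δ * χ⁻¹) with hρ'
    have htr : ∀ σ, ((ρ' σ : GL (Fin 2) k) : Matrix (Fin 2) (Fin 2) k).trace =
        ((ρ σ : GL (Fin 2) k) : Matrix (Fin 2) (Fin 2) k).trace := by
      intro σ
      rw [hρ', diagRep_apply, Matrix.trace_diagonal, Fin.sum_univ_two,
        trace_of_eigen hv (ha _ ⟨σ, rfl⟩) (by rw [← hχ]; exact Units.ne_zero _), ← hδ, ← hχ]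
      simp
    have hdet : ∀ σ, ((ρ' σ : GL (Fin 2) k) : Matrix (Fin 2) (Fin 2) k).det =
        ((ρ σ : GL (Fin 2) k) : Matrix (Fin 2) (Fin 2) k).det := by
      intro σ
      rw [hρ', diagRep_apply, Matrix.det_diagonal, Fin.prod_univ_two, ← hδ]
      simp only [Matrix.cons_val_zero, Matrix.cons_val_one]
      rw [← Units.val_mul]
      congr 1
      rw [MonoidHom.mul_apply, MonoidHom.inv_apply, mul_comm, inv_mul_cancel_right]
    have hone : ∀ σ, ρ σ = 1 → ρ' σ = 1 := by
      intro σ hσ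
      have h1 : χ σ = 1 := by
        apply Units.ext
        apply hun
        rw [hχ, ← ha _ ⟨σ, rfl⟩, hσ, Units.val_one, Matrix.one_mulVec, Units.val_one, one_smul]
      have h2 : δ σ = 1 := by
        rw [MonoidHom.comp_apply, hσ, map_one]
      apply Units.ext
      rw [hρ', diagRep_apply, MonoidHom.mul_apply, MonoidHom.inv_apply, h1, h2]
      ext i j
      fin_cases i <;> fin_cases j <;> simp
    have hatt : Attached N ℓ t e ρ' := by
      refine ⟨?_, ?_, ?_, ?_⟩
      · obtain ⟨L, hL, h1⟩ := hρ.finiteLevel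
        exact ⟨L, hL, fun σ hσ => hone σ (h1 σ hσ)⟩
      · exact fun p hp hpN hpℓ A hA σ hσ => hone σ (hρ.inertia p hp hpN hpℓ A hA σ hσ)
      · exact fun p hp hpN hpℓ A hA σ hσ => (htr σ).trans (hρ.trace p hp hpN hpℓ A hA σ hσ)
      · exact fun p hp hpN hpℓ A hA σ hσ => (hdet σ).trans (hρ.det p hp hpN hpℓ A hA σ hσ)
    have hfin : Finite ρ'.range := finite_range_of_factors hatt.finiteLevel
    refine ⟨ρ', hatt, fun σ => ?_⟩
    have hbad := hη hatt
    have h2 := card_le_of_diag S ρ'.range 1 (by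
      rintro _ ⟨σ, rfl⟩
      refine ⟨((χ σ : kˣ) : k), (((δ * χ⁻¹) σ : kˣ) : k), ?_⟩
      rw [one_mul, inv_one, mul_one, hρ', diagRep_apply]
      ext i j
      fin_cases i <;> fin_cases j <;> simp) (by omega)
    refine hpow ρ'.range (48 * S₀) ?_ _ ⟨σ, rfl⟩
    omega

end Bound

end Fermat.Agent.DS

end
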