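import Fermat.Agent.DS.Large
import Fermat.Agent.DS.Cyclo
import Fermat.Agent.Frob.Charpoly

/-!
# Lifting to characteristic zero
-/

set_option autoImplicit false

open CongruenceSubgroup UpperHalfPlane ModularFormClass Filter Topology
open scoped MatrixGroups

noncomputable section

namespace Fermat.Agent.DS

/-- The ring of algebraic integers in `ℂ`. -/
abbrev ZB : Type := integralClosure ℤ ℂ

section Reduction

/-- A nonzero algebraic integer is nonzero modulo all large primes. -/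
theorem exists_bound_ne_zero (a : ZB) (ha : a ≠ 0) : ∃ m : ℕ, ∀ ℓ : ℕ, m < ℓ →
    ∀ (k : Type) [Field k] [CharP k ℓ] (φ : ZB →+* k), φ a ≠ 0 := by
  have hint : IsIntegral ℤ (a : ℂ) := a.2
  have ha' : (a : ℂ) ≠ 0 := fun h => ha (Subtype.ext h)
  have h0 : (minpoly ℤ (a : ℂ)).coeff 0 ≠ 0 := by
    intro h
    have h1 := minpoly.isIntegrallyClosed_eq_field_fractions' ℚ hint
    have h2 : (minpoly ℚ (a : ℂ)).coeff 0 = 0 := by
      rw [h1, Polynomial.coeff_map, h, map_zero]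
    exact minpoly.coeff_zero_ne_zero hint.tower_top ha' h2
  refine ⟨((minpoly ℤ (a : ℂ)).coeff 0).natAbs, fun ℓ hℓ k _ _ φ hφ => ?_⟩
  have h1 : (minpoly ℤ (a : ℂ)).eval₂ ((Int.castRingHom k)) (φ a) = 0 := by
    have h2' : Polynomial.aeval a (minpoly ℤ (a : ℂ)) = 0 := by
      apply Subtype.val_injective
      have h3 := Polynomial.aeval_algebraMap_apply ℂ a (minpoly ℤ (a : ℂ))
      have h4 := minpoly.aeval ℤ (a : ℂ)
      exact h3.symm.trans h4
    have h2 := congrArg φ h2'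
    rw [map_zero, Polynomial.aeval_def, Polynomial.hom_eval₂] at h2
    have h3 : φ.comp (algebraMap ℤ ZB) = Int.castRingHom k := RingHom.ext_int _ _
    rwa [h3] at h2
  rw [hφ, Polynomial.eval₂_at_zero] at h1
  have h2 : (((minpoly ℤ (a : ℂ)).coeff 0 : ℤ) : k) = 0 := h1
  rw [CharP.intCast_eq_zero_iff k ℓ] at h2
  have h3 := Int.natAbs_dvd_natAbs.mpr h2
  rw [Int.natAbs_natCast] at h3
  have h4 := Nat.le_of_dvd (Int.natAbs_pos.mpr h0) h3
  omega

/-- uniform version for a finite set. -/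
theorem exists_bound_ne_zero_finset (s : Set ZB) (hs : s.Finite) : ∃ m : ℕ, ∀ ℓ : ℕ, m < ℓ →
    ∀ (k : Type) [Field k] [CharP k ℓ] (φ : ZB →+* k), ∀ a ∈ s, φ a = 0 → a = 0 := by
  classical
  induction s, hs using Set.Finite.induction_on with
  | empty => exact ⟨0, fun _ _ _ _ _ _ a ha => absurd ha (Set.notMem_empty a)⟩
  | @insert a s _ _ ih =>
    obtain ⟨m, hm⟩ := ih
    by_cases ha : a = 0
    · refine ⟨m, fun ℓ hℓ k _ _ φ b hb hφ => ?_⟩
      rcases hb with rfl | hb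
      · exact ha
      · exact hm ℓ hℓ k φ b hb hφ
    · obtain ⟨m', hm'⟩ := exists_bound_ne_zero a ha
      refine ⟨max m m', fun ℓ hℓ k _ _ φ b hb hφ => ?_⟩
      rcases hb with rfl | hb
      · exact absurd hφ (hm' ℓ (lt_of_le_of_lt (le_max_right _ _) hℓ) k φ)
      · exact hm ℓ (lt_of_le_of_lt (le_max_left _ _) hℓ) k φ b hb hφ

/-- For every prime `ℓ` there is a reduction map to an algebraically closed field of
characteristic `ℓ`. -/
theorem exists_reduction (ℓ : ℕ) (hℓ : ℓ.Prime) :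
    ∃ (k : Type) (_ : Field k) (_ : CharP k ℓ) (_ : IsAlgClosed k), Nonempty (ZB →+* k) := by
  have hnu : ¬ IsUnit ((ℓ : ℕ) : ZB) := by
    rintro ⟨u, hu⟩
    have h1 : IsIntegral ℤ (((ℓ : ℚ)⁻¹ : ℚ)) := by
      have h2 : IsIntegral ℤ (algebraMap ℚ ℂ ((ℓ : ℚ)⁻¹)) := by
        have h3 : algebraMap ℚ ℂ ((ℓ : ℚ)⁻¹) = (((u⁻¹ : ZBˣ) : ZB) : ℂ) := by
          have h4 : ((ℓ : ℕ) : ℂ) * (((u⁻¹ : ZBˣ) : ZB) : ℂ) = 1 := by
            have h5 : (u : ZB) * ((u⁻¹ : ZBˣ) : ZB) = 1 := Units.mul_inv u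
            rw [hu] at h5
            have h6 := congrArg (Subtype.val : ZB → ℂ) h5
            simpa using h6
          rw [map_inv₀, map_natCast]
          exact inv_eq_of_mul_eq_one_right h4
        rw [h3]
        exact ((u⁻¹ : ZBˣ) : ZB).2
      exact (isIntegral_algebraMap_iff (algebraMap ℚ ℂ).injective).mp h2
    obtain ⟨m, hm⟩ := IsIntegrallyClosed.isIntegral_iff.mp h1
    have hℓ0 : (ℓ : ℚ) ≠ 0 := by exact_mod_cast hℓ.ne_zero
    have h2 : (m : ℚ) * ℓ = 1 := by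
      have h3 : (algebraMap ℤ ℚ m) = (ℓ : ℚ)⁻¹ := hm
      rw [show ((m : ℤ) : ℚ) = algebraMap ℤ ℚ m from rfl, h3, inv_mul_cancel₀ hℓ0]
    have h3 : m * (ℓ : ℤ) = 1 := by exact_mod_cast h2
    have h4 : (ℓ : ℤ) ∣ 1 := ⟨m, by rw [mul_comm]; exact h3.symm⟩
    have h5 := Int.natAbs_dvd_natAbs.mpr h4
    rw [Int.natAbs_natCast, Int.natAbs_one] at h5
    exact hℓ.one_lt.ne' (Nat.dvd_one.mp h5)
  obtain ⟨I, hI, hmem⟩ := exists_max_ideal_of_mem_nonunits hnu
  let : Field (ZB ⧸ I) := Ideal.Quotient.field I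
  have hchar : CharP (ZB ⧸ I) ℓ := by
    have h0 : ((ℓ : ℕ) : ZB ⧸ I) = 0 := by
      have := (Ideal.Quotient.eq_zero_iff_mem (I := I)).mpr hmem
      rwa [map_natCast] at this
    exact (CharP.charP_iff_prime_eq_zero hℓ).mpr h0
  refine ⟨AlgebraicClosure (ZB ⧸ I), inferInstance, ?_, inferInstance,
    ⟨(algebraMap (ZB ⧸ I) (AlgebraicClosure (ZB ⧸ I))).comp (Ideal.Quotient.mk I)⟩⟩
  exact charP_of_injective_algebraMap (algebraMap (ZB ⧸ I) (AlgebraicClosure (ZB ⧸ I))).injective ℓ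

end Reduction

section Lift

variable {E : ℕ} {k : Type} [Field k] (φ : ZB →+* k)

lemma exists_primitive_ZB (hE : 0 < E) : ∃ ζ : ZB, IsPrimitiveRoot ζ E := by
  have h1 := Complex.isPrimitiveRoot_exp E hE.ne'
  have hint : IsIntegral ℤ (Complex.exp (2 * Real.pi * Complex.I / E)) :=
    IsIntegral.of_pow hE (by rw [h1.pow_eq_one]; exact isIntegral_one)
  refine ⟨⟨_, hint⟩, ?_⟩
  exact IsPrimitiveRoot.of_map_of_injective (f := algebraMap ZB ℂ) h1 Subtype.val_injective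

lemma exists_lift_root (hE : 0 < E) (x : k) (hx : x ^ E = 1) : ∃ ζ : ZB, ζ ^ E = 1 ∧ φ ζ = x := by
  obtain ⟨ζ₀, hζ₀⟩ := exists_primitive_ZB hE
  have h1 := Polynomial.X_pow_sub_one_eq_prod hE hζ₀
  have h2 := congrArg (Polynomial.eval₂ φ x) h1
  rw [Polynomial.eval₂_sub, Polynomial.eval₂_pow, Polynomial.eval₂_X, Polynomial.eval₂_one, hx,
    sub_self, Polynomial.eval₂_finsetProd, eq_comm, Finset.prod_eq_zero_iff] at h2
  obtain ⟨ζ, hζ, h3⟩ := h2
  rw [Polynomial.mem_nthRootsFinset hE] at hζ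
  rw [Polynomial.eval₂_sub, Polynomial.eval₂_X, Polynomial.eval₂_C, sub_eq_zero] at h3
  exact ⟨ζ, hζ, h3.symm⟩

lemma pow_eq_one_of_root {g : GL (Fin 2) k} (hg : g ^ E = 1) {x : k}
    (hx : x * x - (g : Matrix (Fin 2) (Fin 2) k).trace * x +
      (g : Matrix (Fin 2) (Fin 2) k).det = 0) : x ^ E = 1 := by
  have h1 : ((g : Matrix (Fin 2) (Fin 2) k) - x • (1 : Matrix (Fin 2) (Fin 2) k)).det = 0 := by
    rw [Matrix.trace_fin_two, Matrix.det_fin_two] at hx
    rw [Matrix.det_fin_two]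
    simp only [Matrix.sub_apply, Matrix.smul_apply, Matrix.one_apply_eq, smul_eq_mul, mul_one,
      Matrix.one_apply_ne (show (0 : Fin 2) ≠ 1 by decide),
      Matrix.one_apply_ne (show (1 : Fin 2) ≠ 0 by decide), mul_zero, sub_zero]
    linear_combination hx
  obtain ⟨v, hv, hv'⟩ := Matrix.exists_mulVec_eq_zero_iff.mpr h1
  rw [Matrix.sub_mulVec, Matrix.smul_mulVec, Matrix.one_mulVec, sub_eq_zero] at hv'
  have h2 : ∀ n : ℕ, ((g ^ n : GL (Fin 2) k) : Matrix (Fin 2) (Fin 2) k).mulVec v = x ^ n • v := by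
    intro n
    induction n with
    | zero => rw [pow_zero, Units.val_one, Matrix.one_mulVec, pow_zero, one_smul]
    | succ n ih =>
      rw [pow_succ, Units.val_mul, ← Matrix.mulVec_mulVec, hv', Matrix.mulVec_smul, ih, smul_smul,
        pow_succ, mul_comm]
  have h3 := h2 E
  rw [hg, Units.val_one, Matrix.one_mulVec] at h3
  obtain ⟨i, hi⟩ := Function.ne_iff.mp hv
  have h4 := congrFun h3 i
  rw [Pi.smul_apply, smul_eq_mul] at h4
  exact (mul_right_cancel₀ hi (by rw [one_mul]; exact h4)).symm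

lemma exists_lift_pair [IsAlgClosed k] (hE : 0 < E) {g : GL (Fin 2) k} (hg : g ^ E = 1) :
    ∃ ζ ζ' : ZB, ζ ^ E = 1 ∧ ζ' ^ E = 1 ∧
      φ (ζ + ζ') = (g : Matrix (Fin 2) (Fin 2) k).trace ∧
      φ (ζ * ζ') = (g : Matrix (Fin 2) (Fin 2) k).det := by
  set t := (g : Matrix (Fin 2) (Fin 2) k).trace with ht
  set d := (g : Matrix (Fin 2) (Fin 2) k).det with hd
  obtain ⟨x, hx⟩ : ∃ x : k, x * x - t * x + d = 0 := by
    have hdeg : (Polynomial.C 1 * Polynomial.X ^ 2 + Polynomial.C (-t) * Polynomial.X +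
        Polynomial.C d : Polynomial k).degree ≠ 0 := by
      rw [Polynomial.degree_quadratic one_ne_zero]
      decide
    obtain ⟨x, hx⟩ := IsAlgClosed.exists_root _ hdeg
    refine ⟨x, ?_⟩
    simp only [Polynomial.IsRoot, Polynomial.eval_add, Polynomial.eval_mul, Polynomial.eval_pow,
      Polynomial.eval_X, Polynomial.eval_C] at hx
    linear_combination hx
  obtain ⟨ζ, h1, h2⟩ := exists_lift_root φ hE x (pow_eq_one_of_root hg hx)
  obtain ⟨ζ', h3, h4⟩ := exists_lift_root φ hE (t - x) (pow_eq_one_of_root hg (by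
    rw [← ht, ← hd]; linear_combination hx))
  refine ⟨ζ, ζ', h1, h3, ?_, ?_⟩
  · rw [map_add, h2, h4]; ring
  · rw [map_mul, h2, h4]; linear_combination -hx

/-- sums of at most four `E`-th roots of unity -/
def sums4 (E : ℕ) : Set ZB := {a | ∃ u : Fin 4 → ZB, (∀ i, u i = 0 ∨ u i ^ E = 1) ∧ a = ∑ i, u i}

lemma finite_sums4 (hE : 0 < E) : (sums4 E).Finite := by
  classical
  have h1 : {ζ : ZB | ζ = 0 ∨ ζ ^ E = 1}.Finite := by
    refine ((Set.finite_singleton (0 : ZB)).union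
      (Polynomial.nthRootsFinset E (1 : ZB)).finite_toSet).subset ?_
    rintro ζ (h | h)
    · exact Or.inl h
    · exact Or.inr ((Polynomial.mem_nthRootsFinset hE _).mpr h)
  have h2 : (Set.univ.pi fun _ : Fin 4 => {ζ : ZB | ζ = 0 ∨ ζ ^ E = 1}).Finite :=
    Set.Finite.pi fun _ => h1
  refine (h2.image fun u => ∑ i, u i).subset ?_
  rintro a ⟨u, hu, rfl⟩
  exact ⟨u, fun i _ => hu i, rfl⟩

lemma mem_sums4_one {ζ : ZB} (h : ζ ^ E = 1) : ζ ∈ sums4 E :=
  ⟨![ζ, 0, 0, 0], fun i => by fin_cases i <;> simp [h], by simp [Fin.sum_univ_four]⟩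

lemma mem_sums4_two {ζ ζ' : ZB} (h : ζ ^ E = 1) (h' : ζ' ^ E = 1) : ζ + ζ' ∈ sums4 E :=
  ⟨![ζ, ζ', 0, 0], fun i => by fin_cases i <;> simp [h, h'], by simp [Fin.sum_univ_four]⟩

lemma mem_sums4_four {a b c d : ZB} (ha : a ^ E = 1) (hb : b ^ E = 1) (hc : c ^ E = 1)
    (hd : d ^ E = 1) : a + b + c + d ∈ sums4 E :=
  ⟨![a, b, c, d], fun i => by fin_cases i <;> simp [ha, hb, hc, hd], by
    simp [Fin.sum_univ_four]⟩

lemma zero_mem_sums4 : (0 : ZB) ∈ sums4 E := ⟨0, fun i => Or.inl rfl, by simp⟩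

/-- for large `ℓ`, reduction is injective on `sums4` -/
lemma exists_bound_injOn (hE : 0 < E) : ∃ m : ℕ, ∀ ℓ : ℕ, m < ℓ →
    ∀ (k : Type) [Field k] [CharP k ℓ] (φ : ZB →+* k), Set.InjOn φ (sums4 E) := by
  obtain ⟨m, hm⟩ := exists_bound_ne_zero_finset (Set.image2 (· - ·) (sums4 E) (sums4 E))
    ((finite_sums4 hE).image2 _ (finite_sums4 hE))
  refine ⟨m, fun ℓ hℓ k _ _ φ a ha b hb hab => ?_⟩
  exact sub_eq_zero.mp (hm ℓ hℓ k φ _ ⟨a, ha, b, hb, rfl⟩ (by rw [map_sub, hab, sub_self]))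

lemma matrix_identity (g h : GL (Fin 2) k) :
    (g : Matrix (Fin 2) (Fin 2) k).trace * (h : Matrix (Fin 2) (Fin 2) k).trace =
      ((g * h : GL (Fin 2) k) : Matrix (Fin 2) (Fin 2) k).trace +
        (h : Matrix (Fin 2) (Fin 2) k).det *
          ((g * h⁻¹ : GL (Fin 2) k) : Matrix (Fin 2) (Fin 2) k).trace := by
  have hinv : ((h⁻¹ : GL (Fin 2) k) : Matrix (Fin 2) (Fin 2) k) =
      ((h : Matrix (Fin 2) (Fin 2) k).det)⁻¹ • (h : Matrix (Fin 2) (Fin 2) k).adjugate := by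
    rw [Matrix.coe_units_inv, Matrix.inv_def, Ring.inverse_eq_inv']
  have hd : (h : Matrix (Fin 2) (Fin 2) k).det ≠ 0 :=
    ((Matrix.isUnit_iff_isUnit_det _).mp h.isUnit).ne_zero
  rw [Units.val_mul, Units.val_mul, hinv, Matrix.mul_smul, Matrix.trace_smul, smul_eq_mul,
    mul_inv_cancel_left₀ hd, Matrix.adjugate_fin_two]
  simp only [Matrix.trace_fin_two, Matrix.mul_apply, Fin.sum_univ_two, Matrix.of_apply,
    Matrix.cons_val', Matrix.cons_val_zero, Matrix.cons_val_one, Matrix.cons_val_fin_one]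
  ring

theorem exists_lift [IsAlgClosed k] {N ℓ : ℕ} (hE : 0 < E) (hinj : Set.InjOn φ (sums4 E))
    {t e : ℕ → ZB} (ht : ∀ p : ℕ, p.Prime → ¬ p ∣ N → p ≠ ℓ → t p ∈ sums4 E)
    (he : ∀ p : ℕ, p.Prime → ¬ p ∣ N → p ≠ ℓ → e p ∈ sums4 E) {ρ : GQ →* GL (Fin 2) k}
    (hρ : Attached N ℓ (fun p => φ (t p)) (fun p => φ (e p)) ρ) (hρE : ∀ σ, ρ σ ^ E = 1)
    (hc : ((ρ complexConjugation : GL (Fin 2) k) : Matrix (Fin 2) (Fin 2) k).det = -1) :
    ∃ R : GQ →* GL (Fin 2) ℂ, Attached N ℓ (fun p => (t p : ℂ)) (fun p => (e p : ℂ)) R ∧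
      (∀ σ, (∀ g, ((R (g * σ) : GL (Fin 2) ℂ) : Matrix (Fin 2) (Fin 2) ℂ).trace =
        ((R g : GL (Fin 2) ℂ) : Matrix (Fin 2) (Fin 2) ℂ).trace) → R σ = 1) ∧
      ((R complexConjugation : GL (Fin 2) ℂ) : Matrix (Fin 2) (Fin 2) ℂ).det = -1 := by
  choose a b ha hb htr hdet using fun σ : GQ => exists_lift_pair φ hE (hρE σ)
  have hab : ∀ σ, (a σ * b σ) ^ E = 1 := fun σ => by rw [mul_pow, ha, hb, one_mul]
  have hTmem : ∀ σ, a σ + b σ ∈ sums4 E := fun σ => mem_sums4_two (ha σ) (hb σ)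
  have hDmem : ∀ σ, a σ * b σ ∈ sums4 E := fun σ => mem_sums4_one (hab σ)
  -- the determinant
  let D₀ : GQ →* ZB :=
    { toFun := fun σ => a σ * b σ
      map_one' := by
        apply hinj (hDmem 1) (mem_sums4_one (one_pow E))
        rw [hdet, map_one, map_one, Units.val_one, Matrix.det_one]
      map_mul' := fun σ τ => by
        apply hinj (hDmem _) (mem_sums4_one (by rw [mul_pow, hab, hab, one_mul]))
        rw [hdet, map_mul, map_mul, hdet, hdet, Units.val_mul, Matrix.det_mul] }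
  have hD₀ : ∀ σ, D₀ σ = a σ * b σ := fun σ => rfl
  let D : GQ →* ℂˣ := (((algebraMap ZB ℂ : ZB →+* ℂ) : ZB →* ℂ).comp D₀).toHomUnits
  have hD : ∀ σ, ((D σ : ℂˣ) : ℂ) = ((a σ * b σ : ZB) : ℂ) := fun σ => rfl
  let T : GQ → ℂ := fun σ => ((a σ + b σ : ZB) : ℂ)
  have hT1 : T 1 = 2 := by
    have h1 : a 1 + b 1 = 1 + 1 := by
      apply hinj (hTmem 1) (mem_sums4_two (one_pow E) (one_pow E))
      rw [htr, map_one, Units.val_one, Matrix.trace_one, map_add, map_one, Fintype.card_fin]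
      norm_num
    have h2 := congrArg (Subtype.val : ZB → ℂ) h1
    change ((a 1 + b 1 : ZB) : ℂ) = 2
    rw [h2]
    push_cast
    norm_num
  have hTmul : ∀ g h, T g * T h = T (g * h) + ((D h : ℂˣ) : ℂ) * T (g * h⁻¹) := by
    intro g h
    have h1 : (a g + b g) * (a h + b h) = (a (g * h) + b (g * h)) +
        (a h * b h) * (a (g * h⁻¹) + b (g * h⁻¹)) := by
      have e1 : (a g + b g) * (a h + b h) = a g * a h + a g * b h + b g * a h + b g * b h := by ring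
      have e2 : (a (g * h) + b (g * h)) + (a h * b h) * (a (g * h⁻¹) + b (g * h⁻¹)) =
          a (g * h) + b (g * h) + (a h * b h) * a (g * h⁻¹) + (a h * b h) * b (g * h⁻¹) := by ring
      have m1 : (a g + b g) * (a h + b h) ∈ sums4 E := by
        rw [e1]
        exact mem_sums4_four (by rw [mul_pow, ha, ha, one_mul]) (by rw [mul_pow, ha, hb, one_mul])
          (by rw [mul_pow, hb, ha, one_mul]) (by rw [mul_pow, hb, hb, one_mul])
      have m2 : (a (g * h) + b (g * h)) + (a h * b h) * (a (g * h⁻¹) + b (g * h⁻¹)) ∈ sums4 E := by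
        rw [e2]
        exact mem_sums4_four (ha _) (hb _) (by rw [mul_pow, hab, ha, one_mul])
          (by rw [mul_pow, hab, hb, one_mul])
      apply hinj m1 m2
      rw [map_mul, map_add φ (_ + _), map_mul φ (a h * b h), htr, htr, htr, htr, hdet, map_mul ρ,
        map_mul ρ, map_inv]
      exact matrix_identity _ _
    have h2 := congrArg (Subtype.val : ZB → ℂ) h1
    change ((a g + b g : ZB) : ℂ) * ((a h + b h : ZB) : ℂ) = ((a (g * h) + b (g * h) : ZB) : ℂ) +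
      ((a h * b h : ZB) : ℂ) * ((a (g * h⁻¹) + b (g * h⁻¹) : ZB) : ℂ)
    exact h2
  have hDc : ((D complexConjugation : ℂˣ) : ℂ) = -1 := by
    have h1 : a complexConjugation * b complexConjugation + 1 = 0 := by
      apply hinj (mem_sums4_two (hab _) (one_pow E)) zero_mem_sums4
      rw [map_add, hdet, hc, map_one, map_zero]
      ring
    have h2 : a complexConjugation * b complexConjugation = -1 := by linear_combination h1
    rw [hD, h2]
    rfl
  obtain ⟨R, hR1, hR2, hR3⟩ := exists_rep_of_pseudo (two_ne_zero : (2 : ℂ) ≠ 0) T D hT1 hTmul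
    complexConjugation complexConjugation_mul_self hDc
  have hone : ∀ σ, ρ σ = 1 → R σ = 1 := by
    intro σ hσ
    apply hR3
    intro g
    have h1 : a (g * σ) + b (g * σ) = a g + b g := by
      apply hinj (hTmem _) (hTmem _)
      rw [htr, htr, map_mul, hσ, mul_one]
    change ((a (g * σ) + b (g * σ) : ZB) : ℂ) = ((a g + b g : ZB) : ℂ)
    rw [h1]
  refine ⟨R, ⟨?_, ?_, ?_, ?_⟩, ?_, ?_⟩
  · obtain ⟨L, hL, h1⟩ := hρ.finiteLevel
    exact ⟨L, hL, fun σ hσ => hone σ (h1 σ hσ)⟩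
  · exact fun p hp hpN hpℓ A hA σ hσ => hone σ (hρ.inertia p hp hpN hpℓ A hA σ hσ)
  · intro p hp hpN hpℓ A hA σ hσ
    rw [hR1]
    have h1 : a σ + b σ = t p := by
      apply hinj (hTmem _) (ht p hp hpN hpℓ)
      rw [htr]
      exact hρ.trace p hp hpN hpℓ A hA σ hσ
    change ((a σ + b σ : ZB) : ℂ) = (t p : ℂ)
    rw [h1]
  · intro p hp hpN hpℓ A hA σ hσ
    rw [hR2, hD]
    have h1 : a σ * b σ = e p := by
      apply hinj (hDmem _) (he p hp hpN hpℓ)
      rw [hdet]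
      exact hρ.det p hp hpN hpℓ A hA σ hσ
    rw [h1]
  · intro σ hσ
    apply hR3
    intro g
    rw [← hR1, ← hR1]
    exact hσ g
  · rw [hR2]
    exact hDc

end Lift

end Fermat.Agent.DS

end
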