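import Fermat.Agent.DS.Values

/-!
# Dirichlet densities; primes at which some eigenvalue is large
-/

set_option autoImplicit false

open CongruenceSubgroup UpperHalfPlane ModularFormClass Filter Topology
open scoped MatrixGroups

noncomputable section

namespace Fermat.Agent.DS

section PrimeSum

open Classical in
lemma summable_primeSum (S : Set ℕ) {s : ℝ} (hs : 1 < s) :
    Summable (fun p : ℕ => if p.Prime ∧ p ∈ S then (p : ℝ) ^ (-s) else 0) := by
  refine Summable.of_nonneg_of_le (fun p => ?_) (fun p => ?_)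
    (Real.summable_nat_rpow (p := -s) |>.mpr (by linarith))
  · split_ifs
    · positivity
    · exact le_rfl
  · split_ifs
    · exact le_rfl
    · positivity

lemma primeSum_nonneg (S : Set ℕ) (s : ℝ) : 0 ≤ primeSum S s := by
  refine tsum_nonneg fun p => ?_
  split_ifs
  · positivity
  · exact le_rfl

lemma primeSum_mono {S T : Set ℕ} (h : S ⊆ T) {s : ℝ} (hs : 1 < s) :
    primeSum S s ≤ primeSum T s := by
  classical
  refine Summable.tsum_le_tsum (fun p => ?_) (summable_primeSum S hs) (summable_primeSum T hs)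
  by_cases h1 : p.Prime ∧ p ∈ S
  · rw [if_pos h1, if_pos ⟨h1.1, h h1.2⟩]
  · rw [if_neg h1]
    split_ifs
    · positivity
    · exact le_rfl

lemma primeSum_union_le (S T : Set ℕ) {s : ℝ} (hs : 1 < s) :
    primeSum (S ∪ T) s ≤ primeSum S s + primeSum T s := by
  classical
  rw [primeSum, primeSum, primeSum, ← (summable_primeSum S hs).tsum_add (summable_primeSum T hs)]
  refine Summable.tsum_le_tsum (fun p => ?_) (summable_primeSum _ hs)
    ((summable_primeSum S hs).add (summable_primeSum T hs))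
  have hp : (0 : ℝ) ≤ (p : ℝ) ^ (-s) := by positivity
  by_cases h1 : p.Prime ∧ p ∈ S ∪ T
  · rw [if_pos h1]
    rcases h1.2 with h2 | h2
    · rw [if_pos ⟨h1.1, h2⟩]
      split_ifs <;> linarith
    · rw [if_pos (show p.Prime ∧ p ∈ T from ⟨h1.1, h2⟩)]
      split_ifs <;> linarith
  · rw [if_neg h1]
    split_ifs <;> linarith

lemma primeSum_le_card {S : Set ℕ} (hS : S.Finite) {s : ℝ} (hs : 1 < s) :
    primeSum S s ≤ hS.toFinset.card := by
  classical
  rw [primeSum, tsum_eq_sum (s := hS.toFinset)]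
  · calc ∑ p ∈ hS.toFinset, (if p.Prime ∧ p ∈ S then (p : ℝ) ^ (-s) else 0)
        ≤ ∑ p ∈ hS.toFinset, (1 : ℝ) := by
          refine Finset.sum_le_sum fun p _ => ?_
          split_ifs with h
          · have h1 : (1 : ℝ) ≤ p := by exact_mod_cast h.1.one_lt.le
            exact Real.rpow_le_one_of_one_le_of_nonpos h1 (by linarith)
          · exact zero_le_one
      _ = hS.toFinset.card := by simp
  · intro p hp
    rw [if_neg]
    rintro ⟨-, h⟩
    exact hp (hS.mem_toFinset.mpr h)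

lemma tendsto_log_atTop : Tendsto (fun s : ℝ => Real.log (1 / (s - 1))) (𝓝[>] 1) atTop := by
  refine Real.tendsto_log_atTop.comp ?_
  have h1 : Tendsto (fun s : ℝ => s - 1) (𝓝[>] 1) (𝓝[>] 0) := by
    refine tendsto_nhdsWithin_iff.mpr ⟨?_, ?_⟩
    · have : Tendsto (fun s : ℝ => s - 1) (𝓝 1) (𝓝 (1 - 1)) :=
        (continuous_id.sub continuous_const).tendsto 1
      rw [sub_self] at this
      exact this.mono_left nhdsWithin_le_nhds
    · filter_upwards [self_mem_nhdsWithin] with s hs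
      simpa using hs
  have h2 := tendsto_inv_nhdsGT_zero.comp h1
  refine h2.congr fun s => ?_
  simp [one_div]

/-- Upper bounds for Dirichlet densities. -/
lemma le_of_density {F : ℝ → ℝ} {d η C : ℝ}
    (h : Tendsto (fun s => F s / Real.log (1 / (s - 1))) (𝓝[>] 1) (𝓝 d))
    (hb : ∀ s, 1 < s → s ≤ 2 → F s ≤ η * Real.log (1 / (s - 1)) + C) : d ≤ η := by
  have h1 : Tendsto (fun s : ℝ => η + C / Real.log (1 / (s - 1))) (𝓝[>] 1) (𝓝 (η + 0)) :=
    tendsto_const_nhds.add (tendsto_const_nhds.div_atTop tendsto_log_atTop)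
  rw [add_zero] at h1
  refine le_of_tendsto_of_tendsto h h1 ?_
  have h2 : ∀ᶠ s : ℝ in 𝓝[>] 1, s ≤ 2 := by
    have : Set.Ioc (1 : ℝ) 2 ∈ 𝓝[>] (1 : ℝ) := Ioc_mem_nhdsGT (by norm_num)
    filter_upwards [this] with s hs using hs.2
  filter_upwards [self_mem_nhdsWithin, h2, tendsto_log_atTop.eventually_gt_atTop 0]
    with s hs1 hs2 hs3
  have h4 := hb s hs1 hs2
  have h5 : η + C / Real.log (1 / (s - 1)) =
      (η * Real.log (1 / (s - 1)) + C) / Real.log (1 / (s - 1)) := by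
    field_simp
  rw [h5]
  exact div_le_div_of_nonneg_right h4 hs3.le

end PrimeSum

/-- The Rankin bound for the primes. -/
def RankinPrimes (N : ℕ) [NeZero N] : Prop :=
  ∀ (ε : DirichletCharacter ℂ N) (f : CuspForm (Gamma1 N) 1), WtOneEigen N ε f →
    ∃ C : ℝ, ∀ s : ℝ, 1 < s → s ≤ 2 →
      Summable (fun p : ℕ => if p.Prime ∧ ¬ p ∣ N then
        ‖ModularFormClass.qCoeff f p‖ ^ 2 * (p : ℝ) ^ (-s) else 0) ∧
      ∑' p : ℕ, (if p.Prime ∧ ¬ p ∣ N then
        ‖ModularFormClass.qCoeff f p‖ ^ 2 * (p : ℝ) ^ (-s) else 0) ≤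
          Real.log (1 / (s - 1)) + C

/-- primes at which some eigenvalue is larger than `c` -/
def badPrimes (N : ℕ) [NeZero N] (c : ℝ) : Set ℕ :=
  {p | p.Prime ∧ ¬ p ∣ N ∧ ∃ x ∈ systems N, c < ‖x.2 p‖}

theorem primeSum_badPrimes {N : ℕ} [NeZero N] (hR : RankinPrimes N) {c : ℝ} (hc : 0 < c) :
    ∃ C : ℝ, ∀ s : ℝ, 1 < s → s ≤ 2 →
      primeSum (badPrimes N c) s ≤
        ((systems N).card / c ^ 2) * Real.log (1 / (s - 1)) + C := by
  classical
  have h0 : ∀ x ∈ systems N, ∃ C : ℝ, ∀ s : ℝ, 1 < s → s ≤ 2 →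
      Summable (fun p : ℕ => ‖x.2 p‖ ^ 2 * (p : ℝ) ^ (-s)) ∧
      ∑' p : ℕ, ‖x.2 p‖ ^ 2 * (p : ℝ) ^ (-s) ≤ Real.log (1 / (s - 1)) + C := by
    intro x hx
    obtain ⟨f, hf, ht⟩ := (mem_systems N).mp hx
    obtain ⟨C, hC⟩ := hR x.1 f hf
    refine ⟨C, fun s hs hs2 => ?_⟩
    have : (fun p : ℕ => ‖x.2 p‖ ^ 2 * (p : ℝ) ^ (-s)) = fun p : ℕ => if p.Prime ∧ ¬ p ∣ N then
        ‖ModularFormClass.qCoeff f p‖ ^ 2 * (p : ℝ) ^ (-s) else 0 := by
      funext p
      rw [ht p]
      split_ifs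
      · rfl
      · simp
    rw [this]
    exact hC s hs hs2
  choose! C hC using h0
  refine ⟨(∑ x ∈ systems N, C x) / c ^ 2, fun s hs hs2 => ?_⟩
  have hc2 : 0 < c ^ 2 := by positivity
  have hsum : Summable (fun p : ℕ => ∑ x ∈ systems N, ‖x.2 p‖ ^ 2 * (p : ℝ) ^ (-s)) :=
    summable_sum fun x hx => (hC x hx s hs hs2).1
  calc primeSum (badPrimes N c) s
      ≤ ∑' p : ℕ, (∑ x ∈ systems N, ‖x.2 p‖ ^ 2 * (p : ℝ) ^ (-s)) / c ^ 2 := by
        refine Summable.tsum_le_tsum (fun p => ?_) (summable_primeSum _ hs) (hsum.div_const _)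
        have hp : (0 : ℝ) ≤ (p : ℝ) ^ (-s) := by positivity
        have hnn : ∀ x ∈ systems N, 0 ≤ ‖x.2 p‖ ^ 2 * (p : ℝ) ^ (-s) := fun x _ => by positivity
        split_ifs with h
        · obtain ⟨-, -, -, x, hx, hxc⟩ := h
          rw [le_div_iff₀ hc2, mul_comm]
          refine le_trans ?_ (Finset.single_le_sum hnn hx)
          refine mul_le_mul_of_nonneg_right ?_ hp
          exact pow_le_pow_left₀ hc.le hxc.le 2
        · exact div_nonneg (Finset.sum_nonneg hnn) hc2.le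
    _ = (∑ x ∈ systems N, ∑' p : ℕ, ‖x.2 p‖ ^ 2 * (p : ℝ) ^ (-s)) / c ^ 2 := by
        rw [tsum_div_const, Summable.tsum_finsetSum fun x hx => (hC x hx s hs hs2).1]
    _ ≤ (∑ x ∈ systems N, (Real.log (1 / (s - 1)) + C x)) / c ^ 2 := by
        gcongr with x hx
        exact (hC x hx s hs hs2).2
    _ = _ := by
        rw [Finset.sum_add_distrib, Finset.sum_const, nsmul_eq_mul]
        ring

end Fermat.Agent.DS

end
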