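import Fermat.Agent.DS.Wt1Form

/-!
# The Teichmüller character and a weight one form congruent to one
-/

set_option autoImplicit false

open UpperHalfPlane ModularForm EisensteinSeries Matrix.SpecialLinearGroup Filter Topology
  CongruenceSubgroup
open scoped MatrixGroups Manifold ModularForm Nat

noncomputable section

namespace Fermat.Agent.DSEis

section teich

variable {k : Type*} [Field k] {l : ℕ} [Fact l.Prime] [CharP k l]
  (ph : integralClosure ℤ ℂ →+* k)

/-- `ph` on roots of unity of order `n` prime to `l` is injective. -/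
lemma phi_injOn {n : ℕ} (hn : (n : k) ≠ 0) {x : integralClosure ℤ ℂ} (hx : x ^ n = 1)
    (h : ph x = 1) : x = 1 := by
  by_contra hne
  have h1 : (x - 1) * ∑ j ∈ Finset.range n, x ^ j = 0 := by
    rw [mul_comm, geom_sum_mul, hx, sub_self]
  have h2 : ∑ j ∈ Finset.range n, x ^ j = 0 :=
    (mul_eq_zero.mp h1).resolve_left (sub_ne_zero.mpr hne)
  have h3 := congrArg ph h2
  rw [map_sum, map_zero] at h3
  simp [h] at h3
  exact hn h3

/-- primitive `n`-th roots of unity exist in the ring of algebraic integers -/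
lemma exists_primitive (n : ℕ) [NeZero n] : ∃ ζ : integralClosure ℤ ℂ, IsPrimitiveRoot ζ n := by
  have h := Complex.isPrimitiveRoot_exp n (NeZero.ne n)
  refine ⟨⟨_, h.isIntegral (NeZero.pos n)⟩, ?_⟩
  exact IsPrimitiveRoot.coe_submonoidClass_iff.mp h

/-- **Teichmüller lift**: every nonzero element of the prime field lifts to a root of unity. -/
theorem exists_teich (a : (ZMod l)ˣ) :
    ∃ x : integralClosure ℤ ℂ, x ^ (l - 1) = 1 ∧ ph x = ZMod.castHom (dvd_refl l) k (a : ZMod l) := by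
  have hl := (Fact.out : l.Prime)
  have : NeZero (l - 1) := ⟨by have := hl.two_le; omega⟩
  have hn : ((l - 1 : ℕ) : k) ≠ 0 := by
    rw [Nat.cast_sub hl.one_le, CharP.cast_eq_zero]
    simp
  obtain ⟨ζ, hζ⟩ := exists_primitive (l - 1)
  have h1 : IsPrimitiveRoot (ph ζ) (l - 1) := by
    refine IsPrimitiveRoot.mk_of_lt _ (NeZero.pos _) ?_ ?_
    · rw [← map_pow, hζ.pow_eq_one, map_one]
    · intro i hi hil h
      rw [← map_pow] at h
      have h2 := phi_injOn ph hn (x := ζ ^ i) (by rw [← pow_mul, mul_comm, pow_mul, hζ.pow_eq_one,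
        one_pow]) h
      exact hζ.pow_ne_one_of_pos_of_lt hi.ne' hil h2
  have h3 : (ZMod.castHom (dvd_refl l) k (a : ZMod l)) ^ (l - 1) = 1 := by
    rw [← map_pow, ← Units.val_pow_eq_pow_val, ZMod.units_pow_card_sub_one_eq_one]
    simp
  obtain ⟨i, -, hi⟩ := h1.eq_pow_of_pow_eq_one h3
  refine ⟨ζ ^ i, ?_, ?_⟩
  · rw [← pow_mul, mul_comm, pow_mul, hζ.pow_eq_one, one_pow]
  · rw [map_pow, hi]

/-- the Teichmüller character, as a function -/
def teichFun (a : (ZMod l)ˣ) : integralClosure ℤ ℂ := (exists_teich ph a).choose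

lemma teichFun_pow (a : (ZMod l)ˣ) : teichFun ph a ^ (l - 1) = 1 := (exists_teich ph a).choose_spec.1

lemma phi_teichFun (a : (ZMod l)ˣ) :
    ph (teichFun ph a) = ZMod.castHom (dvd_refl l) k (a : ZMod l) := (exists_teich ph a).choose_spec.2

lemma cast_pred_ne_zero : ((l - 1 : ℕ) : k) ≠ 0 := by
  have hl := (Fact.out : l.Prime)
  rw [Nat.cast_sub hl.one_le, CharP.cast_eq_zero]
  simp

lemma teich_unique {x y : integralClosure ℤ ℂ} (hx : x ^ (l - 1) = 1) (hy : y ^ (l - 1) = 1)
    (h : ph x = ph y) : x = y := by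
  have hl := (Fact.out : l.Prime)
  have hl1 : l - 1 ≠ 0 := by have := hl.two_le; omega
  have hy' : y * y ^ (l - 2) = 1 := by
    rw [← pow_succ']
    convert hy using 2
    have := hl.two_le; omega
  have h1 : x * y ^ (l - 2) = 1 := by
    refine phi_injOn ph (n := l - 1) cast_pred_ne_zero ?_ ?_
    · rw [mul_pow, hx, one_mul, ← pow_mul, mul_comm (l - 2), pow_mul, hy, one_pow]
    · rw [map_mul, h, ← map_mul, hy', map_one]
  calc x = x * (y * y ^ (l - 2)) := by rw [hy', mul_one]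
    _ = y * (x * y ^ (l - 2)) := by ring
    _ = y := by rw [h1, mul_one]

lemma teichFun_one : teichFun ph (1 : (ZMod l)ˣ) = 1 := by
  refine teich_unique ph (l := l) (teichFun_pow ph 1) (one_pow _) ?_
  rw [phi_teichFun]
  simp

lemma teichFun_mul (a b : (ZMod l)ˣ) : teichFun ph (a * b) = teichFun ph a * teichFun ph b := by
  refine teich_unique ph (l := l) (teichFun_pow ph _) ?_ ?_
  · rw [mul_pow, teichFun_pow, teichFun_pow, mul_one]
  · rw [map_mul, phi_teichFun, phi_teichFun, phi_teichFun, ← map_mul, Units.val_mul]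

/-- **the Teichmüller character** `(ZMod l)ˣ → Z̄` -/
def teich : (ZMod l)ˣ →* integralClosure ℤ ℂ where
  toFun := teichFun ph
  map_one' := teichFun_one ph
  map_mul' := teichFun_mul ph

lemma ph_teich (a : (ZMod l)ˣ) : ph (teich ph a) = ZMod.castHom (dvd_refl l) k (a : ZMod l) :=
  phi_teichFun ph a

lemma teich_mul_inv (a : (ZMod l)ˣ) : teich ph a * teich ph a⁻¹ = 1 := by
  rw [← map_mul, mul_inv_cancel, map_one]

/-- `ω⁻¹` extended by zero -/
def omegaInv (a : ZMod l) : integralClosure ℤ ℂ := if h : IsUnit a then teich ph (h.unit)⁻¹ else 0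

lemma omegaInv_zero : omegaInv ph (0 : ZMod l) = 0 := by
  rw [omegaInv, dif_neg]
  simp

lemma omegaInv_unit (a : (ZMod l)ˣ) : omegaInv ph (a : ZMod l) = teich ph a⁻¹ := by
  rw [omegaInv, dif_pos a.isUnit]
  congr
  simp

lemma omegaInv_mul (a b : ZMod l) : omegaInv ph (a * b) = omegaInv ph a * omegaInv ph b := by
  by_cases ha : a = 0
  · simp [ha, omegaInv_zero]
  by_cases hb : b = 0
  · simp [hb, omegaInv_zero]
  obtain ⟨u, rfl⟩ := (isUnit_iff_ne_zero.mpr ha)
  obtain ⟨v, rfl⟩ := (isUnit_iff_ne_zero.mpr hb)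
  rw [← Units.val_mul, omegaInv_unit, omegaInv_unit, omegaInv_unit, mul_inv, map_mul]

lemma ph_omegaInv_mul {a : ZMod l} (ha : a ≠ 0) :
    (a.val : k) * ph (omegaInv ph a) = 1 := by
  obtain ⟨u, rfl⟩ := (isUnit_iff_ne_zero.mpr ha)
  rw [omegaInv_unit, ph_teich]
  have : ((u : ZMod l).val : k) = ZMod.castHom (dvd_refl l) k (u : ZMod l) := by
    rw [ZMod.castHom_apply, ZMod.cast_eq_val]
  rw [this, ← map_mul, ← Units.val_mul, mul_inv_cancel]
  simp

lemma sum_omegaInv (hl3 : 3 ≤ l) : ∑ a : ZMod l, omegaInv ph a = 0 := by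
  obtain ⟨u, hu⟩ : ∃ u : (ZMod l)ˣ, omegaInv ph (u : ZMod l) ≠ 1 := by
    have h2 : IsUnit (2 : ZMod l) := by
      rw [isUnit_iff_ne_zero]
      intro h
      have h' : ((2 : ℕ) : ZMod l) = 0 := by exact_mod_cast h
      rw [ZMod.natCast_eq_zero_iff] at h'
      have := Nat.le_of_dvd (by norm_num) h'
      omega
    refine ⟨h2.unit, fun h => ?_⟩
    have h3 := ph_omegaInv_mul ph (a := (2 : ZMod l)) h2.ne_zero
    rw [IsUnit.unit_spec] at h
    rw [h, map_one, mul_one] at h3
    have h4 : (2 : ZMod l).val = 2 := by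
      have : ((2 : ℕ) : ZMod l).val = 2 := ZMod.val_natCast_of_lt (by omega)
      exact_mod_cast this
    rw [h4] at h3
    have h5 : (1 : k) = 0 := by
      push_cast at h3
      linear_combination h3
    exact one_ne_zero h5
  have h1 : ∑ a : ZMod l, omegaInv ph ((u : ZMod l) * a) = ∑ a : ZMod l, omegaInv ph a :=
    Equiv.sum_comp (Units.mulLeft u) (fun a => omegaInv ph a)
  simp_rw [omegaInv_mul] at h1
  rw [← Finset.mul_sum] at h1
  have h2 : (omegaInv ph (u : ZMod l) - 1) * ∑ a : ZMod l, omegaInv ph a = 0 := by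
    rw [sub_mul, h1, one_mul, sub_self]
  exact (mul_eq_zero.mp h2).resolve_left (sub_ne_zero.mpr hu)

/-- the coefficients of the Eisenstein series `E_ω` -/
def omCoeff (n : ℕ) : integralClosure ℤ ℂ :=
  if n = 0 then -∑ a : ZMod l, (a.val : integralClosure ℤ ℂ) * omegaInv ph a else
    l * ∑ x ∈ n.divisorsAntidiagonal,
      (omegaInv ph (x.1 : ZMod l) - omegaInv ph (-(x.1 : ZMod l)))

lemma ph_omCoeff_zero : ph (omCoeff (l := l) ph 0) = 1 := by
  rw [omCoeff, if_pos rfl, map_neg, map_sum]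
  have h1 : ∀ a : ZMod l, ph ((a.val : integralClosure ℤ ℂ) * omegaInv ph a) =
      if a = 0 then 0 else 1 := by
    intro a
    by_cases ha : a = 0
    · simp [ha]
    · rw [if_neg ha, map_mul, map_natCast, ph_omegaInv_mul ph ha]
  rw [Finset.sum_congr rfl fun a _ => h1 a, Finset.sum_ite]
  have hl := (Fact.out : l.Prime)
  have h2 : (Finset.univ.filter fun a : ZMod l => ¬ a = 0).card = l - 1 := by
    rw [Finset.filter_not, Finset.card_sdiff_of_subset (Finset.filter_subset _ _)]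
    simp [Finset.filter_eq', ZMod.card]
  simp only [Finset.sum_const_zero, Finset.sum_const, h2, zero_add, nsmul_eq_mul, mul_one]
  rw [Nat.cast_sub hl.one_le, CharP.cast_eq_zero]
  simp

lemma ph_omCoeff_pos {n : ℕ} (hn : n ≠ 0) : ph (omCoeff (l := l) ph n) = 0 := by
  rw [omCoeff, if_neg hn, map_mul, map_natCast, CharP.cast_eq_zero, zero_mul]

/-- **The Eisenstein series `E_ω`** of weight one and character `ω⁻¹` on `Γ₁(l)`. -/
def Eomega : ModularForm (Gamma1 l : Subgroup (GL (Fin 2) ℝ)) 1 :=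
  wt1 (fun a : ZMod l => (omegaInv ph a : ℂ))

theorem coeff_Eomega (hl3 : 3 ≤ l) (n : ℕ) :
    (qExpansion 1 (Eomega (l := l) ph)).coeff n = (omCoeff (l := l) ph n : ℂ) := by
  by_cases hn : n = 0
  · subst hn
    rw [Eomega, coef_wt1_zero _ (by simp [omegaInv_zero]), omCoeff, if_pos rfl]
    have h1 : ∑ a : ZMod l, (omegaInv ph a : ℂ) = 0 := by
      have := congrArg (fun x : integralClosure ℤ ℂ => (x : ℂ)) (sum_omegaInv (l := l) ph hl3)
      simpa using this
    rw [h1]
    simp [-ZMod.natCast_val]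
  · rw [Eomega, coef_wt1_pos _ hn, omCoeff, if_neg hn, divSum]
    push_cast
    congr 1
    refine Finset.sum_congr rfl fun x _ => ?_
    rw [psiPM]
    simp
    ring

theorem Eomega_slash {γ : SL(2, ℤ)} (hγ : γ ∈ Gamma0 l) :
    (Eomega (l := l) ph : ℍ → ℂ) ∣[(1 : ℤ)] γ =
      (omegaInv ph ((γ 1 1 : ℤ) : ZMod l) : ℂ) • (Eomega (l := l) ph : ℍ → ℂ) := by
  rw [Eomega, wt1_slash _ hγ]
  ext τ
  rw [Pi.smul_apply, coe_wt1, coe_wt1, smul_eq_mul, Finset.mul_sum]
  refine Finset.sum_congr rfl fun b _ => ?_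
  by_cases hb : b ≠ 0
  · rw [if_pos hb, if_pos hb, fcoef, fcoef]
    have : ZMod.dft (fun a : ZMod l => (omegaInv ph (((γ 1 1 : ℤ) : ZMod l) * a) : ℂ)) b =
        (omegaInv ph ((γ 1 1 : ℤ) : ZMod l) : ℂ) *
          ZMod.dft (fun a : ZMod l => (omegaInv ph a : ℂ)) b := by
      rw [ZMod.dft_apply, ZMod.dft_apply, Finset.mul_sum]
      refine Finset.sum_congr rfl fun a _ => ?_
      rw [omegaInv_mul]
      push_cast
      simp only [smul_eq_mul]
      ring
    rw [this]
    ring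
  · rw [if_neg hb, if_neg hb, mul_zero]

end teich

end Fermat.Agent.DSEis
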