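import Fermat.Agent.DS.Integral

/-!
# Finiteness of the set of eigenvalues outside a set of primes of small density
-/

set_option autoImplicit false

open CongruenceSubgroup UpperHalfPlane ModularFormClass Polynomial
open scoped MatrixGroups

noncomputable section

namespace Fermat.Agent.DS

variable {N : ℕ} [NeZero N]

/-- The polynomial whose roots are the eigenvalues at `p` of all systems. -/
def sysPoly (N : ℕ) [NeZero N] (p : ℕ) : ℂ[X] := ∏ x ∈ systems N, (X - C (x.2 p))

lemma sysPoly_monic (p : ℕ) : (sysPoly N p).Monic := monic_prod_X_sub_C _ _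

lemma sysPoly_natDegree (p : ℕ) : (sysPoly N p).natDegree = (systems N).card := by
  rw [sysPoly, natDegree_prod_of_monic _ _ fun i _ => monic_X_sub_C _]
  simp

/-- conjugation of systems -/
def conjSys (σ : ℂ →+* ℂ) (x : DirichletCharacter ℂ N × (ℕ → ℂ)) :
    DirichletCharacter ℂ N × (ℕ → ℂ) := (x.1.ringHomComp σ, fun p => σ (x.2 p))

lemma conjSys_injective (σ : ℂ →+* ℂ) : Function.Injective (conjSys (N := N) σ) := by
  rintro ⟨a, b⟩ ⟨a', b'⟩ h
  have h1 := (Prod.ext_iff.mp h).1
  have h2 := (Prod.ext_iff.mp h).2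
  simp only [conjSys] at h1 h2
  refine Prod.ext ?_ ?_
  · exact MulChar.injective_ringHomComp σ.injective h1
  · funext p
    exact σ.injective (congrFun h2 p)

open Classical in
lemma conjSys_image (hσN : SigmaStable N) (σ : ℂ →+* ℂ) :
    (systems N).image (conjSys σ) = systems N := by
  classical
  apply Finset.eq_of_subset_of_card_le
  · intro y hy
    obtain ⟨x, hx, rfl⟩ := Finset.mem_image.mp hy
    rw [mem_systems] at hx ⊢
    exact hx.conj hσN σ
  · rw [Finset.card_image_of_injective _ (conjSys_injective σ)]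

lemma sysPoly_map (hσN : SigmaStable N) (σ : ℂ →+* ℂ) (p : ℕ) :
    (sysPoly N p).map σ = sysPoly N p := by
  classical
  rw [sysPoly, Polynomial.map_prod]
  conv_rhs => rw [← conjSys_image hσN σ, Finset.prod_image ((conjSys_injective σ).injOn)]
  refine Finset.prod_congr rfl fun x _ => ?_
  simp [conjSys]

lemma isIntegral_sys (hI : IntSpan N) {x : DirichletCharacter ℂ N × (ℕ → ℂ)} (hx : IsSys N x)
    (p : ℕ) : IsIntegral ℤ (x.2 p) := by
  obtain ⟨f, hf, ht⟩ := hx
  rw [ht]
  split_ifs with h
  · exact isIntegral_eigenvalue hI hf h.1 h.2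
  · exact isIntegral_zero

/-- the coefficients of a product of `X - a` with `a` in a subring are in the subring -/
lemma coeff_prod_mem {R ι : Type*} [CommRing R] (S : Subring R) (s : Finset ι) (a : ι → R)
    (ha : ∀ i ∈ s, a i ∈ S) (n : ℕ) : (∏ i ∈ s, (X - C (a i))).coeff n ∈ S := by
  classical
  have : ∏ i ∈ s, (X - C (a i)) ∈ (Polynomial.mapRingHom S.subtype).range := by
    refine prod_mem fun i hi => ?_
    exact ⟨X - C ⟨a i, ha i hi⟩, by simp⟩
  obtain ⟨q, hq⟩ := this
  rw [← hq, coe_mapRingHom, coeff_map]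
  exact (q.coeff n).2

lemma exists_int_sysPoly (hσN : SigmaStable N) (hI : IntSpan N) (p : ℕ) :
    ∃ P : ℤ[X], P.map (Int.castRingHom ℂ) = sysPoly N p := by
  have h1 : ∀ n, ∃ m : ℤ, (m : ℂ) = (sysPoly N p).coeff n := by
    intro n
    obtain ⟨r, hr⟩ := IntStruct.exists_rat_of_forall_ringEquiv_fixed ((sysPoly N p).coeff n)
      fun σ => by
        conv_rhs => rw [← sysPoly_map hσN (σ : ℂ →+* ℂ) p]
        rw [coeff_map]
        rfl
    have h2 : IsIntegral ℤ ((sysPoly N p).coeff n) :=
      coeff_prod_mem (integralClosure ℤ ℂ).toSubring _ _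
        (fun x hx => isIntegral_sys hI ((mem_systems N).mp hx) p) n
    have h3 : IsIntegral ℤ r := by
      have : IsIntegral ℤ (algebraMap ℚ ℂ r) := by
        rw [← hr] at h2
        exact h2
      exact (isIntegral_algebraMap_iff (algebraMap ℚ ℂ).injective).mp this
    obtain ⟨m, hm⟩ := IsIntegrallyClosed.isIntegral_iff.mp h3
    refine ⟨m, ?_⟩
    rw [← hr, ← hm]
    simp
  choose m hm using h1
  refine ⟨∑ n ∈ Finset.range ((sysPoly N p).natDegree + 1), monomial n (m n), ?_⟩
  rw [Polynomial.map_sum]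
  conv_rhs => rw [(sysPoly N p).as_sum_range]
  refine Finset.sum_congr rfl fun n _ => ?_
  rw [map_monomial, ← hm]
  simp

/-- Finiteness of the set of values. -/
theorem exists_finite_values (hσN : SigmaStable N) (hI : IntSpan N) (c : ℝ) :
    ∃ Y : Set ℂ, Y.Finite ∧ ∀ p : ℕ, (∀ x ∈ systems N, ‖x.2 p‖ ≤ c) →
      ∀ x ∈ systems N, x.2 p ∈ Y := by
  classical
  set d := (systems N).card with hd
  set B : ℝ := max c 1 ^ d * d.choose (d / 2) with hB
  set U : Set ℤ := {m : ℤ | |(m : ℝ)| ≤ B} with hU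
  have hUfin : U.Finite := by
    refine (Set.finite_Icc (-⌈B⌉) ⌈B⌉).subset fun m hm => ?_
    have h1 : |(m : ℝ)| ≤ B := hm
    have h2 := abs_le.mp h1
    constructor
    · have : (-⌈B⌉ : ℝ) ≤ m := by
        have := Int.le_ceil B
        linarith [h2.1]
      exact_mod_cast this
    · have : (m : ℝ) ≤ ⌈B⌉ := h2.2.trans (Int.le_ceil B)
      exact_mod_cast this
  refine ⟨_, Polynomial.bUnion_roots_finite (Int.castRingHom ℂ) d hUfin, fun p hp x hx => ?_⟩
  obtain ⟨P, hP⟩ := exists_int_sysPoly hσN hI p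
  simp only [Set.mem_iUnion]
  have hinj : Function.Injective (Int.castRingHom ℂ) := Int.cast_injective
  have hdeg : P.natDegree = d := by
    rw [← natDegree_map_eq_of_injective hinj, hP, sysPoly_natDegree]
  have hmonic : P.Monic := by
    apply Polynomial.monic_of_injective hinj
    rw [hP]
    exact sysPoly_monic p
  refine ⟨P, ⟨hdeg.le, fun i => ?_⟩, ?_⟩
  · have h1 := Polynomial.coeff_bdd_of_roots_le (B := c) (d := d) (RingHom.id ℂ)
      (p := sysPoly N p) (sysPoly_monic p) (IsAlgClosed.splits _)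
      (sysPoly_natDegree p).le (fun z hz => by
        rw [Polynomial.map_id, mem_roots (sysPoly_monic p).ne_zero, IsRoot.def, sysPoly, eval_prod,
          Finset.prod_eq_zero_iff] at hz
        obtain ⟨y, hy, hy0⟩ := hz
        rw [eval_sub, eval_X, eval_C, sub_eq_zero] at hy0
        rw [hy0]
        exact hp y hy) i
    rw [Polynomial.map_id, ← hP, coeff_map] at h1
    change |((P.coeff i : ℤ) : ℝ)| ≤ B
    have h2 : ‖(Int.castRingHom ℂ) (P.coeff i)‖ = |((P.coeff i : ℤ) : ℝ)| := by
      rw [eq_intCast, Complex.norm_intCast]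
    rw [← h2]
    exact h1
  · rw [Finset.mem_coe, Multiset.mem_toFinset, hP, mem_roots (sysPoly_monic p).ne_zero, IsRoot.def,
      sysPoly, eval_prod]
    exact Finset.prod_eq_zero hx (by simp)

end Fermat.Agent.DS

end
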