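import Fermat.Agent.DS.Zeta2

/-!
# Weight one Eisenstein series
-/

set_option autoImplicit false

open UpperHalfPlane ModularForm EisensteinSeries Matrix.SpecialLinearGroup Filter Topology
  CongruenceSubgroup
open scoped MatrixGroups Manifold ModularForm Nat

noncomputable section

namespace Fermat.Agent.DSEis

variable {N : ℕ} [NeZero N]

/-- Weight one Eisenstein series attached to the `N`-torsion point `(v₀τ + v₁)/N`. -/
def e1 (N : ℕ) (v : Fin 2 → ℤ) (τ : ℍ) : ℂ :=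
  Fz (wv v τ / N) τ + 2 * Real.pi * Complex.I * v 0 / N

lemma notLat_wv {v : Fin 2 → ℤ} (hv : red N v ≠ 0) (τ : ℍ) : NotLat (wv v τ / N) τ := by
  intro m
  rintro ⟨n, hn⟩
  apply hv
  have hN : (N : ℂ) ≠ 0 := by exact_mod_cast NeZero.ne N
  have h1 : wv v τ = (m * N : ℤ) * τ + (n * N : ℤ) := by
    have : wv v τ / N = n + m * τ := by linear_combination -hn
    rw [div_eq_iff hN] at this
    rw [this]
    push_cast
    ring
  rw [wv] at h1
  have h2 : ((v 0 - m * N : ℤ) : ℂ) * τ + ((v 1 - n * N : ℤ) : ℂ) = 0 := by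
    push_cast
    push_cast at h1
    linear_combination h1
  have h3 : v 0 - m * N = 0 := by
    have := congrArg Complex.im h2
    rw [Complex.add_im, ← Complex.ofReal_intCast, Complex.im_ofReal_mul,
      ← Complex.ofReal_intCast, Complex.ofReal_im, Complex.zero_im, add_zero] at this
    have := (mul_eq_zero.mp this).resolve_right τ.im_ne_zero
    exact_mod_cast this
  have h4 : v 1 - n * N = 0 := by
    rw [h3] at h2
    have : ((v 1 - n * N : ℤ) : ℂ) = 0 := by simpa using h2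
    exact_mod_cast this
  ext i
  fin_cases i
  · show ((v 0 : ℤ) : ZMod N) = 0
    rw [show v 0 = m * N by linarith]
    simp
  · show ((v 1 : ℤ) : ZMod N) = 0
    rw [show v 1 = n * N by linarith]
    simp

lemma e1_add {v : Fin 2 → ℤ} (hv : red N v ≠ 0) (u : Fin 2 → ℤ) (τ : ℍ) :
    e1 N (v + (N : ℤ) • u) τ = e1 N v τ := by
  have hN : (N : ℂ) ≠ 0 := by exact_mod_cast NeZero.ne N
  have h0 := notLat_wv hv τ
  have h1 : wv (v + (N : ℤ) • u) τ / N = (wv v τ / N + u 0 * τ) + u 1 := by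
    rw [wv, wv]
    simp
    field_simp
    ring
  have h2 : NotLat (wv v τ / N + u 0 * τ) τ := by simpa using h0.add (u 0) 0
  rw [e1, e1, h1, Fz_add_int h2, Fz_add_int_tau h0]
  simp
  field_simp
  ring

lemma e1_congr {v v' : Fin 2 → ℤ} (hv : red N v ≠ 0) (h : red N v = red N v') (τ : ℍ) :
    e1 N v τ = e1 N v' τ := by
  have h1 : ∀ i, ∃ k : ℤ, v' i = v i + N * k := by
    intro i
    have := congrFun h i
    rw [red, red, ZMod.intCast_eq_intCast_iff_dvd_sub] at this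
    obtain ⟨k, hk⟩ := this
    exact ⟨k, by linarith⟩
  choose u hu using h1
  have : v' = v + (N : ℤ) • u := by
    ext i
    simp [hu]
  rw [this, e1_add hv]

lemma e1_slash {v : Fin 2 → ℤ} (A : SL(2, ℤ)) :
    (e1 N v) ∣[(1 : ℤ)] A = e1 N (Matrix.vecMul v (A : Matrix (Fin 2) (Fin 2) ℤ)) := by
  have hN : (N : ℂ) ≠ 0 := by exact_mod_cast NeZero.ne N
  ext τ
  have hj := denom_ne_zero A τ
  rw [SL_slash_apply, e1, e1, wv_smul, div_right_comm, Fz_smul]
  set w := wv (Matrix.vecMul v (A : Matrix (Fin 2) (Fin 2) ℤ)) τ with hw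
  have h1 : (A 1 0 : ℂ) * w + v 0 =
      ((Matrix.vecMul v (A : Matrix (Fin 2) (Fin 2) ℤ)) 0 : ℤ) * denom A τ := by
    have hdet : ((A 0 0 : ℤ) : ℂ) * (A 1 1 : ℤ) - (A 0 1 : ℤ) * (A 1 0 : ℤ) = 1 := by
      have h := A.det_coe
      rw [Matrix.det_fin_two] at h
      exact_mod_cast h
    rw [hw, wv, ModularGroup.denom_apply]
    simp only [Matrix.vecMul, Matrix.vec2_dotProduct]
    push_cast
    linear_combination (-(v 0 : ℂ)) * hdet
  rw [zpow_neg, zpow_one]
  field_simp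
  linear_combination (2 * Real.pi * Complex.I) * h1

lemma exists_rep (v : Fin 2 → ℤ) : ∃ c d : ℤ, 0 ≤ c ∧ c < N ∧ red N v = red N ![c, d] := by
  have hN : (0 : ℤ) < N := by exact_mod_cast Nat.pos_of_ne_zero (NeZero.ne N)
  refine ⟨v 0 % N, v 1, Int.emod_nonneg _ hN.ne', Int.emod_lt_of_pos _ hN, ?_⟩
  ext i
  fin_cases i <;> simp [red]

/-- `exp(-2π/N)` -/
def rN (N : ℕ) : ℝ := Real.exp (-(2 * Real.pi * (1 / N)))

omit [NeZero N] in
lemma rN_pos : 0 < rN N := Real.exp_pos _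

lemma rN_lt_one : rN N < 1 := by
  rw [rN, Real.exp_lt_one_iff]
  have : (0 : ℝ) < N := by exact_mod_cast Nat.pos_of_ne_zero (NeZero.ne N)
  have := Real.pi_pos
  have : (0 : ℝ) < 2 * Real.pi * (1 / N) := by positivity
  linarith

lemma norm_rN : ‖rN N‖ < 1 := by
  rw [Real.norm_of_nonneg rN_pos.le]
  exact rN_lt_one

lemma bounded_e1_aux {c d : ℤ} (hc : 0 ≤ c) (hcN : c < N) (hv : red N ![c, d] ≠ 0) :
    ∃ B : ℝ, ∀ τ : ℍ, 1 ≤ τ.im → ‖e1 N ![c, d] τ‖ ≤ B := by
  have hN : (0 : ℝ) < N := by exact_mod_cast Nat.pos_of_ne_zero (NeZero.ne N)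
  have him : ∀ τ : ℍ, (wv ![c, d] τ / N).im = c * τ.im / N := by
    intro τ
    rw [wv, ← Complex.ofReal_natCast, Complex.div_ofReal_im]
    simp
  -- bound for the Lambert series
  have hs : Summable fun c : ℕ+ × ℕ+ => 2 * rN N ^ (c.1 * c.2 : ℕ) := by
    have := summable_prod_mul_pow 0 (norm_rN (N := N))
    simpa using this.mul_left 2
  have b1 : ∀ τ : ℍ, 1 ≤ τ.im → |(wv ![c, d] τ / N).im| + 1 / N ≤ τ.im := by
    intro τ hτ
    have hc' : (0 : ℝ) ≤ c := by exact_mod_cast hc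
    have hcN' : (c : ℝ) + 1 ≤ N := by exact_mod_cast hcN
    rw [him, abs_of_nonneg (by positivity), ← add_div, div_le_iff₀ hN]
    nlinarith
  -- bound for the cotangent
  obtain ⟨B, hB⟩ : ∃ B : ℝ, ∀ τ : ℍ, 1 ≤ τ.im →
      ‖(Real.pi : ℂ) * Complex.cot (Real.pi * (wv ![c, d] τ / N))‖ ≤ B := by
    rcases hc.eq_or_lt with h0 | h0
    · refine ⟨‖(Real.pi : ℂ) * Complex.cot (Real.pi * (d / N))‖, fun τ _ => ?_⟩
      rw [← h0]
      simp [wv]
    · have hs2 : Summable fun n : ℕ+ => rN N ^ (n : ℕ) :=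
        (summable_geometric_of_norm_lt_one norm_rN).comp_injective PNat.coe_injective
      refine ⟨Real.pi + 2 * Real.pi * ∑' n : ℕ+, rN N ^ (n : ℕ), fun τ hτ => ?_⟩
      have hc' : (1 : ℝ) ≤ c := by exact_mod_cast h0
      have h1 : 1 / N ≤ (wv ![c, d] τ / N).im := by
        rw [him]
        gcongr
        nlinarith
      have h2 : 0 < (wv ![c, d] τ / N).im := lt_of_lt_of_le (by positivity) h1
      have h3 : ‖ee (wv ![c, d] τ / N)‖ ≤ rN N := by
        rw [norm_ee, rN, Real.exp_le_exp]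
        have := Real.pi_pos
        have : 2 * Real.pi * (1 / N) ≤ 2 * Real.pi * (wv ![c, d] τ / N).im := by gcongr
        linarith
      rw [pi_cot_eq h2]
      refine (norm_sub_le _ _).trans ?_
      gcongr
      · rw [norm_neg, norm_mul, Complex.norm_I, mul_one, Complex.norm_real,
          Real.norm_of_nonneg Real.pi_pos.le]
      · rw [norm_mul]
        have h4 : ‖2 * (Real.pi : ℂ) * Complex.I‖ = 2 * Real.pi := by
          rw [norm_mul, norm_mul, Complex.norm_I, mul_one, Complex.norm_real,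
            Real.norm_of_nonneg Real.pi_pos.le]
          simp
        rw [h4]
        gcongr
        have h5 : ∀ n : ℕ+, ‖ee (wv ![c, d] τ / N) ^ (n : ℕ)‖ ≤ rN N ^ (n : ℕ) := by
          intro n
          rw [norm_pow]
          gcongr
        have h6 : Summable fun n : ℕ+ => ‖ee (wv ![c, d] τ / N) ^ (n : ℕ)‖ :=
          Summable.of_nonneg_of_le (fun _ => norm_nonneg _) h5 hs2
        exact (norm_tsum_le_tsum_norm h6).trans (h6.tsum_le_tsum h5 hs2)
  refine ⟨B + 2 * Real.pi * ∑' c : ℕ+ × ℕ+, 2 * rN N ^ (c.1 * c.2 : ℕ) + 2 * Real.pi * c / N,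
    fun τ hτ => ?_⟩
  have h1 := b1 τ hτ
  have h2 : |(wv ![c, d] τ / N).im| < τ.im := lt_of_lt_of_le (by linarith [show 0 < 1 / (N : ℝ) by positivity]) h1
  rw [e1, Fz_eq (notLat_wv hv τ) h2]
  refine (norm_add_le _ _).trans ?_
  gcongr
  · refine (norm_sub_le _ _).trans ?_
    gcongr
    · exact hB τ hτ
    · rw [norm_mul]
      have h4 : ‖2 * (Real.pi : ℂ) * Complex.I‖ = 2 * Real.pi := by
        rw [norm_mul, norm_mul, Complex.norm_I, mul_one, Complex.norm_real,
          Real.norm_of_nonneg Real.pi_pos.le]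
        simp
      rw [h4]
      gcongr
      have h5 : ∀ n : ℕ+ × ℕ+, ‖lam (wv ![c, d] τ / N) τ n‖ ≤ 2 * rN N ^ (n.1 * n.2 : ℕ) :=
        fun n => norm_lam_le h1 n
      have h6 := Summable.of_nonneg_of_le (fun _ => norm_nonneg _) h5 hs
      exact (norm_tsum_le_tsum_norm h6).trans (h6.tsum_le_tsum h5 hs)
  · have hc' : (0 : ℝ) ≤ c := by exact_mod_cast hc
    have : (2 * (Real.pi : ℂ) * Complex.I * ((![c, d] 0 : ℤ) : ℂ) / N) =
        ((2 * Real.pi * c / N : ℝ) : ℂ) * Complex.I := by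
      simp
      ring
    rw [this, norm_mul, Complex.norm_I, mul_one, Complex.norm_real, Real.norm_of_nonneg]
    have := Real.pi_pos
    positivity

theorem e1_bdd {v : Fin 2 → ℤ} (hv : red N v ≠ 0) : IsBoundedAtImInfty (e1 N v) := by
  obtain ⟨c, d, hc, hcN, h⟩ := exists_rep (N := N) v
  obtain ⟨B, hB⟩ := bounded_e1_aux (N := N) (d := d) hc hcN (by rwa [← h])
  rw [UpperHalfPlane.isBoundedAtImInfty_iff]
  refine ⟨B, 1, fun τ hτ => ?_⟩
  rw [e1_congr hv h]
  exact hB τ hτ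

/-! ### `q`-expansion of `e1 N ![0, b]` -/

/-- the additive character `a ↦ e(ab/N)` -/
def chr (N : ℕ) [NeZero N] (b : ℤ) (a : ZMod N) : ℂ := ee (b * a.val / N)

lemma chr_intCast (b : ℤ) (a : ℤ) : chr N b (a : ZMod N) = ee (b * a / N) := by
  have hN : (N : ℂ) ≠ 0 := by exact_mod_cast NeZero.ne N
  have h1 : (((a : ZMod N).val : ℤ) : ZMod N) = (a : ZMod N) := by simp
  rw [ZMod.intCast_eq_intCast_iff_dvd_sub] at h1
  obtain ⟨k, hk⟩ := h1
  have h2 : (a : ℂ) = ((a : ZMod N).val : ℂ) + N * k := by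
    have : a = ((a : ZMod N).val : ℤ) + N * k := by linarith
    exact_mod_cast this
  rw [chr, h2]
  rw [show (b : ℂ) * (((a : ZMod N).val : ℂ) + N * k) / N =
    b * ((a : ZMod N).val : ℂ) / N + ((b * k : ℤ) : ℂ) by
      push_cast; field_simp]
  rw [ee_add]
  have : ee ((b * k : ℤ) : ℂ) = 1 := by
    rw [ee, mul_comm]
    exact Complex.exp_int_mul_two_pi_mul_I _
  rw [this, mul_one]

lemma psiPM_chr (b : ℤ) (y : ℕ) : psiPM (chr N b) 1 y = ee (b / N) ^ y - (ee (b / N))⁻¹ ^ y := by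
  have h1 := chr_intCast (N := N) b y
  have h2 := chr_intCast (N := N) b (-y)
  push_cast at h1 h2
  rw [psiPM, h1, h2, ← ee_neg, ← ee_nat_mul, ← ee_nat_mul]
  rw [show (b : ℂ) * y / N = y * (b / N) by ring, show (b : ℂ) * -y / N = y * -(b / N) by ring]
  ring

/-- `q`-expansion coefficients of `e1 N ![0, b]` -/
def e1Coeff (N : ℕ) [NeZero N] (b : ℤ) (n : ℕ) : ℂ :=
  if n = 0 then Real.pi * Complex.cot (Real.pi * (b / N)) else
    -(2 * Real.pi * Complex.I) * divSum (chr N b) 1 n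

theorem hasSum_e1 {b : ℤ} (hb : red N ![0, b] ≠ 0) (τ : ℍ) :
    HasSum (fun n => e1Coeff N b n • Function.Periodic.qParam 1 τ ^ n) (e1 N ![0, b] τ) := by
  have hz : wv ![0, b] τ / N = (b : ℂ) / N := by simp [wv]
  have hq : ‖ee τ‖ < 1 := norm_ee_lt_one τ.im_pos
  have h1 := (hasSum_divSum (chr N b) 1 hq).mul_left (-(2 * Real.pi * Complex.I))
  have him : ((b : ℂ) / N).im = 0 := by
    rw [← Complex.ofReal_intCast, ← Complex.ofReal_natCast, ← Complex.ofReal_div,
      Complex.ofReal_im]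
  have hlt : |((b : ℂ) / N).im| < τ.im := by
    rw [him, abs_zero]
    exact τ.im_pos
  have hval : e1 N ![0, b] τ = Real.pi * Complex.cot (Real.pi * (b / N)) +
      -(2 * Real.pi * Complex.I) * ∑' c : ℕ+, psiPM (chr N b) 1 c *
        ∑' m : ℕ+, (m : ℂ) ^ (1 - 1) * ee τ ^ (c * m : ℕ) := by
    have h0 := notLat_wv hb τ
    rw [e1, hz, Fz_eq (by rwa [hz] at h0) hlt]
    have hs := summable_lam hlt
    have e2 : ∑' c : ℕ+ × ℕ+, lam (b / N) τ c = ∑' c : ℕ+, psiPM (chr N b) 1 c *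
        ∑' m : ℕ+, (m : ℂ) ^ (1 - 1) * ee τ ^ (c * m : ℕ) := by
      rw [← (Equiv.prodComm ℕ+ ℕ+).tsum_eq]
      have hs' := ((Equiv.prodComm ℕ+ ℕ+).summable_iff).mpr hs
      rw [Summable.tsum_prod (by exact hs')]
      refine tsum_congr fun y => ?_
      rw [← tsum_mul_left]
      refine tsum_congr fun m => ?_
      rw [psiPM_chr, lam]
      simp only [Equiv.prodComm_apply, Prod.swap_prod_mk, tsub_self, pow_zero, one_mul]
      rw [mul_comm (m : ℕ)]
    rw [e2]
    simp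
    ring
  rw [hval, ← hasSum_nat_add_iff' 1, ← hasSum_pnat_iff_hasSum_succ
    (f := fun n => e1Coeff N b n • Function.Periodic.qParam 1 τ ^ n)]
  simp only [Finset.range_one, Finset.sum_singleton, e1Coeff, if_true, pow_zero, smul_eq_mul,
    mul_one, add_sub_cancel_left]
  have h2 : (fun n : ℕ+ => (if (n : ℕ) = 0 then (Real.pi : ℂ) * Complex.cot (Real.pi * (b / N))
      else -(2 * Real.pi * Complex.I) * divSum (chr N b) 1 n) *
      Function.Periodic.qParam 1 τ ^ (n : ℕ)) = fun n : ℕ+ => -(2 * Real.pi * Complex.I) *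
        (divSum (chr N b) 1 n * ee τ ^ (n : ℕ)) := by
    funext n
    rw [if_neg n.ne_zero, Function.Periodic.qParam, mul_assoc, ee]
    simp
  rw [h2]
  exact h1

end Fermat.Agent.DSEis
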