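import Fermat.Agent.DS.Wt1
import Fermat.Agent.DS.EisGamma1

/-!
# Weight one Eisenstein series as modular forms on `Γ₁(N)`
-/

set_option autoImplicit false

open UpperHalfPlane ModularForm EisensteinSeries Matrix.SpecialLinearGroup Filter Topology
  CongruenceSubgroup
open scoped MatrixGroups Manifold ModularForm Nat

noncomputable section

namespace Fermat.Agent.DSEis

/-- A function given everywhere by a convergent `q`-expansion is holomorphic. -/
theorem mdiff_of_hasSum {f : ℍ → ℂ} {c : ℕ → ℂ}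
    (hf : ∀ τ : ℍ, HasSum (fun m ↦ c m • Function.Periodic.qParam 1 τ ^ m) (f τ)) : MDiff f := by
  set p : FormalMultilinearSeries ℂ ℂ ℂ := .ofScalars ℂ c with hp
  have hrad : 1 ≤ p.radius := by
    refine le_of_forall_lt_imp_le_of_dense fun r hr ↦ ?_
    rcases eq_or_ne r 0 with rfl | hr'
    · simp
    · lift r to NNReal using hr.ne_top
      have hr0 : 0 < (r : ℝ) := by
        have : r ≠ 0 := by exact_mod_cast hr'
        exact NNReal.coe_pos.mpr (pos_iff_ne_zero.mpr this)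
      have hr1 : (r : ℝ) < 1 := by exact_mod_cast hr
      have him := Function.Periodic.im_invQParam_pos_of_norm_lt_one (h := 1) one_pos (q := (r : ℂ))
        (by simpa using hr1) (by exact_mod_cast hr0.ne')
      have h1 := (hf ⟨_, him⟩).summable.norm
      apply FormalMultilinearSeries.le_radius_of_summable
      refine h1.congr fun m => ?_
      have h2 : Function.Periodic.qParam 1 (Function.Periodic.invQParam 1 (r : ℂ)) = (r : ℂ) :=
        Function.Periodic.qParam_right_inv one_ne_zero (by exact_mod_cast hr0.ne')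
      show ‖c m • Function.Periodic.qParam 1 (Function.Periodic.invQParam 1 (r : ℂ)) ^ m‖ = _
      rw [h2, norm_smul, norm_pow]
      simp [hp]
  have hb := p.hasFPowerSeriesOnBall (lt_of_lt_of_le one_pos hrad)
  have hd : DifferentiableOn ℂ p.sum (Metric.eball 0 1) :=
    hb.differentiableOn.mono (Metric.eball_subset_eball hrad)
  rw [UpperHalfPlane.mdifferentiable_iff]
  have hmaps : Set.MapsTo (Function.Periodic.qParam 1) {z : ℂ | 0 < z.im} (Metric.eball 0 1) := by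
    intro z hz
    rw [← ENNReal.coe_one, Metric.eball_coe, NNReal.coe_one, mem_ball_zero_iff]
    exact Function.Periodic.norm_qParam_lt_one one_pos hz
  have h3 : DifferentiableOn ℂ (fun z => p.sum (Function.Periodic.qParam 1 z)) {z : ℂ | 0 < z.im} :=
    hd.comp (Function.Periodic.differentiable_qParam).differentiableOn hmaps
  refine h3.congr fun z hz => ?_
  lift z to ℍ using hz
  rw [Function.comp_apply, ofComplex_apply]
  refine (hf z).unique ?_
  have h4 := p.hasSum (x := Function.Periodic.qParam 1 z)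
    (Metric.eball_subset_eball hrad (hmaps z.im_pos))
  have h5 : (fun n : ℕ => p n fun _ : Fin n => Function.Periodic.qParam 1 (z : ℂ)) =
      fun m : ℕ => c m • Function.Periodic.qParam 1 (z : ℂ) ^ m := by
    funext m
    simp [hp, mul_comm]
  rw [h5] at h4
  exact h4

variable {N : ℕ} [NeZero N]

omit [NeZero N] in
/-- lower right entry mod `N` -/
lemma vecMul_zero_left (b : ℤ) (A : SL(2, ℤ)) (hA : A ∈ Gamma0 N) :
    red N (Matrix.vecMul ![0, b] (A : Matrix (Fin 2) (Fin 2) ℤ)) = red N ![0, b * A 1 1] := by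
  have h : ((A 1 0 : ℤ) : ZMod N) = 0 := Gamma0_mem.mp hA
  ext i
  fin_cases i
  · show ((Matrix.vecMul ![0, b] (A : Matrix (Fin 2) (Fin 2) ℤ) 0 : ℤ) : ZMod N) =
      ((![0, b * A 1 1] 0 : ℤ) : ZMod N)
    rw [Matrix.vecMul, Matrix.vec2_dotProduct]
    simp [h]
  · show ((Matrix.vecMul ![0, b] (A : Matrix (Fin 2) (Fin 2) ℤ) 1 : ℤ) : ZMod N) =
      ((![0, b * A 1 1] 1 : ℤ) : ZMod N)
    rw [Matrix.vecMul, Matrix.vec2_dotProduct]
    simp

omit [NeZero N] in
lemma red_vecMul_ne_zero {v : Fin 2 → ℤ} (hv : red N v ≠ 0) (A : SL(2, ℤ)) :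
    red N (Matrix.vecMul v (A : Matrix (Fin 2) (Fin 2) ℤ)) ≠ 0 := by
  intro h
  apply hv
  have h1 := red_vecMul (N := N) (Matrix.vecMul v (A : Matrix (Fin 2) (Fin 2) ℤ)) A⁻¹
  rw [h, Matrix.vecMul_vecMul, ← Matrix.SpecialLinearGroup.coe_mul, mul_inv_cancel,
    Matrix.SpecialLinearGroup.coe_one, Matrix.vecMul_one, Matrix.zero_vecMul] at h1
  exact h1

/-- The weight one Eisenstein series as a modular form on `Γ₁(N)`; `b` not divisible by `N`. -/
def e1MF (b : ℤ) (hb : red N ![0, b] ≠ 0) : ModularForm (Gamma1 N : Subgroup (GL (Fin 2) ℝ)) 1 where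
  toFun := e1 N ![0, b]
  slash_action_eq' := by
    rintro _ ⟨γ, hγ, rfl⟩
    show (e1 N ![0, b]) ∣[(1 : ℤ)] γ = _
    have h0 : γ ∈ Gamma0 N := Gamma1_in_Gamma0 N hγ
    have h1 : ((γ 1 1 : ℤ) : ZMod N) = 1 := ((Gamma1_mem N γ).mp hγ).2.1
    rw [e1_slash]
    funext τ
    refine (e1_congr hb ?_ τ).symm
    rw [vecMul_zero_left b γ h0]
    ext i
    fin_cases i <;> simp [red, h1]
  holo' := mdiff_of_hasSum (f := e1 N ![0, b]) (hasSum_e1 hb)
  bdd_at_cusps' {c} hc := by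
    rw [Subgroup.IsArithmetic.isCusp_iff_isCusp_SL2Z] at hc
    rw [OnePoint.isBoundedAt_iff_forall_SL2Z hc]
    intro γ _
    show IsBoundedAtImInfty ((e1 N ![0, b]) ∣[(1 : ℤ)] γ)
    rw [e1_slash]
    exact e1_bdd (red_vecMul_ne_zero hb γ)

theorem qExpansion_e1MF (b : ℤ) (hb : red N ![0, b] ≠ 0) (n : ℕ) :
    (qExpansion 1 (e1MF b hb)).coeff n = e1Coeff N b n :=
  (ModularFormClass.qExpansion_coeff_unique one_pos one_mem_G1
    (fun τ => hasSum_e1 hb τ) n).symm

/-! ### Fourier transform -/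

open ZMod in
lemma chr_eq (b : ℤ) (a : ZMod N) : chr N b a = ZMod.stdAddChar ((b : ZMod N) * a) := by
  have h := ZMod.stdAddChar_coe (N := N) (b * a.val)
  have h1 : ((b * a.val : ℤ) : ZMod N) = (b : ZMod N) * a := by
    push_cast
    rw [ZMod.natCast_zmod_val]
  rw [h1] at h
  rw [h, chr, ee]
  congr 1
  push_cast
  ring

/-- `q`-expansion coefficients as a linear map. -/
def coefM (N : ℕ) (k : ℤ) :
    ModularForm (Gamma1 N : Subgroup (GL (Fin 2) ℝ)) k →ₗ[ℂ] (ℕ → ℂ) where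
  toFun f n := (qExpansion 1 f).coeff n
  map_add' f g := by
    ext n
    rw [FunLike.coe_add, ModularForm.qExpansion_add one_pos one_mem_G1 f g]
    simp
  map_smul' c f := by
    ext n
    rw [FunLike.coe_smul, ModularForm.qExpansion_smul one_pos one_mem_G1 c f]
    simp

omit [NeZero N] in
lemma coefM_apply {k : ℤ} (f : ModularForm (Gamma1 N : Subgroup (GL (Fin 2) ℝ)) k) (n : ℕ) :
    coefM N k f n = (qExpansion 1 f).coeff n := rfl

lemma red_ne_zero_iff (b : ZMod N) : red N ![0, (b.val : ℤ)] ≠ 0 ↔ b ≠ 0 := by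
  refine not_congr ⟨fun h => ?_, fun h => ?_⟩
  · have := congrFun h 1
    simpa [red] using this
  · subst h
    ext i
    fin_cases i <;> simp [red]

/-- the normalised Fourier coefficient -/
def fcoef (ψ : ZMod N → ℂ) (b : ZMod N) : ℂ :=
  (-(2 * Real.pi * Complex.I))⁻¹ * ZMod.dft ψ b

/-- The weight one Eisenstein series attached to a function `ψ` on `ZMod N` with `ψ 0 = 0`. -/
def wt1 (ψ : ZMod N → ℂ) : ModularForm (Gamma1 N : Subgroup (GL (Fin 2) ℝ)) 1 :=
  ∑ b : ZMod N, if h : red N ![0, (b.val : ℤ)] ≠ 0 then fcoef ψ b • e1MF (b.val : ℤ) h else 0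

lemma coef_wt1 (ψ : ZMod N → ℂ) (n : ℕ) :
    (qExpansion 1 (wt1 ψ)).coeff n =
      ∑ b : ZMod N, if b ≠ 0 then fcoef ψ b * e1Coeff N (b.val : ℤ) n else 0 := by
  rw [← coefM_apply, wt1, map_sum, Finset.sum_apply]
  refine Finset.sum_congr rfl fun b _ => ?_
  by_cases h : b ≠ 0
  · have h' := (red_ne_zero_iff b).mpr h
    rw [dif_pos h', if_pos h, map_smul, Pi.smul_apply, coefM_apply, qExpansion_e1MF, smul_eq_mul]
  · have h' := fun h1 => h ((red_ne_zero_iff b).mp h1)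
    rw [dif_neg h', if_neg h]
    simp

lemma cst_ne : (-(2 * (Real.pi : ℂ) * Complex.I)) ≠ 0 := by
  simp [Real.pi_ne_zero]

lemma dft_inv (ψ : ZMod N → ℂ) (k : ZMod N) :
    ∑ b : ZMod N, ZMod.stdAddChar (b * k) * ZMod.dft ψ b = N * ψ k := by
  have h5 := congrFun (ZMod.dft_dft ψ) (-k)
  rw [ZMod.dft_apply] at h5
  simp only [neg_neg, smul_eq_mul] at h5
  rw [← h5]
  refine Finset.sum_congr rfl fun b _ => ?_
  rw [mul_neg, neg_neg]

lemma coef_wt1_pos (ψ : ZMod N → ℂ) {n : ℕ} (hn : n ≠ 0) :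
    (qExpansion 1 (wt1 ψ)).coeff n = N * divSum ψ 1 n := by
  rw [coef_wt1]
  have h1 : ∀ b : ZMod N, (if b ≠ 0 then fcoef ψ b * e1Coeff N (b.val : ℤ) n else 0) =
      ∑ x ∈ n.divisorsAntidiagonal, (ZMod.stdAddChar (b * (x.1 : ZMod N)) * ZMod.dft ψ b -
        ZMod.stdAddChar (-(b * (x.1 : ZMod N))) * ZMod.dft ψ b) := by
    intro b
    have h2 : ∀ x : ℕ × ℕ, psiPM (chr N (b.val : ℤ)) 1 x.1 =
        ZMod.stdAddChar (b * (x.1 : ZMod N)) - ZMod.stdAddChar (-(b * (x.1 : ZMod N))) := by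
      intro x
      rw [psiPM, chr_eq, chr_eq]
      push_cast
      rw [ZMod.natCast_zmod_val]
      ring_nf
    by_cases h : b = 0
    · simp [h]
    · rw [if_pos h, e1Coeff, if_neg hn, fcoef, divSum]
      have h3 := cst_ne
      rw [show (-(2 * (Real.pi : ℂ) * Complex.I))⁻¹ * ZMod.dft ψ b *
        (-(2 * (Real.pi : ℂ) * Complex.I) * ∑ x ∈ n.divisorsAntidiagonal,
          psiPM (chr N (b.val : ℤ)) 1 x.1 * (x.2 : ℂ) ^ (1 - 1)) =
        ∑ x ∈ n.divisorsAntidiagonal, psiPM (chr N (b.val : ℤ)) 1 x.1 * ZMod.dft ψ b by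
          rw [← Finset.sum_mul]
          simp only [tsub_self, pow_zero, mul_one]
          field_simp]
      refine Finset.sum_congr rfl fun x _ => ?_
      rw [h2]
      ring
  rw [Finset.sum_congr rfl fun b _ => h1 b, Finset.sum_comm, divSum, Finset.mul_sum]
  refine Finset.sum_congr rfl fun x _ => ?_
  rw [Finset.sum_sub_distrib, dft_inv]
  have h6 := dft_inv ψ (-(x.1 : ZMod N))
  simp only [mul_neg] at h6
  rw [h6, psiPM]
  ring

lemma geom_aux (x : ℂ) (n : ℕ) : (1 - x) * ∑ j ∈ Finset.range n, (j : ℂ) * x ^ j =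
    ∑ j ∈ Finset.range n, x ^ j - 1 - n * x ^ n + x ^ n := by
  induction n with
  | zero => simp
  | succ n ih =>
    rw [Finset.sum_range_succ, mul_add, ih, Finset.sum_range_succ]
    push_cast
    ring

lemma sum_zmod_eq (f : ℕ → ℂ) : ∑ j : ZMod N, f j.val = ∑ j ∈ Finset.range N, f j := by
  obtain ⟨n, rfl⟩ : ∃ n, N = n + 1 := ⟨N - 1, (Nat.succ_pred (NeZero.ne N)).symm⟩
  exact Fin.sum_univ_eq_sum_range f (n + 1)

lemma cot_eq_sum {b : ZMod N} (hb : b ≠ 0) :
    (-(2 * (Real.pi : ℂ) * Complex.I))⁻¹ * (Real.pi * Complex.cot (Real.pi * ((b.val : ℤ) / N))) =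
      -(1 / N) * ∑ j : ZMod N, (j.val : ℂ) * ZMod.stdAddChar (b * j) - 1 / 2 := by
  have hN : (N : ℂ) ≠ 0 := by exact_mod_cast NeZero.ne N
  set x : ℂ := ZMod.stdAddChar b with hx
  have hx1 : x ≠ 1 := by
    intro h
    apply hb
    have : ZMod.stdAddChar b = ZMod.stdAddChar (0 : ZMod N) := by
      rw [← hx, h, AddChar.map_zero_eq_one]
    exact ZMod.injective_stdAddChar this
  have hpow : ∀ j : ZMod N, ZMod.stdAddChar (b * j) = x ^ j.val := by
    intro j
    rw [hx, ← AddChar.map_nsmul_eq_pow, nsmul_eq_mul, ZMod.natCast_zmod_val, mul_comm]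
  have hxN : x ^ N = 1 := by
    rw [hx, ← AddChar.map_nsmul_eq_pow]
    simp
  have h1 : ∑ j : ZMod N, (j.val : ℂ) * ZMod.stdAddChar (b * j) =
      ∑ j ∈ Finset.range N, (j : ℂ) * x ^ j := by
    simp_rw [hpow]
    exact sum_zmod_eq (fun j => (j : ℂ) * x ^ j)
  have h2 := geom_aux x N
  have h3 : ∑ j ∈ Finset.range N, x ^ j = 0 := by
    rw [geom_sum_eq hx1, hxN]
    simp
  rw [h3, hxN] at h2
  have hx0 : 1 - x ≠ 0 := sub_ne_zero.mpr hx1.symm
  have h4 : ∑ j ∈ Finset.range N, (j : ℂ) * x ^ j = -N / (1 - x) := by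
    rw [eq_div_iff hx0]
    linear_combination h2
  have h5 : Complex.exp (2 * Real.pi * Complex.I * ((b.val : ℤ) / N)) = x := by
    have := ZMod.stdAddChar_coe (N := N) (b.val : ℤ)
    rw [Int.cast_natCast, ZMod.natCast_zmod_val] at this
    rw [hx, this]
    congr 1
    push_cast
    ring
  rw [h1, h4, Complex.cot_pi_eq_exp_ratio, h5]
  have hπ : (Real.pi : ℂ) ≠ 0 := by exact_mod_cast Real.pi_ne_zero
  field_simp
  rw [Complex.I_sq]
  ring

theorem coef_wt1_zero (ψ : ZMod N → ℂ) (hψ : ψ 0 = 0) :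
    (qExpansion 1 (wt1 ψ)).coeff 0 = N / 2 * ∑ a, ψ a - ∑ a : ZMod N, (a.val : ℂ) * ψ a := by
  have hN : (N : ℂ) ≠ 0 := by exact_mod_cast NeZero.ne N
  rw [coef_wt1]
  have h1 : ∀ b : ZMod N, (if b ≠ 0 then fcoef ψ b * e1Coeff N (b.val : ℤ) 0 else 0) =
      ZMod.dft ψ b * (-(1 / N) * ∑ j : ZMod N, (j.val : ℂ) * ZMod.stdAddChar (b * j) - 1 / 2) +
      if b = 0 then N / 2 * ZMod.dft ψ 0 else 0 := by
    intro b
    by_cases h : b = 0
    · subst h
      simp only [ne_eq, not_true, if_false, if_true, zero_mul, AddChar.map_zero_eq_one, mul_one]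
      have : ∑ j : ZMod N, (j.val : ℂ) = N * (N - 1) / 2 := by
        rw [sum_zmod_eq (fun j => (j : ℂ))]
        have h2 := Finset.sum_range_id_mul_two N
        have h3 : ((∑ i ∈ Finset.range N, i : ℕ) : ℂ) * 2 = N * ((N - 1 : ℕ) : ℂ) := by
          exact_mod_cast h2
        rw [Nat.cast_sub (Nat.one_le_iff_ne_zero.mpr (NeZero.ne N))] at h3
        push_cast at h3
        linear_combination h3 / 2
      rw [this]
      field_simp
      ring
    · rw [if_pos h, if_neg h, add_zero, ← cot_eq_sum h, e1Coeff, if_pos rfl, fcoef]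
      ring
  rw [Finset.sum_congr rfl fun b _ => h1 b, Finset.sum_add_distrib, Finset.sum_ite_eq',
    if_pos (Finset.mem_univ _), ZMod.dft_apply_zero]
  have h2 : ∀ b : ZMod N, ZMod.dft ψ b *
      (-(1 / N) * ∑ j : ZMod N, (j.val : ℂ) * ZMod.stdAddChar (b * j) - 1 / 2) =
      (∑ j : ZMod N, (-(1 / N) * (j.val : ℂ)) * (ZMod.stdAddChar (b * j) * ZMod.dft ψ b)) -
        1 / 2 * (ZMod.stdAddChar (b * 0) * ZMod.dft ψ b) := by
    intro b
    rw [mul_zero, AddChar.map_zero_eq_one, mul_sub, Finset.mul_sum, Finset.mul_sum]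
    congr 1
    · refine Finset.sum_congr rfl fun j _ => ?_
      ring
    · ring
  rw [Finset.sum_congr rfl fun b _ => h2 b, Finset.sum_sub_distrib, ← Finset.mul_sum, dft_inv, hψ,
    Finset.sum_comm]
  have h3 : ∀ j : ZMod N, ∑ b : ZMod N, (-(1 / N) * (j.val : ℂ)) *
      (ZMod.stdAddChar (b * j) * ZMod.dft ψ b) = -((j.val : ℂ) * ψ j) := by
    intro j
    rw [← Finset.mul_sum, dft_inv]
    field_simp
  rw [Finset.sum_congr rfl fun j _ => h3 j, Finset.sum_neg_distrib]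
  ring

/-! ### the action of `Γ₀(N)` -/

lemma isUnit_of_mem_Gamma0 {γ : SL(2, ℤ)} (hγ : γ ∈ Gamma0 N) :
    IsUnit ((γ 1 1 : ℤ) : ZMod N) := by
  have h : ((γ 1 0 : ℤ) : ZMod N) = 0 := Gamma0_mem.mp hγ
  have hdet : γ 0 0 * γ 1 1 - γ 0 1 * γ 1 0 = 1 := by
    have h := γ.det_coe
    rwa [Matrix.det_fin_two] at h
  have hdet' : ((γ 0 0 : ℤ) : ZMod N) * ((γ 1 1 : ℤ) : ZMod N) -
      ((γ 0 1 : ℤ) : ZMod N) * ((γ 1 0 : ℤ) : ZMod N) = 1 := by
    have := congrArg (Int.cast : ℤ → ZMod N) hdet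
    push_cast at this
    exact this
  rw [h, mul_zero, sub_zero] at hdet'
  exact IsUnit.of_mul_eq_one _ (by rw [mul_comm]; exact hdet')

lemma coe_wt1 (ψ : ZMod N → ℂ) (τ : ℍ) :
    wt1 ψ τ = ∑ b : ZMod N, if b ≠ 0 then fcoef ψ b * e1 N ![0, (b.val : ℤ)] τ else 0 := by
  have h1 : (wt1 ψ : ℍ → ℂ) = ∑ b : ZMod N,
      if b ≠ 0 then fcoef ψ b • e1 N ![0, (b.val : ℤ)] else 0 := by
    rw [wt1]
    have : ∀ s : Finset (ZMod N), ((∑ b ∈ s, if h : red N ![0, (b.val : ℤ)] ≠ 0 then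
        fcoef ψ b • e1MF (b.val : ℤ) h else 0 : ModularForm _ 1) : ℍ → ℂ) =
        ∑ b ∈ s, if b ≠ 0 then fcoef ψ b • e1 N ![0, (b.val : ℤ)] else 0 := by
      intro s
      classical
      induction s using Finset.induction_on with
      | empty => rfl
      | insert b s hb ih =>
        rw [Finset.sum_insert hb, Finset.sum_insert hb, FunLike.coe_add, ih]
        congr 1
        by_cases h : b ≠ 0
        · have h' := (red_ne_zero_iff b).mpr h
          rw [dif_pos h', if_pos h]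
          rfl
        · have h' := fun h1 => h ((red_ne_zero_iff b).mp h1)
          rw [dif_neg h', if_neg h]
          rfl
    exact this Finset.univ
  rw [h1, Finset.sum_apply]
  refine Finset.sum_congr rfl fun b _ => ?_
  split_ifs
  · rfl
  · rfl

theorem wt1_slash (ψ : ZMod N → ℂ) {γ : SL(2, ℤ)} (hγ : γ ∈ Gamma0 N) :
    (wt1 ψ : ℍ → ℂ) ∣[(1 : ℤ)] γ = wt1 (fun a => ψ (((γ 1 1 : ℤ) : ZMod N) * a)) := by
  obtain ⟨u, hu⟩ := isUnit_of_mem_Gamma0 hγ
  ext τ
  rw [SL_slash_apply, coe_wt1, coe_wt1, Finset.sum_mul,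
    ← Equiv.sum_comp (Units.mulRight u) (fun b => if b ≠ 0 then
      fcoef (fun a => ψ (((γ 1 1 : ℤ) : ZMod N) * a)) b * e1 N ![0, (b.val : ℤ)] τ else 0)]
  refine Finset.sum_congr rfl fun b _ => ?_
  have h0 : (Units.mulRight u) b ≠ 0 ↔ b ≠ 0 := by
    rw [Units.mulRight_apply]
    exact not_congr u.mul_left_eq_zero
  by_cases hb : b ≠ 0
  · rw [if_pos hb, if_pos (h0.mpr hb), Units.mulRight_apply]
    have hb' := (red_ne_zero_iff b).mpr hb
    have h1 : e1 N ![0, ((b * (u : ZMod N)).val : ℤ)] τ = e1 N ![0, (b.val : ℤ)] (γ • τ) * denom γ τ ^ (-1 : ℤ) := by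
      have h2 := congrFun (e1_slash (N := N) (v := ![0, (b.val : ℤ)]) γ) τ
      rw [SL_slash_apply] at h2
      rw [h2]
      have hne := red_vecMul_ne_zero (N := N) hb' γ
      refine (e1_congr hne ?_ τ).symm
      rw [vecMul_zero_left _ _ hγ]
      ext i
      fin_cases i
      · simp [red]
      · simp [red, hu]
    have h3 : fcoef (fun a => ψ (((γ 1 1 : ℤ) : ZMod N) * a)) (b * (u : ZMod N)) = fcoef ψ b := by
      rw [fcoef, fcoef, ← hu, ZMod.dft_comp_unitMul]
      congr 2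
      rw [mul_comm b, Units.inv_mul_cancel_left]
    rw [h1, h3]
    ring
  · rw [if_neg hb, if_neg (fun h => hb (h0.mp h)), zero_mul]

end Fermat.Agent.DSEis
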