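import Fermat.Agent.DS.EisQExp

/-!
# The Weierstrass zeta function and weight one Eisenstein series
-/

set_option autoImplicit false

open UpperHalfPlane ModularForm EisensteinSeries Matrix.SpecialLinearGroup Filter Topology
  CongruenceSubgroup
open scoped MatrixGroups Manifold ModularForm Nat

noncomputable section

namespace Fermat.Agent.DSEis

/-- lattice point -/
def wv (v : Fin 2 → ℤ) (τ : ℍ) : ℂ := v 0 * τ + v 1

/-- summand of the Weierstrass zeta function -/
def zterm (z w : ℂ) : ℂ := 1 / (z - w) + 1 / w + z / w ^ 2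

lemma zterm_of_ne {z w : ℂ} (hw : w ≠ 0) (hzw : z ≠ w) : zterm z w = z ^ 2 / (w ^ 2 * (z - w)) := by
  have : z - w ≠ 0 := sub_ne_zero.mpr hzw
  rw [zterm]
  field_simp
  ring

lemma zterm_div {z w j : ℂ} (hj : j ≠ 0) : zterm (z / j) (w / j) = j * zterm z w := by
  rw [zterm, zterm, ← sub_div, one_div_div, one_div_div]
  have : z / j / (w / j) ^ 2 = j * (z / w ^ 2) := by
    rw [div_pow]
    by_cases hw : w = 0
    · simp [hw]
    · field_simp
  rw [this]
  ring

/-- Weierstrass zeta function -/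
def wz (z : ℂ) (τ : ℍ) : ℂ := ∑' v : Fin 2 → ℤ, zterm z (wv v τ)

lemma le_norm_wv (v : Fin 2 → ℤ) (τ : ℍ) : r τ * ‖v‖ ≤ ‖wv v τ‖ := by
  by_cases hv : v = 0
  · simp [hv, wv]
  · exact r_mul_max_le τ hv

lemma summable_zterm (z : ℂ) (τ : ℍ) : Summable fun v : Fin 2 → ℤ => zterm z (wv v τ) := by
  apply summable_of_isBigO_rpow_norm (a := 3) (by norm_num)
  have hr := r_pos τ
  refine Asymptotics.IsBigO.of_bound (2 * ‖z‖ ^ 2 / r τ ^ 3) ?_
  have h1 : Tendsto (fun v : Fin 2 → ℤ => ‖v‖) cofinite atTop :=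
    tendsto_norm_comp_cofinite_atTop_of_isClosedEmbedding Topology.IsClosedEmbedding.id
  filter_upwards [h1.eventually (eventually_ge_atTop ((2 * ‖z‖ + 1) / r τ))] with v hv
  have h2 : 2 * ‖z‖ + 1 ≤ ‖wv v τ‖ := by
    refine le_trans ?_ (le_norm_wv v τ)
    rw [div_le_iff₀ hr] at hv
    linarith [mul_comm (r τ) ‖v‖]
  have hz0 := norm_nonneg z
  have hw : wv v τ ≠ 0 := by
    rw [← norm_pos_iff]; linarith
  have hzw : z ≠ wv v τ := by
    intro h
    rw [← h] at h2; linarith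
  have h3 : ‖wv v τ‖ / 2 ≤ ‖z - wv v τ‖ := by
    have := norm_sub_norm_le (wv v τ) z
    rw [norm_sub_rev] at this
    linarith
  have hv0 : 0 < ‖v‖ := by
    refine lt_of_lt_of_le (by positivity) hv
  have hw0 : 0 < ‖wv v τ‖ := norm_pos_iff.mpr hw
  have hzw0 : 0 < ‖z - wv v τ‖ := norm_pos_iff.mpr (sub_ne_zero.mpr hzw)
  rw [zterm_of_ne hw hzw, norm_div, norm_mul, norm_pow, norm_pow, norm_inv]
  have h4 : ‖(‖v‖ ^ (3 : ℝ))‖ = ‖v‖ ^ 3 := by
    rw [Real.norm_of_nonneg (by positivity)]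
    norm_cast
  rw [h4, div_le_iff₀ (by positivity)]
  have h5 : (r τ * ‖v‖) ^ 3 ≤ ‖wv v τ‖ ^ 3 := by
    gcongr
    exact le_norm_wv v τ
  have h6 : ‖wv v τ‖ ^ 3 / 2 ≤ ‖wv v τ‖ ^ 2 * ‖z - wv v τ‖ := by
    have : 0 ≤ ‖wv v τ‖ ^ 2 := by positivity
    nlinarith
  calc ‖z‖ ^ 2 = 2 * ‖z‖ ^ 2 / r τ ^ 3 * (‖v‖ ^ 3)⁻¹ * ((r τ * ‖v‖) ^ 3 / 2) := by
        field_simp
    _ ≤ 2 * ‖z‖ ^ 2 / r τ ^ 3 * (‖v‖ ^ 3)⁻¹ * (‖wv v τ‖ ^ 2 * ‖z - wv v τ‖) := by
        gcongr
        linarith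

lemma wv_smul (v : Fin 2 → ℤ) (A : SL(2, ℤ)) (τ : ℍ) :
    wv v (A • τ) = wv (Matrix.vecMul v (A : Matrix (Fin 2) (Fin 2) ℤ)) τ / denom A τ := by
  have h := denom_ne_zero A τ
  rw [eq_div_iff h, wv, wv, UpperHalfPlane.specialLinearGroup_apply]
  rw [ModularGroup.denom_apply] at *
  simp only [Matrix.vecMul, Matrix.vec2_dotProduct]
  have h' : (τ : ℂ) * ((A 1 0 : ℤ) : ℂ) + ((A 1 1 : ℤ) : ℂ) ≠ 0 := by
    rwa [mul_comm (τ : ℂ)]
  simp
  field_simp
  ring

/-- right multiplication by `A` as a permutation of `ℤ²` -/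
def vecEquiv (A : SL(2, ℤ)) : (Fin 2 → ℤ) ≃ (Fin 2 → ℤ) where
  toFun := fun v => Matrix.vecMul v (A : Matrix (Fin 2) (Fin 2) ℤ)
  invFun := fun v => Matrix.vecMul v ((A⁻¹ : SL(2, ℤ)) : Matrix (Fin 2) (Fin 2) ℤ)
  left_inv := fun v => by
    show Matrix.vecMul (Matrix.vecMul v _) _ = v
    rw [Matrix.vecMul_vecMul, ← Matrix.SpecialLinearGroup.coe_mul, mul_inv_cancel,
      Matrix.SpecialLinearGroup.coe_one, Matrix.vecMul_one]
  right_inv := fun v => by
    show Matrix.vecMul (Matrix.vecMul v _) _ = v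
    rw [Matrix.vecMul_vecMul, ← Matrix.SpecialLinearGroup.coe_mul, inv_mul_cancel,
      Matrix.SpecialLinearGroup.coe_one, Matrix.vecMul_one]

lemma vecEquiv_apply (A : SL(2, ℤ)) (v : Fin 2 → ℤ) :
    vecEquiv A v = Matrix.vecMul v (A : Matrix (Fin 2) (Fin 2) ℤ) := rfl

/-- homogeneity -/
lemma wz_smul (z : ℂ) (A : SL(2, ℤ)) (τ : ℍ) :
    wz (z / denom A τ) (A • τ) = denom A τ * wz z τ := by
  rw [wz, wz, ← tsum_mul_left, ← (vecEquiv A).tsum_eq (fun v => denom A τ * zterm z (wv v τ))]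
  refine tsum_congr fun v => ?_
  rw [wv_smul, zterm_div (denom_ne_zero A τ)]
  rfl

/-! ### cotangent as a symmetric sum -/

/-- symmetric sums -/
def symSum (f : ℤ → ℂ) (M : ℕ) : ℂ := ∑ n ∈ Finset.Icc (-(M : ℤ)) M, f n

lemma symSum_zero (f : ℤ → ℂ) : symSum f 0 = f 0 := by simp [symSum]

lemma symSum_succ (f : ℤ → ℂ) (M : ℕ) :
    symSum f (M + 1) = symSum f M + (f (M + 1) + f (-(M + 1))) := by
  rw [symSum, symSum]
  have : Finset.Icc (-((M + 1 : ℕ) : ℤ)) ((M + 1 : ℕ) : ℤ) =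
      insert ((M : ℤ) + 1) (insert (-((M : ℤ) + 1)) (Finset.Icc (-(M : ℤ)) M)) := by
    ext x
    simp only [Finset.mem_Icc, Finset.mem_insert]
    push_cast
    constructor
    · intro h; omega
    · intro h; omega
  rw [this, Finset.sum_insert, Finset.sum_insert]
  · ring
  · simp
  · simp only [Finset.mem_insert, Finset.mem_Icc]
    omega

lemma symSum_eq (f : ℤ → ℂ) (M : ℕ) :
    symSum f M = f 0 + ∑ i ∈ Finset.range M, (f (i + 1) + f (-(i + 1))) := by
  induction M with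
  | zero => simp [symSum_zero]
  | succ M ih => rw [symSum_succ, ih, Finset.sum_range_succ, add_assoc]

lemma symSum_add (f g : ℤ → ℂ) (M : ℕ) :
    symSum (fun n => f n + g n) M = symSum f M + symSum g M := by
  simp [symSum, Finset.sum_add_distrib]

lemma hasSum_iff_tendsto_symSum {f : ℤ → ℂ} {a : ℂ} :
    HasSum f a (SummationFilter.symmetricIcc ℤ) ↔ Tendsto (symSum f) atTop (𝓝 a) :=
  SummationFilter.hasSum_symmetricIcc_iff

lemma tendsto_symSum_of_hasSum {f : ℤ → ℂ} {a : ℂ} (h : HasSum f a) :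
    Tendsto (symSum f) atTop (𝓝 a) :=
  hasSum_iff_tendsto_symSum.mp (h.mono_left (SummationFilter.LeAtTop.le_atTop))

local notation "ℂ_ℤ" => Complex.integerComplement

lemma tendsto_cot {x : ℂ} (hx : x ∈ ℂ_ℤ) :
    Tendsto (symSum (fun n => 1 / (x - n))) atTop (𝓝 (Real.pi * Complex.cot (Real.pi * x))) := by
  have h1 := (tendsto_logDeriv_euler_cot_sub hx).const_add (1 / x)
  rw [add_sub_cancel] at h1
  refine h1.congr fun M => ?_
  rw [symSum_eq]
  congr 1
  · simp
  · refine Finset.sum_congr rfl fun i _ => ?_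
    rw [cotTerm]
    push_cast
    ring

lemma tendsto_cot' {x : ℂ} (hx : x ∈ ℂ_ℤ) :
    Tendsto (symSum (fun n => 1 / (x + n))) atTop (𝓝 (Real.pi * Complex.cot (Real.pi * x))) := by
  refine (tendsto_cot hx).congr fun M => ?_
  rw [symSum_eq, symSum_eq]
  congr 1
  · simp
  · refine Finset.sum_congr rfl fun i _ => ?_
    push_cast
    ring

lemma cot_neg' (x : ℂ) : Complex.cot (-x) = - Complex.cot x := by
  simp [Complex.cot, Complex.cos_neg, Complex.sin_neg, div_neg]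

lemma tendsto_zero_inv : Tendsto (symSum (fun n => 1 / ((0 : ℂ) + n))) atTop (𝓝 0) := by
  refine tendsto_const_nhds.congr fun M => ?_
  rw [symSum_eq]
  simp only [Int.cast_zero, add_zero, div_zero, zero_add]
  rw [Finset.sum_eq_zero]
  intro i _
  push_cast
  rw [one_div, one_div, inv_neg]
  ring

lemma integerComplement_of_im {x : ℂ} (hx : x.im ≠ 0) : x ∈ ℂ_ℤ := by
  rintro ⟨n, rfl⟩
  simp at hx

lemma tendsto_row_inv (m : ℤ) (τ : ℍ) :
    Tendsto (symSum (fun n => 1 / ((m : ℂ) * τ + n))) atTop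
      (𝓝 (Real.pi * Complex.cot (Real.pi * (m * τ)))) := by
  by_cases hm : m = 0
  · subst hm
    have : (Real.pi : ℂ) * Complex.cot (Real.pi * ((0 : ℤ) * τ)) = 0 := by
      simp [Complex.cot]
    rw [this]
    simpa using tendsto_zero_inv
  · refine tendsto_cot' (integerComplement_of_im ?_)
    rw [← Complex.ofReal_intCast, Complex.im_ofReal_mul]
    exact mul_ne_zero (by exact_mod_cast hm) τ.im_ne_zero

lemma tendsto_row_sq (m : ℤ) (τ : ℍ) :
    Tendsto (symSum (fun n => 1 / ((m : ℂ) * τ + n) ^ 2)) atTop (𝓝 (e2Summand m τ)) := by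
  refine tendsto_symSum_of_hasSum ?_
  have h := (e2Summand_summable m τ).hasSum
  have e : (fun n : ℤ => 1 / ((m : ℂ) * τ + n) ^ 2) = fun n : ℤ => eisSummand 2 ![m, n] τ := by
    funext n
    simp [eisSummand]
  rw [e]
  exact h

/-- the function `F(z, τ) = ζ(z) - G₂ z` -/
def Fz (z : ℂ) (τ : ℍ) : ℂ := wz z τ - z * G2 τ

lemma summable_zterm_prod (z : ℂ) (τ : ℍ) :
    Summable fun x : ℤ × ℤ => zterm z (x.1 * τ + x.2) := by
  refine (((finTwoArrowEquiv ℤ).symm.summable_iff).mpr (summable_zterm z τ)).congr fun x => ?_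
  simp [wv]

lemma row_eq {z : ℂ} {τ : ℍ} (m : ℤ) (hz : z - m * τ ∈ ℂ_ℤ) :
    ∑' n : ℤ, zterm z (m * τ + n) = Real.pi * Complex.cot (Real.pi * (z - m * τ)) +
      Real.pi * Complex.cot (Real.pi * (m * τ)) + z * e2Summand m τ := by
  have h1 := tendsto_symSum_of_hasSum ((summable_zterm_prod z τ).prod_factor m).hasSum
  have h2 := ((tendsto_cot hz).add (tendsto_row_inv m τ)).add ((tendsto_row_sq m τ).const_mul z)
  refine tendsto_nhds_unique h1 (h2.congr fun M => ?_)
  simp only [symSum]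
  rw [Finset.mul_sum, ← Finset.sum_add_distrib, ← Finset.sum_add_distrib]
  refine Finset.sum_congr rfl fun n _ => ?_
  rw [zterm, sub_sub]
  ring

lemma wz_eq_tsum (z : ℂ) (τ : ℍ) : HasSum (fun m : ℤ => ∑' n : ℤ, zterm z (m * τ + n)) (wz z τ) := by
  have h := (summable_zterm_prod z τ)
  have e : wz z τ = ∑' x : ℤ × ℤ, zterm z (x.1 * τ + x.2) := by
    rw [wz, ← (finTwoArrowEquiv ℤ).symm.tsum_eq]
    refine tsum_congr fun x => ?_
    simp [wv]
  rw [e, h.tsum_prod]
  exact h.prod.hasSum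

/-- **the main formula** `ζ(z) - G₂ z = ∑_m π cot(π(z - mτ))` (symmetric summation) -/
theorem tendsto_Fz {z : ℂ} {τ : ℍ} (hz : ∀ m : ℤ, z - m * τ ∈ ℂ_ℤ) :
    Tendsto (symSum (fun m => Real.pi * Complex.cot (Real.pi * (z - m * τ)))) atTop
      (𝓝 (Fz z τ)) := by
  have h1 := tendsto_symSum_of_hasSum (wz_eq_tsum z τ)
  have h2 : Tendsto (symSum (fun m => e2Summand m τ)) atTop (𝓝 (G2 τ)) := by
    rw [G2_eq_tsum_cexp]
    exact hasSum_iff_tendsto_symSum.mp (hasSum_e2Summand_symmetricIcc τ)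
  have h3 := h1.sub (h2.const_mul z)
  refine h3.congr fun M => ?_
  have h4 : symSum (fun m : ℤ => Real.pi * Complex.cot (Real.pi * (m * τ))) M = 0 := by
    rw [symSum_eq]
    have : (Real.pi : ℂ) * Complex.cot (Real.pi * ((0 : ℤ) * τ)) = 0 := by
      simp [Complex.cot]
    rw [this, zero_add]
    refine Finset.sum_eq_zero fun i _ => ?_
    push_cast
    rw [show (Real.pi : ℂ) * (-(i + 1) * τ) = -(Real.pi * ((i + 1) * τ)) by ring, cot_neg']
    ring
  have h5 : symSum (fun m : ℤ => ∑' n : ℤ, zterm z (m * τ + n)) M =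
      symSum (fun m => Real.pi * Complex.cot (Real.pi * (z - m * τ))) M +
      symSum (fun m : ℤ => Real.pi * Complex.cot (Real.pi * (m * τ))) M +
      z * symSum (fun m => e2Summand m τ) M := by
    simp only [symSum]
    rw [Finset.mul_sum, ← Finset.sum_add_distrib, ← Finset.sum_add_distrib]
    exact Finset.sum_congr rfl fun m _ => row_eq m (hz m)
  rw [h5, h4]
  ring

/-! ### quasi-periodicity -/

/-- `z` is not a lattice point -/
def NotLat (z : ℂ) (τ : ℍ) : Prop := ∀ m : ℤ, z - m * τ ∈ ℂ_ℤ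

lemma NotLat.add {z : ℂ} {τ : ℍ} (h : NotLat z τ) (a b : ℤ) : NotLat (z + a * τ + b) τ := by
  intro m
  rintro ⟨n, hn⟩
  refine h (m - a) ⟨n - b, ?_⟩
  push_cast
  linear_combination hn

lemma cot_pi_add_int (x : ℂ) (n : ℤ) :
    Complex.cot (Real.pi * (x + n)) = Complex.cot (Real.pi * x) := by
  rw [Complex.cot_pi_eq_exp_ratio, Complex.cot_pi_eq_exp_ratio]
  have : Complex.exp (2 * Real.pi * Complex.I * (x + n)) =
      Complex.exp (2 * Real.pi * Complex.I * x) := by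
    rw [mul_add, Complex.exp_add]
    have : Complex.exp (2 * Real.pi * Complex.I * n) = 1 := by
      rw [mul_comm]
      exact Complex.exp_int_mul_two_pi_mul_I n
    rw [this, mul_one]
  rw [this]

lemma Fz_add_int {z : ℂ} {τ : ℍ} (h : NotLat z τ) (n : ℤ) : Fz (z + n) τ = Fz z τ := by
  have h0 : NotLat (z + n) τ := by simpa using h.add 0 n
  have h1 := tendsto_Fz (z := z + n) (τ := τ) h0
  refine tendsto_nhds_unique h1 ((tendsto_Fz h).congr fun M => ?_)
  simp only [symSum]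
  refine Finset.sum_congr rfl fun m _ => ?_
  rw [show z + n - m * τ = (z - m * τ) + n by ring, cot_pi_add_int]

lemma tendsto_cot_im {x : ℕ → ℂ} (hx : Tendsto (fun n => (x n).im) atTop atTop) :
    Tendsto (fun n => (Real.pi : ℂ) * Complex.cot (Real.pi * x n)) atTop
      (𝓝 (-(Real.pi * Complex.I))) := by
  have h1 : Tendsto (fun n => Complex.exp (2 * Real.pi * Complex.I * x n)) atTop (𝓝 0) := by
    rw [tendsto_zero_iff_norm_tendsto_zero]
    have h2 : ∀ n, ‖Complex.exp (2 * Real.pi * Complex.I * x n)‖ =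
        Real.exp (-(2 * Real.pi * (x n).im)) := by
      intro n
      rw [Complex.norm_exp]
      congr 1
      simp
    simp_rw [h2]
    refine Real.tendsto_exp_neg_atTop_nhds_zero.comp ?_
    exact hx.const_mul_atTop (by positivity)
  simp_rw [Complex.cot_pi_eq_exp_ratio]
  have h3 : Tendsto (fun n => (Real.pi : ℂ) * ((Complex.exp (2 * Real.pi * Complex.I * x n) + 1) /
      (Complex.I * (1 - Complex.exp (2 * Real.pi * Complex.I * x n))))) atTop
      (𝓝 (Real.pi * ((0 + 1) / (Complex.I * (1 - 0))))) := by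
    refine Tendsto.const_mul _ (Tendsto.div (h1.add_const 1) ((h1.const_sub 1).const_mul _) ?_)
    simp
  convert h3 using 2
  simp

lemma tendsto_cot_im' {x : ℕ → ℂ} (hx : Tendsto (fun n => (x n).im) atTop atBot) :
    Tendsto (fun n => (Real.pi : ℂ) * Complex.cot (Real.pi * x n)) atTop
      (𝓝 (Real.pi * Complex.I)) := by
  have h0 : Tendsto (fun n => (-x n).im) atTop atTop := by
    refine (tendsto_neg_atBot_atTop.comp hx).congr fun n => ?_
    simp
  have h1 := (tendsto_cot_im (x := fun n => - x n) h0).neg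
  rw [neg_neg] at h1
  refine h1.congr fun n => ?_
  rw [mul_neg, cot_neg']
  ring

lemma symSum_shift (f : ℤ → ℂ) (M : ℕ) :
    symSum (fun m => f (m - 1)) M = symSum f M + f (-(M + 1)) - f M := by
  induction M with
  | zero => simp [symSum_zero]
  | succ M ih =>
    rw [symSum_succ, ih, symSum_succ]
    push_cast
    ring_nf

lemma Fz_add_tau {z : ℂ} {τ : ℍ} (h : NotLat z τ) :
    Fz (z + τ) τ = Fz z τ - 2 * Real.pi * Complex.I := by
  have h0 : NotLat (z + τ) τ := by simpa using h.add 1 0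
  have h1 := tendsto_Fz (z := z + τ) (τ := τ) h0
  have hpos := τ.im_pos
  have h2 : Tendsto (fun M : ℕ => (Real.pi : ℂ) * Complex.cot (Real.pi * (z + (M + 1) * τ))) atTop
      (𝓝 (-(Real.pi * Complex.I))) := by
    refine tendsto_cot_im ?_
    have : ∀ M : ℕ, (z + ((M : ℂ) + 1) * τ).im = z.im + (M + 1) * τ.im := by
      intro M
      simp
    simp_rw [this]
    refine tendsto_atTop_add_const_left _ _ (Tendsto.atTop_mul_const hpos ?_)
    exact tendsto_atTop_add_const_right _ _ tendsto_natCast_atTop_atTop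
  have h3 : Tendsto (fun M : ℕ => (Real.pi : ℂ) * Complex.cot (Real.pi * (z - M * τ))) atTop
      (𝓝 (Real.pi * Complex.I)) := by
    refine tendsto_cot_im' ?_
    have : ∀ M : ℕ, (z - (M : ℂ) * τ).im = z.im + -(M * τ.im) := by
      intro M
      simp
      ring
    simp_rw [this]
    refine tendsto_atBot_add_const_left _ _ (tendsto_neg_atTop_atBot.comp ?_)
    exact Tendsto.atTop_mul_const hpos tendsto_natCast_atTop_atTop
  have h4 := ((tendsto_Fz h).add h2).sub h3
  rw [show Fz z τ + -(Real.pi * Complex.I) - Real.pi * Complex.I =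
    Fz z τ - 2 * Real.pi * Complex.I by ring] at h4
  refine tendsto_nhds_unique h1 (h4.congr fun M => ?_)
  have h5 := symSum_shift (fun m : ℤ => (Real.pi : ℂ) * Complex.cot (Real.pi * (z - m * τ))) M
  have h6 : symSum (fun m : ℤ => (Real.pi : ℂ) * Complex.cot (Real.pi * (z + τ - m * τ))) M =
      symSum (fun m : ℤ => (Real.pi : ℂ) * Complex.cot (Real.pi * (z - (m - 1 : ℤ) * τ))) M := by
    simp only [symSum]
    refine Finset.sum_congr rfl fun m _ => ?_
    push_cast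
    ring_nf
  rw [h6, h5]
  congr 2
  push_cast
  ring_nf

lemma Fz_add_nat_tau {z : ℂ} {τ : ℍ} (h : NotLat z τ) (n : ℕ) :
    Fz (z + n * τ) τ = Fz z τ - 2 * Real.pi * Complex.I * n := by
  induction n with
  | zero => simp
  | succ n ih =>
    have h1 : NotLat (z + n * τ) τ := by simpa using h.add n 0
    rw [show z + ((n + 1 : ℕ) : ℂ) * τ = (z + n * τ) + τ by push_cast; ring, Fz_add_tau h1, ih]
    push_cast
    ring

lemma Fz_add_int_tau {z : ℂ} {τ : ℍ} (h : NotLat z τ) (n : ℤ) :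
    Fz (z + n * τ) τ = Fz z τ - 2 * Real.pi * Complex.I * n := by
  obtain ⟨k, rfl | rfl⟩ := n.eq_nat_or_neg
  · exact_mod_cast Fz_add_nat_tau h k
  · have h1 : NotLat (z + (-(k : ℤ) : ℤ) * τ) τ := by simpa using h.add (-k) 0
    have h2 := Fz_add_nat_tau h1 k
    rw [show z + ((-(k : ℤ) : ℤ) : ℂ) * τ + k * τ = z by push_cast; ring] at h2
    rw [h2]
    push_cast
    ring

/-- modular transformation of `F` -/
lemma Fz_smul (z : ℂ) (A : SL(2, ℤ)) (τ : ℍ) :
    Fz (z / denom A τ) (A • τ) = denom A τ * Fz z τ + 2 * Real.pi * Complex.I * (A 1 0) * z := by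
  have hj := denom_ne_zero A τ
  have h1 : G2 (A • τ) = denom A τ ^ 2 * (G2 τ - 2 * Real.pi * Complex.I * (A 1 0) / denom A τ) := by
    have := congrFun (G2_slash_action A) τ
    rw [SL_slash_apply] at this
    simp only [Pi.sub_apply, D2] at this
    rw [← this, zpow_neg, mul_comm (G2 _), ← mul_assoc]
    rw [show denom A τ ^ 2 * (denom A τ ^ (2 : ℤ))⁻¹ = 1 from by
      rw [zpow_ofNat]; exact mul_inv_cancel₀ (pow_ne_zero 2 hj), one_mul]
  rw [Fz, Fz, wz_smul, h1]
  field_simp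
  ring

end Fermat.Agent.DSEis
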