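import Fermat.Agent.DS.Zeta1

/-!
# Lambert series for the function `F(z, τ)`
-/

set_option autoImplicit false

open UpperHalfPlane ModularForm EisensteinSeries Matrix.SpecialLinearGroup Filter Topology
  CongruenceSubgroup
open scoped MatrixGroups Manifold ModularForm Nat

noncomputable section

namespace Fermat.Agent.DSEis

/-- `e(x) = exp(2πix)` -/
def ee (x : ℂ) : ℂ := Complex.exp (2 * Real.pi * Complex.I * x)

lemma ee_add (x y : ℂ) : ee (x + y) = ee x * ee y := by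
  rw [ee, ee, ee, ← Complex.exp_add]
  ring_nf

lemma ee_neg (x : ℂ) : ee (-x) = (ee x)⁻¹ := by
  rw [ee, ee, ← Complex.exp_neg]
  ring_nf

lemma ee_nat_mul (n : ℕ) (x : ℂ) : ee (n * x) = ee x ^ n := by
  rw [ee, ee, ← Complex.exp_nat_mul]
  ring_nf

lemma ee_ne_zero (x : ℂ) : ee x ≠ 0 := Complex.exp_ne_zero _

lemma norm_ee (x : ℂ) : ‖ee x‖ = Real.exp (-(2 * Real.pi * x.im)) := by
  rw [ee, Complex.norm_exp]
  congr 1
  simp

lemma norm_ee_lt_one {x : ℂ} (hx : 0 < x.im) : ‖ee x‖ < 1 := by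
  rw [norm_ee, Real.exp_lt_one_iff]
  have := Real.pi_pos
  nlinarith [mul_pos this hx]

lemma pi_cot_eq {w : ℂ} (hw : 0 < w.im) :
    (Real.pi : ℂ) * Complex.cot (Real.pi * w) =
      -(Real.pi * Complex.I) - 2 * Real.pi * Complex.I * ∑' n : ℕ+, ee w ^ (n : ℕ) := by
  have h := pi_mul_cot_pi_q_exp ⟨w, hw⟩
  have h2 := tsum_zero_pnat_eq_tsum_nat (f := fun n : ℕ => ee w ^ n)
    (summable_geometric_of_norm_lt_one (norm_ee_lt_one hw))
  have h3 : (Real.pi : ℂ) * Complex.cot (Real.pi * w) =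
      Real.pi * Complex.I - 2 * Real.pi * Complex.I * ∑' n : ℕ, ee w ^ n := h
  rw [h3, ← h2]
  ring

/-- the summand of the Lambert series -/
def lam (z : ℂ) (τ : ℍ) (c : ℕ+ × ℕ+) : ℂ :=
  (ee z ^ (c.2 : ℕ) - (ee z)⁻¹ ^ (c.2 : ℕ)) * ee τ ^ (c.1 * c.2 : ℕ)

lemma norm_lam_le {z : ℂ} {τ : ℍ} {δ : ℝ} (hz : |z.im| + δ ≤ τ.im) (c : ℕ+ × ℕ+) :
    ‖lam z τ c‖ ≤ 2 * Real.exp (-(2 * Real.pi * δ)) ^ (c.1 * c.2 : ℕ) := by
  have hπ := Real.pi_pos
  have h1 : (1 : ℝ) ≤ (c.1 : ℕ) := by exact_mod_cast Nat.one_le_iff_ne_zero.mpr c.1.ne_zero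
  have h2 : (1 : ℝ) ≤ (c.2 : ℕ) := by exact_mod_cast Nat.one_le_iff_ne_zero.mpr c.2.ne_zero
  have hp : (0 : ℝ) ≤ |z.im| := abs_nonneg _
  have key : ∀ s : ℝ, |s| ≤ |z.im| →
      Real.exp (-(2 * Real.pi * s)) ^ (c.2 : ℕ) * Real.exp (-(2 * Real.pi * τ.im)) ^ (c.1 * c.2 : ℕ)
        ≤ Real.exp (-(2 * Real.pi * δ)) ^ (c.1 * c.2 : ℕ) := by
    intro s hs
    rw [← Real.exp_nat_mul, ← Real.exp_nat_mul, ← Real.exp_nat_mul, ← Real.exp_add,
      Real.exp_le_exp]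
    push_cast
    have h3 : -s ≤ |z.im| := (neg_le_abs s).trans hs
    have h4 : (c.2 : ℝ) * -s ≤ (c.1 : ℝ) * c.2 * |z.im| := by
      calc (c.2 : ℝ) * -s ≤ c.2 * |z.im| := by gcongr
        _ ≤ (c.1 : ℝ) * (c.2 * |z.im|) := le_mul_of_one_le_left (by positivity) h1
        _ = (c.1 : ℝ) * c.2 * |z.im| := by ring
    have h5 : (c.1 : ℝ) * c.2 * (|z.im| + δ) ≤ (c.1 : ℝ) * c.2 * τ.im := by gcongr
    have h6 : (c.2 : ℝ) * -s + (c.1 : ℝ) * c.2 * δ ≤ (c.1 : ℝ) * c.2 * τ.im := by linarith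
    nlinarith
  rw [lam, sub_mul]
  refine (norm_sub_le _ _).trans ?_
  rw [norm_mul, norm_mul, norm_pow, norm_pow, norm_pow, norm_inv, norm_ee, norm_ee,
    ← Real.exp_neg, neg_neg]
  have k1 := key z.im le_rfl
  have k2 := key (-z.im) (by rw [abs_neg])
  rw [show -(2 * Real.pi * -z.im) = 2 * Real.pi * z.im by ring] at k2
  rw [UpperHalfPlane.coe_im]
  linarith

lemma summable_lam {z : ℂ} {τ : ℍ} (hz : |z.im| < τ.im) : Summable (lam z τ) := by
  have hδ : 0 < τ.im - |z.im| := by linarith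
  have hr : ‖Real.exp (-(2 * Real.pi * (τ.im - |z.im|)))‖ < 1 := by
    rw [Real.norm_of_nonneg (Real.exp_pos _).le, Real.exp_lt_one_iff]
    have := Real.pi_pos
    nlinarith [mul_pos this hδ]
  refine Summable.of_norm_bounded (g := fun c : ℕ+ × ℕ+ =>
    2 * Real.exp (-(2 * Real.pi * (τ.im - |z.im|))) ^ (c.1 * c.2 : ℕ)) ?_
    (norm_lam_le (by linarith))
  have := summable_prod_mul_pow 0 hr
  simpa using this.mul_left 2

/-- The Lambert series for `F`. -/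
theorem Fz_eq {z : ℂ} {τ : ℍ} (h : NotLat z τ) (hz : |z.im| < τ.im) :
    Fz z τ = Real.pi * Complex.cot (Real.pi * z) -
      2 * Real.pi * Complex.I * ∑' c : ℕ+ × ℕ+, lam z τ c := by
  have hs := summable_lam hz
  have h1 : HasSum (fun m : ℕ+ => -(2 * Real.pi * Complex.I) * ∑' y : ℕ+, lam z τ (m, y))
      (-(2 * Real.pi * Complex.I) * ∑' c : ℕ+ × ℕ+, lam z τ c) := by
    rw [hs.tsum_prod]
    exact hs.prod.hasSum.mul_left _
  have h2 : ∀ m : ℕ+, -(2 * Real.pi * Complex.I) * ∑' y : ℕ+, lam z τ (m, y) =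
      Real.pi * Complex.cot (Real.pi * (z - (m : ℕ) * τ)) +
      Real.pi * Complex.cot (Real.pi * (z + (m : ℕ) * τ)) := by
    intro m
    have hm : (1 : ℝ) ≤ (m : ℕ) := by exact_mod_cast Nat.one_le_iff_ne_zero.mpr m.ne_zero
    have hτ := τ.im_pos
    have i1 : 0 < (z + (m : ℕ) * τ).im := by
      have : (z + (m : ℕ) * (τ : ℂ)).im = z.im + m * τ.im := by simp
      rw [this]
      have := neg_abs_le z.im
      nlinarith
    have i2 : 0 < ((m : ℕ) * (τ : ℂ) - z).im := by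
      have : ((m : ℕ) * (τ : ℂ) - z).im = m * τ.im - z.im := by simp
      rw [this]
      have := le_abs_self z.im
      nlinarith
    have e1 : (Real.pi : ℂ) * Complex.cot (Real.pi * (z - (m : ℕ) * τ)) =
        - (Real.pi * Complex.cot (Real.pi * ((m : ℕ) * τ - z))) := by
      rw [show (Real.pi : ℂ) * (z - (m : ℕ) * τ) = -(Real.pi * ((m : ℕ) * τ - z)) by ring, cot_neg']
      ring
    rw [e1, pi_cot_eq i1, pi_cot_eq i2]
    have s1 : Summable fun y : ℕ+ => ee (z + (m : ℕ) * τ) ^ (y : ℕ) :=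
      (summable_geometric_of_norm_lt_one (norm_ee_lt_one i1)).comp_injective PNat.coe_injective
    have s2 : Summable fun y : ℕ+ => ee ((m : ℕ) * τ - z) ^ (y : ℕ) :=
      (summable_geometric_of_norm_lt_one (norm_ee_lt_one i2)).comp_injective PNat.coe_injective
    have e2 : ∑' y : ℕ+, lam z τ (m, y) =
        ∑' y : ℕ+, ee (z + (m : ℕ) * τ) ^ (y : ℕ) - ∑' y : ℕ+, ee ((m : ℕ) * τ - z) ^ (y : ℕ) := by
      rw [← s1.tsum_sub s2]
      refine tsum_congr fun y => ?_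
      rw [lam, sub_eq_add_neg ((m : ℕ) * (τ : ℂ)), ee_add, ee_add, ee_neg, ee_nat_mul]
      simp only [mul_pow, ← pow_mul]
      ring
    rw [e2]
    ring
  simp_rw [h2] at h1
  rw [hasSum_pnat_iff_hasSum_succ (f := fun m : ℕ => (Real.pi : ℂ) *
    Complex.cot (Real.pi * (z - (m : ℕ) * τ)) +
      Real.pi * Complex.cot (Real.pi * (z + (m : ℕ) * τ)))] at h1
  have h3 := h1.tendsto_sum_nat.const_add ((Real.pi : ℂ) * Complex.cot (Real.pi * z))
  refine tendsto_nhds_unique (tendsto_Fz h) ?_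
  rw [sub_eq_add_neg, ← neg_mul]
  refine h3.congr fun M => ?_
  rw [symSum_eq]
  congr 1
  · simp
  · refine Finset.sum_congr rfl fun i _ => ?_
    push_cast
    ring_nf

end Fermat.Agent.DSEis
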